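import Fermat.Agent.RV.Loc1

/-!
# Chart 1: the theorem
-/

set_option autoImplicit false
set_option maxSynthPendingDepth 3
set_option linter.unusedSectionVars false

noncomputable section

attribute [-instance] HahnSeries.instModule HahnSeries.instSMul HahnSeries.instDistribMulAction
  HahnSeries.instSMulZeroClass

namespace Fermat.Agent.H23.R

open ModularCurve ModularCurve.IgusaScheme Polynomial AlgebraicCurve Fermat.Agent.H26
  Fermat.Agent.H26.RV IntermediateField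
open Fermat.Agent.Q (Red)
open scoped IntermediateField

local notation "Qb" => AlgebraicClosure ℚ
local notation "kk" => IsLocalRing.ResidueField

variable {q M : ℕ} [hq : Fact q.Prime] [NeZero M] (hqM : Nat.Coprime q M)
  {A : ValuationSubring Qb} (hA : A.LiesOverPrime q)

/-- the condition on the auxiliary level -/
def AuxLvl (q M : ℕ) : Prop := (q ≠ 2 ∧ 4 ∣ M) ∨ (q = 2 ∧ 9 ∣ M)

include hqM in
omit [NeZero M] in
theorem AuxLvl.good (h : AuxLvl q M) : GoodLvl q M := by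
  refine ⟨fun h1 => ?_, ?_⟩
  · have h2 := Nat.Coprime.eq_one_of_dvd hqM h1
    exact hq.out.one_lt.ne' h2
  · rcases h with ⟨h1, h2⟩ | ⟨h1, h2⟩
    · exact Or.inl ⟨(by norm_num : 2 ∣ 4).trans h2, h1⟩
    · refine Or.inr ⟨(by norm_num : 3 ∣ 9).trans h2, ?_⟩
      rw [h1]; norm_num

include hA in
/-- **CHART 1** -/
theorem chart1 (hG : AuxLvl q M)
    (hL : ∀ (i : Fin 3) (z : LF (K0 A) (M * q * q)) (u : LaurentSeries (kk A)),
      Red A (io hqM (K0 A) i z) u → u ∈ LK A M)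
    (had : Adapted (A0 A) (K0 A) (V hqM (K0 A) hA) (q : A0 A) (jK (K0 A) (M * q * q)))
    [FiniteDimensional (K0 A)⟮jK (K0 A) (M * q * q)⟯ (LF (K0 A) (M * q * q))]
    (hU0 : IsUnif (V hqM (K0 A) hA 0) (q : LF (K0 A) (M * q * q)))
    (hU2 : IsUnif (V hqM (K0 A) hA 2) (q : LF (K0 A) (M * q * q)))
    (hU1 : ∀ π : LF (K0 A) (M * q * q),
      rv (V hqM (K0 A) hA 1) (π ^ (q - 1) * (q : LF (K0 A) (M * q * q))⁻¹) ≠ 0 →
      ∀ z ∈ V hqM (K0 A) hA 1, rv (V hqM (K0 A) hA 1) z = 0 → z * π⁻¹ ∈ V hqM (K0 A) hA 1)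
    (s : Ideal (intSub (K0 A) (jK (K0 A) (M * q * q)) ⊓ vert (V hqM (K0 A) hA) :
      Subring (LF (K0 A) (M * q * q)))) [s.IsPrime]
    (hs : ∀ a : (intSub (K0 A) (jK (K0 A) (M * q * q)) ⊓ vert (V hqM (K0 A) hA) :
      Subring (LF (K0 A) (M * q * q))), (a : LF (K0 A) (M * q * q)) = q → a ∈ s) :
    UniqueFactorizationMonoid (locSub _ s) ∧
    ((∃ i j : Fin 3, i ≠ j ∧
      (∀ z : (intSub (K0 A) (jK (K0 A) (M * q * q)) ⊓ vert (V hqM (K0 A) hA) :
        Subring (LF (K0 A) (M * q * q))), rv (V hqM (K0 A) hA i) z = 0 → z ∈ s) ∧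
      (∀ z : (intSub (K0 A) (jK (K0 A) (M * q * q)) ⊓ vert (V hqM (K0 A) hA) :
        Subring (LF (K0 A) (M * q * q))), rv (V hqM (K0 A) hA j) z = 0 → z ∈ s)) →
      ∀ (l : Fin 3) (z : (intSub (K0 A) (jK (K0 A) (M * q * q)) ⊓ vert (V hqM (K0 A) hA) :
        Subring (LF (K0 A) (M * q * q)))), rv (V hqM (K0 A) hA l) z = 0 → z ∈ s) := by
  have hac : IsAlgClosed (kk A) := H29.isAlgClosed_residue A
  have hck := charP_kk (q := q) hA
  have hdvr := isDVR_A0 hq.out hA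
  have hirr := irreducible_q hq.out hA
  have hGL := hG.good hqM
  have heq : intSub (K0 A) (jK (K0 A) (M * q * q)) ⊓ vert (V hqM (K0 A) hA) =
      intSub (A0 A) (jK (K0 A) (M * q * q)) := had.eq hirr
  have hI : ∀ z ∈ Loc1.R1 hqM hA, z ∈ intSub (A0 A) (jK (K0 A) (M * q * q)) := by
    intro z hz
    rw [← heq]; exact hz
  have hN : IsNoetherianRing (intSub (K0 A) (jK (K0 A) (M * q * q)) ⊓ vert (V hqM (K0 A) hA) :
      Subring (LF (K0 A) (M * q * q))) := by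
    rw [heq]
    exact isNoetherianRing_intSub (A0 := A0 A) (K0 := K0 A) had.tr
  have hM : (M : kk A) ≠ 0 := by
    rw [ne_eq, CharP.cast_eq_zero_iff (kk A) q]
    exact hGL.1
  have hD := Loc1.isDedekindDomain_DD (A := A) (M := M) hM
  obtain ⟨r, hr, D, hrM, S, hS, hDg⟩ : ∃ (r : ℕ) (_ : NeZero r) (D : Igusa.HData r) (_ : r ∣ M)
      (S : Finset (kk A)), Igusa.SSData D q (kk A) S ∧ Igusa.Good D (kk A) := by
    rcases hG with ⟨h2, h4⟩ | ⟨h2, h9⟩
    · obtain ⟨S, hS⟩ := Igusa.exists_ssData_odd q (k := kk A) h2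
      exact ⟨4, ⟨by norm_num⟩, Igusa.H4, h4, S, hS, Igusa.good_four (kk A) hq.out h2⟩
    · subst h2
      exact ⟨9, ⟨by norm_num⟩, Igusa.H9, h9, {1}, Igusa.ssData_two, Igusa.good_nine (kk A)⟩
  have hr0 : ((r : ℕ) : kk A) ≠ 0 := by
    rw [ne_eq, CharP.cast_eq_zero_iff (kk A) q]
    exact fun h => hGL.1 (h.trans hrM)
  obtain ⟨m₁, m₂, u, h⟩ := Loc1.exists_locOne hqM hA hL hI D hrM hGL hr0 hS hDg hU0 hU2 hU1
  exact ⟨h.ufd s hs, fun ⟨i, j, hij, hi, hj⟩ l z hz => h.all_ker s hij hi hj l z hz⟩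

end Fermat.Agent.H23.R
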