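import Mathlib
import Fermat.Agent.H23.R.Norm

/-!
# Valuation rings over a discrete valuation ring and the fundamental (in)equality
-/

set_option autoImplicit false
set_option linter.unusedSectionVars false

noncomputable section

open IsLocalRing

namespace Fermat.Agent.H26.RV

open Fermat.Agent.H23.R

section Val

variable {F : Type*} [Field F] {V : ValuationSubring F}

theorem rv_ne_zero_iff_val {z : F} : rv V z ≠ 0 ↔ V.valuation z = 1 := by
  rw [rv_ne_zero_iff]
  constructor
  · rintro ⟨h0, h1, h2⟩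
    rw [← V.valuation_le_one_iff] at h1 h2
    rw [map_inv₀] at h2
    have h3 : V.valuation z ≠ 0 := (Valuation.ne_zero_iff _).mpr h0
    exact le_antisymm h1 ((inv_le_one₀ (zero_lt_iff.mpr h3)).mp h2)
  · intro h
    refine ⟨?_, ?_, ?_⟩
    · rintro rfl
      rw [map_zero] at h
      exact zero_ne_one h
    · rw [← V.valuation_le_one_iff, h]
    · rw [← V.valuation_le_one_iff, map_inv₀, h, inv_one]

theorem rv_eq_zero_iff_val {z : F} (hz : z ∈ V) : rv V z = 0 ↔ V.valuation z < 1 := by
  rw [← not_iff_not, ← ne_eq, rv_ne_zero_iff_val, not_lt]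
  exact ⟨fun h => h.ge, fun h => le_antisymm ((V.valuation_le_one_iff z).mpr hz) h⟩

theorem mem_iff_val {z : F} : z ∈ V ↔ V.valuation z ≤ 1 := (V.valuation_le_one_iff z).symm

theorem mul_inv_mem_iff {z y : F} (hy : y ≠ 0) :
    z * y⁻¹ ∈ V ↔ V.valuation z ≤ V.valuation y := by
  have h : 0 < V.valuation y := zero_lt_iff.mpr ((Valuation.ne_zero_iff _).mpr hy)
  rw [mem_iff_val, map_mul, map_inv₀, mul_inv_le_iff₀ h, one_mul]

end Val

variable {E F : Type*} [Field E] [Field F] [Algebra E F] {ι : Type*} [Fintype ι] [DecidableEq ι]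

/-- Valuation rings `V i` over the discrete valuation ring `W`, with ramification at least `e i`
and residue degree at least `f i`. -/
structure Fund (W : ValuationSubring E) (ϖ : E) (V : ι → ValuationSubring F) (e f : ι → ℕ)
    (s π : ι → F) (b : ∀ i, Fin (f i) → F) : Prop where
  unif : IsUnif W ϖ
  lies : ∀ i (z : E), algebraMap E F z ∈ V i ↔ z ∈ W
  arch : ∀ i (z y : F), y ∈ V i → rv (V i) y = 0 → ∃ k : ℕ, z * y ^ k ∈ V i
  s_mem : ∀ i l, s i ∈ V l
  s_ne : ∀ i, rv (V i) (s i) ≠ 0
  s_zero : ∀ i l, l ≠ i → rv (V l) (s i) = 0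
  e_pos : ∀ i, 0 < e i
  ram : ∀ i, rv (V i) (π i ^ e i * (algebraMap E F ϖ)⁻¹) ≠ 0
  b_mem : ∀ i k, b i k ∈ V i
  indep : ∀ i (c : Fin (f i) → E), (∀ k, c k ∈ W) →
    rv (V i) (∑ k, algebraMap E F (c k) * b i k) = 0 → ∀ k, rv W (c k) = 0
  card : Module.finrank E F ≤ ∑ i, e i * f i

namespace Fund

variable {W : ValuationSubring E} {ϖ : E} {V : ι → ValuationSubring F} {e f : ι → ℕ}
  {s π : ι → F} {b : ∀ i, Fin (f i) → F}

section

variable (h : Fund W ϖ V e f s π b)

include h

theorem ϖ_ne : algebraMap E F ϖ ≠ 0 := (map_ne_zero _).mpr h.unif.ne_zero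

theorem val_map_le {c d : E} (hcd : W.valuation c ≤ W.valuation d) (hd : d ≠ 0) (i : ι) :
    (V i).valuation (algebraMap E F c) ≤ (V i).valuation (algebraMap E F d) := by
  rw [← mul_inv_mem_iff ((map_ne_zero _).mpr hd), ← map_inv₀, ← map_mul, h.lies,
    mul_inv_mem_iff hd]
  exact hcd

theorem val_c_le {c : E} (hc : c ∈ W) (i : ι) : (V i).valuation (algebraMap E F c) ≤ 1 :=
  mem_iff_val.mp ((h.lies i c).mpr hc)

/-- nonunits of `W` are divisible by `ϖ`. -/
theorem val_le_of_rv {c : E} (hc : c ∈ W) (hc0 : rv W c = 0) : W.valuation c ≤ W.valuation ϖ := by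
  by_cases h0 : c = 0
  · rw [h0, map_zero]; exact zero_le'
  obtain ⟨n, hn⟩ := h.unif.exists_zpow c h0
  rw [rv_ne_zero_iff_val, map_mul, map_zpow₀] at hn
  have hϖ : W.valuation ϖ < 1 := (rv_eq_zero_iff_val h.unif.mem).mp h.unif.res
  have hϖ0 : W.valuation ϖ ≠ 0 := (Valuation.ne_zero_iff _).mpr h.unif.ne_zero
  have hc1 : W.valuation c < 1 := (rv_eq_zero_iff_val hc).mp hc0
  have h1 : W.valuation c = W.valuation ϖ ^ (-n) := by
    rw [zpow_neg]
    exact eq_inv_of_mul_eq_one_left hn
  rw [h1] at hc1 ⊢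
  have h2 : 0 < -n := by
    by_contra hneg
    push Not at hneg
    have : (1 : W.ValueGroup) ≤ W.valuation ϖ ^ (-n) := by
      have h3 := zpow_le_zpow_right_of_le_one₀ (zero_lt_iff.mpr hϖ0) hϖ.le hneg
      rwa [zpow_zero] at h3
    exact absurd hc1 (not_lt.mpr this)
  have h3 := zpow_le_zpow_right_of_le_one₀ (zero_lt_iff.mpr hϖ0) hϖ.le (Int.add_one_le_iff.mpr h2)
  rwa [zero_add, zpow_one] at h3

theorem π_pow (i : ι) : (V i).valuation (π i) ^ e i = (V i).valuation (algebraMap E F ϖ) := by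
  have h1 := h.ram i
  rw [rv_ne_zero_iff_val, map_mul, map_pow, map_inv₀] at h1
  have h2 : (V i).valuation (algebraMap E F ϖ) ≠ 0 := (Valuation.ne_zero_iff _).mpr h.ϖ_ne
  exact (mul_inv_eq_one₀ h2).mp h1

theorem val_ϖ_lt (i : ι) : (V i).valuation (algebraMap E F ϖ) < 1 := by
  have h1 : rv (V i) (algebraMap E F ϖ) = 0 :=
    (rv_map_eq_zero_iff (h.lies i)).mpr h.unif.res
  exact (rv_eq_zero_iff_val ((h.lies i _).mpr h.unif.mem)).mp h1

theorem val_π_lt (i : ι) : (V i).valuation (π i) < 1 := by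
  by_contra hcon
  push Not at hcon
  have h1 := h.π_pow i
  have h2 := h.val_ϖ_lt i
  rw [← h1] at h2
  exact absurd h2 (not_lt.mpr (one_le_pow₀ hcon))

theorem val_ϖ_le_π (i : ι) : (V i).valuation (algebraMap E F ϖ) ≤ (V i).valuation (π i) := by
  rw [← h.π_pow i]
  exact pow_le_of_le_one zero_le' (h.val_π_lt i).le (h.e_pos i).ne'

theorem val_π_ne (i : ι) : (V i).valuation (π i) ≠ 0 := by
  intro h0
  have h1 := h.π_pow i
  rw [h0, zero_pow (h.e_pos i).ne'] at h1
  exact (Valuation.ne_zero_iff _).mpr h.ϖ_ne h1.symm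

/-- the local computation at `V i`. -/
theorem local_indep (i : ι) (c : Fin (e i) → Fin (f i) → E) (hc : ∀ j k, c j k ∈ W)
    (hsum : (V i).valuation (∑ j : Fin (e i), π i ^ (j : ℕ) *
      ∑ k, algebraMap E F (c j k) * b i k) ≤ (V i).valuation (algebraMap E F ϖ)) (j : Fin (e i))
    (k : Fin (f i)) : rv W (c j k) = 0 := by
  classical
  let β : Fin (e i) → F := fun j => ∑ k, algebraMap E F (c j k) * b i k
  have hβ : ∀ j, (V i).valuation (β j) ≤ 1 := fun j =>
    Valuation.map_sum_le _ fun k _ => by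
      rw [map_mul]
      exact mul_le_one' (h.val_c_le (hc j k) i) (mem_iff_val.mp (h.b_mem i k))
  have hπ0 : (V i).valuation (π i) ≠ 0 := h.val_π_ne i
  have hπ1 := h.val_π_lt i
  suffices H : ∀ n : ℕ, ∀ j : Fin (e i), (j : ℕ) = n → ∀ k, rv W (c j k) = 0 from H _ j rfl k
  intro n
  induction n using Nat.strong_induction_on with
  | _ n ih =>
    intro j hj
    apply h.indep i (c j) (hc j)
    change rv (V i) (β j) = 0
    rw [rv_eq_zero_iff_val (mem_iff_val.mpr (hβ j))]
    have h1 : ∀ j' ∈ Finset.univ.erase j, (V i).valuation (π i ^ (j' : ℕ) * β j') ≤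
        (V i).valuation (π i) ^ ((j : ℕ) + 1) := by
      intro j' hj'
      rw [map_mul, map_pow]
      rcases lt_or_gt_of_ne (fun heq => (Finset.mem_erase.mp hj').1 (Fin.ext heq) :
        (j' : ℕ) ≠ (j : ℕ)) with hlt | hgt
      · have h2 : (V i).valuation (β j') ≤ (V i).valuation (algebraMap E F ϖ) := by
          refine Valuation.map_sum_le _ fun k _ => ?_
          rw [map_mul]
          refine mul_le_of_le_of_le_one ?_ (mem_iff_val.mp (h.b_mem i k))
          exact h.val_map_le (h.val_le_of_rv (hc j' k) (ih j' (hj ▸ hlt) j' rfl k))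
            h.unif.ne_zero i
        calc (V i).valuation (π i) ^ (j' : ℕ) * (V i).valuation (β j')
            ≤ 1 * (V i).valuation (algebraMap E F ϖ) :=
              mul_le_mul' (pow_le_one₀ zero_le' hπ1.le) h2
          _ = (V i).valuation (π i) ^ e i := by rw [one_mul, h.π_pow i]
          _ ≤ _ := pow_le_pow_right_of_le_one' hπ1.le j.2
      · calc (V i).valuation (π i) ^ (j' : ℕ) * (V i).valuation (β j')
            ≤ (V i).valuation (π i) ^ (j' : ℕ) * 1 := mul_le_mul' le_rfl (hβ j')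
          _ ≤ _ := by rw [mul_one]; exact pow_le_pow_right_of_le_one' hπ1.le hgt
    have h2 : π i ^ (j : ℕ) * β j = (∑ j : Fin (e i), π i ^ (j : ℕ) * β j) -
        ∑ j' ∈ Finset.univ.erase j, π i ^ (j' : ℕ) * β j' := by
      rw [← Finset.add_sum_erase _ _ (Finset.mem_univ j)]
      ring
    have h3 : (V i).valuation (π i ^ (j : ℕ) * β j) ≤ (V i).valuation (π i) ^ ((j : ℕ) + 1) := by
      rw [h2]
      refine (Valuation.map_sub _ _ _).trans (max_le ?_ ?_)
      · refine hsum.trans ?_
        rw [← h.π_pow i]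
        exact pow_le_pow_right_of_le_one' hπ1.le j.2
      · exact Valuation.map_sum_le _ h1
    rw [map_mul, map_pow, pow_succ] at h3
    have h4 : 0 < (V i).valuation (π i) ^ (j : ℕ) := pow_pos (zero_lt_iff.mpr hπ0) _
    exact lt_of_le_of_lt (le_of_mul_le_mul_left h3 h4) hπ1

/-- a common exponent making the separators small. -/
theorem exists_exponent (T : Finset F) (i : ι) :
    ∃ N : ℕ, ∀ n ≥ N, ∀ z ∈ T, ∀ l, l ≠ i →
      (V l).valuation (s i ^ n * z) ≤ (V l).valuation (algebraMap E F ϖ) := by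
  classical
  have h1 : ∀ (z : F) (l : ι), l ≠ i → ∃ k : ℕ, z * (algebraMap E F ϖ)⁻¹ * s i ^ k ∈ V l :=
    fun z l hl => h.arch l _ _ (h.s_mem i l) (h.s_zero i l hl)
  have h2 : ∀ (z : F) (l : ι), ∃ k : ℕ, l ≠ i → z * (algebraMap E F ϖ)⁻¹ * s i ^ k ∈ V l := by
    intro z l
    by_cases hl : l ≠ i
    · obtain ⟨k, hk⟩ := h1 z l hl
      exact ⟨k, fun _ => hk⟩
    · exact ⟨0, fun h => absurd h hl⟩
  choose k hk using h2
  refine ⟨T.sup fun z => Finset.univ.sup (k z), fun n hn z hz l hl => ?_⟩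
  have h3 : k z l ≤ n := le_trans (le_trans (Finset.le_sup (f := k z) (Finset.mem_univ l))
    (Finset.le_sup (f := fun z => Finset.univ.sup (k z)) hz)) hn
  obtain ⟨m, hm⟩ := Nat.exists_eq_add_of_le h3
  have h4 : s i ^ n * z * (algebraMap E F ϖ)⁻¹ =
      s i ^ m * (z * (algebraMap E F ϖ)⁻¹ * s i ^ (k z l)) := by
    rw [hm, pow_add]; ring
  rw [← mul_inv_mem_iff h.ϖ_ne, h4]
  exact (V l).mul_mem _ _ (pow_mem (h.s_mem i l) _) (hk z l hl)

theorem val_s_eq (i : ι) : (V i).valuation (s i) = 1 := rv_ne_zero_iff_val.mp (h.s_ne i)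

end

/-- index set of the basis -/
abbrev Idx (e f : ι → ℕ) : Type _ := Σ i, Fin (e i) × Fin (f i)

/-- the basis -/
def gen (s π : ι → F) (b : ∀ i, Fin (f i) → F) (N : ι → ℕ) (x : Idx e f) : F :=
  s x.1 ^ N x.1 * (π x.1 ^ (x.2.1 : ℕ) * b x.1 x.2.2)

section

variable (h : Fund W ϖ V e f s π b)

include h

theorem exists_N : ∃ N : ι → ℕ, ∀ (x : Idx e f) l, l ≠ x.1 →
    (V l).valuation (gen s π b N x) ≤ (V l).valuation (algebraMap E F ϖ) := by
  classical
  have h1 : ∀ i, ∃ N : ℕ, ∀ n ≥ N, ∀ z ∈ (Finset.univ : Finset (Fin (e i) × Fin (f i))).image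
      (fun x => π i ^ (x.1 : ℕ) * b i x.2), ∀ l, l ≠ i →
      (V l).valuation (s i ^ n * z) ≤ (V l).valuation (algebraMap E F ϖ) :=
    fun i => h.exists_exponent _ i
  choose N hN using h1
  refine ⟨N, fun x l hl => ?_⟩
  exact hN x.1 _ le_rfl _ (Finset.mem_image_of_mem _ (Finset.mem_univ x.2)) l hl

variable {N : ι → ℕ} (hN : ∀ (x : Idx e f) l, l ≠ x.1 →
    (V l).valuation (gen s π b N x) ≤ (V l).valuation (algebraMap E F ϖ))

include hN

theorem gen_mem (x : Idx e f) (l : ι) : gen s π b N x ∈ V l := by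
  rw [mem_iff_val]
  by_cases hl : l = x.1
  · subst hl
    rw [gen, map_mul, map_mul, map_pow, map_pow, h.val_s_eq, one_pow, one_mul]
    exact mul_le_one' (pow_le_one₀ zero_le' (h.val_π_lt _).le) (mem_iff_val.mp (h.b_mem _ _))
  · exact (hN x l hl).trans (h.val_ϖ_lt l).le

/-- the terms at the other places are small. -/
theorem sum_other (c : Idx e f → E) (hc : ∀ x, c x ∈ W) (i : ι) :
    (V i).valuation (∑ x, algebraMap E F (c x) * gen s π b N x -
      s i ^ N i * ∑ j : Fin (e i), π i ^ (j : ℕ) *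
        ∑ k, algebraMap E F (c ⟨i, (j, k)⟩) * b i k) ≤ (V i).valuation (algebraMap E F ϖ) := by
  classical
  have h1 : ∑ x, algebraMap E F (c x) * gen s π b N x =
      ∑ l, ∑ y : Fin (e l) × Fin (f l), algebraMap E F (c ⟨l, y⟩) * gen s π b N ⟨l, y⟩ :=
    Fintype.sum_sigma _
  have h2 : ∑ y : Fin (e i) × Fin (f i), algebraMap E F (c ⟨i, y⟩) * gen s π b N ⟨i, y⟩ =
      s i ^ N i * ∑ j : Fin (e i), π i ^ (j : ℕ) *
        ∑ k, algebraMap E F (c ⟨i, (j, k)⟩) * b i k := by
    rw [Fintype.sum_prod_type, Finset.mul_sum]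
    refine Finset.sum_congr rfl fun j _ => ?_
    rw [Finset.mul_sum, Finset.mul_sum]
    refine Finset.sum_congr rfl fun k _ => ?_
    change algebraMap E F (c ⟨i, (j, k)⟩) * (s i ^ N i * (π i ^ (j : ℕ) * b i k)) = _
    ring
  rw [h1, ← Finset.add_sum_erase _ _ (Finset.mem_univ i), h2, add_sub_cancel_left]
  refine Valuation.map_sum_le _ fun l hl => Valuation.map_sum_le _ fun y _ => ?_
  rw [map_mul]
  exact mul_le_of_le_one_of_le (h.val_c_le (hc _) i)
    (hN ⟨l, y⟩ i (fun hil => (Finset.mem_erase.mp hl).1 hil.symm))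

/-- independence modulo `ϖ`. -/
theorem indep_mod (c : Idx e f → E) (hc : ∀ x, c x ∈ W)
    (hsum : ∀ i, (V i).valuation (∑ x, algebraMap E F (c x) * gen s π b N x) ≤
      (V i).valuation (algebraMap E F ϖ)) (x : Idx e f) : rv W (c x) = 0 := by
  obtain ⟨i, j, k⟩ := x
  refine h.local_indep i (fun j k => c ⟨i, (j, k)⟩) (fun j k => hc _) ?_ j k
  have h1 := h.sum_other hN c hc i
  have h2 : (V i).valuation (s i ^ N i * ∑ j : Fin (e i), π i ^ (j : ℕ) *
        ∑ k, algebraMap E F (c ⟨i, (j, k)⟩) * b i k) ≤ (V i).valuation (algebraMap E F ϖ) := by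
    have h3 : s i ^ N i * ∑ j : Fin (e i), π i ^ (j : ℕ) *
        ∑ k, algebraMap E F (c ⟨i, (j, k)⟩) * b i k =
        (∑ x, algebraMap E F (c x) * gen s π b N x) -
        (∑ x, algebraMap E F (c x) * gen s π b N x -
          s i ^ N i * ∑ j : Fin (e i), π i ^ (j : ℕ) *
          ∑ k, algebraMap E F (c ⟨i, (j, k)⟩) * b i k) := by ring
    rw [h3]
    exact (Valuation.map_sub _ _ _).trans (max_le (hsum i) h1)
  rwa [map_mul, map_pow, h.val_s_eq, one_pow, one_mul] at h2

/-- the basis is linearly independent. -/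
theorem linearIndependent : LinearIndependent E (gen s π b N : Idx e f → F) := by
  classical
  rw [Fintype.linearIndependent_iff]
  intro c hc0
  by_contra hcon
  push Not at hcon
  obtain ⟨x₁, hx₁⟩ := hcon
  obtain ⟨x₀, -, hx₀⟩ := Finset.exists_max_image Finset.univ (fun x => W.valuation (c x))
    ⟨x₁, Finset.mem_univ x₁⟩
  have hc0' : c x₀ ≠ 0 := by
    intro h0
    have := hx₀ x₁ (Finset.mem_univ _)
    rw [h0, map_zero] at this
    exact (Valuation.ne_zero_iff _).mpr hx₁ (le_zero_iff.mp this)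
  have h1 : rv W (c x₀ * (c x₀)⁻¹) = 0 := by
    refine h.indep_mod hN (fun x => c x * (c x₀)⁻¹) (fun x => ?_) (fun i => ?_) x₀
    · rw [mul_inv_mem_iff hc0']
      exact hx₀ x (Finset.mem_univ _)
    · have h2 : ∑ x, algebraMap E F (c x * (c x₀)⁻¹) * gen s π b N x = 0 := by
        rw [← mul_zero (algebraMap E F (c x₀)⁻¹), ← hc0, Finset.mul_sum]
        refine Finset.sum_congr rfl fun x _ => ?_
        rw [map_mul, Algebra.smul_def]
        ring
      rw [h2, map_zero]
      exact zero_le'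
  rw [mul_inv_cancel₀ hc0', rv_one] at h1
  exact one_ne_zero h1

/-- Elements of all `V i` are integral combinations of the basis. -/
theorem exists_coeff [FiniteDimensional E F] {z : F} (hz : ∀ i, z ∈ V i) :
    ∃ c : Idx e f → E, (∀ x, c x ∈ W) ∧ z = ∑ x, algebraMap E F (c x) * gen s π b N x := by
  classical
  have hli := h.linearIndependent hN
  have hcard : Fintype.card (Idx e f) = Module.finrank E F := by
    refine le_antisymm hli.fintype_card_le_finrank ?_
    refine h.card.trans_eq ?_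
    rw [Fintype.card_sigma]
    refine Finset.sum_congr rfl fun i _ => ?_
    rw [Fintype.card_prod, Fintype.card_fin, Fintype.card_fin]
  have htop := hli.span_eq_top_of_card_eq_finrank' hcard
  obtain ⟨c, hc⟩ := (Submodule.mem_span_range_iff_exists_fun E).mp
    (show z ∈ Submodule.span E (Set.range (gen s π b N : Idx e f → F)) by
      rw [htop]; exact Submodule.mem_top)
  have hc' : z = ∑ x, algebraMap E F (c x) * gen s π b N x := by
    rw [← hc]
    exact Finset.sum_congr rfl fun x _ => Algebra.smul_def _ _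
  refine ⟨c, fun x => ?_, hc'⟩
  by_contra hx
  obtain ⟨x₀, -, hx₀⟩ := Finset.exists_max_image Finset.univ (fun x => W.valuation (c x))
    ⟨x, Finset.mem_univ x⟩
  have h1 : 1 < W.valuation (c x₀) :=
    lt_of_lt_of_le (not_le.mp (mt mem_iff_val.mpr hx)) (hx₀ x (Finset.mem_univ _))
  have hc0' : c x₀ ≠ 0 := by
    intro h0
    rw [h0, map_zero] at h1
    exact not_lt_zero' h1
  have hinv : (c x₀)⁻¹ ∈ W := by
    rw [mem_iff_val, map_inv₀]
    exact inv_le_one_of_one_le₀ h1.le
  have hinv0 : rv W (c x₀)⁻¹ = 0 := by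
    rw [rv_eq_zero_iff_val hinv, map_inv₀]
    exact inv_lt_one_of_one_lt₀ h1
  have h2 : rv W (c x₀ * (c x₀)⁻¹) = 0 := by
    refine h.indep_mod hN (fun x => c x * (c x₀)⁻¹) (fun x => ?_) (fun i => ?_) x₀
    · rw [mul_inv_mem_iff hc0']
      exact hx₀ x (Finset.mem_univ _)
    · have h3 : ∑ x, algebraMap E F (c x * (c x₀)⁻¹) * gen s π b N x =
          algebraMap E F (c x₀)⁻¹ * z := by
        rw [hc', Finset.mul_sum]
        refine Finset.sum_congr rfl fun x _ => ?_
        rw [map_mul]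
        ring
      rw [h3, map_mul]
      exact mul_le_of_le_of_le_one (h.val_map_le (h.val_le_of_rv hinv hinv0) h.unif.ne_zero i)
        (mem_iff_val.mp (hz i))
  rw [mul_inv_cancel₀ hc0', rv_one] at h2
  exact one_ne_zero h2

end

section Main

variable [FiniteDimensional E F] (h : Fund W ϖ V e f s π b)

include h

/-- Elements of all the `V i` are integral over `W`. -/
theorem isIntegral {z : F} (hz : ∀ i, z ∈ V i) : IsIntegral W z := by
  classical
  obtain ⟨N, hN⟩ := h.exists_N
  let S : Subalgebra W F :=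
    { carrier := {z | ∀ i, z ∈ V i}
      mul_mem' := fun ha hb i => (V i).mul_mem _ _ (ha i) (hb i)
      add_mem' := fun ha hb i => (V i).add_mem _ _ (ha i) (hb i)
      algebraMap_mem' := fun r i => (h.lies i r).mpr r.2 }
  have hfg : S.toSubmodule.FG := by
    refine ⟨Finset.univ.image (gen s π b N : Idx e f → F), ?_⟩
    apply le_antisymm
    · rw [Submodule.span_le]
      intro y hy
      rw [Finset.coe_image, Finset.coe_univ, Set.image_univ] at hy
      obtain ⟨x, rfl⟩ := hy
      exact fun i => h.gen_mem hN x i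
    · intro y hy
      obtain ⟨c, hc, rfl⟩ := h.exists_coeff hN (z := y) hy
      refine Submodule.sum_mem _ fun x _ => ?_
      have h1 : algebraMap E F (c x) * gen s π b N x = (⟨c x, hc x⟩ : W) • gen s π b N x :=
        (Algebra.smul_def _ _).symm
      rw [h1]
      refine Submodule.smul_mem _ _ (Submodule.subset_span ?_)
      rw [Finset.coe_image, Finset.coe_univ, Set.image_univ]
      exact ⟨x, rfl⟩
  exact IsIntegral.of_mem_of_fg S hfg z hz

/-- elements of the `V i` can be moved into the intersection. -/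
theorem exists_pow_mul_mem (i : ι) (T : Finset F) (hT : ∀ z ∈ T, z ∈ V i) :
    ∃ n₀ : ℕ, ∀ n ≥ n₀, ∀ z ∈ T, ∀ l, s i ^ n * z ∈ V l := by
  obtain ⟨n₀, hn₀⟩ := h.exists_exponent T i
  refine ⟨n₀, fun n hn z hz l => ?_⟩
  by_cases hl : l = i
  · subst hl
    exact (V l).mul_mem _ _ (pow_mem (h.s_mem l l) _) (hT z hz)
  · rw [mem_iff_val]
    exact (hn₀ n hn z hz l hl).trans (h.val_ϖ_lt l).le

/-- expansion of an element of the intersection at `V i` modulo the maximal ideal. -/
theorem exists_approx {N : ι → ℕ} (hN : ∀ (x : Idx e f) l, l ≠ x.1 →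
    (V l).valuation (gen s π b N x) ≤ (V l).valuation (algebraMap E F ϖ)) (i : ι) {w : F}
    (hw : ∀ l, w ∈ V l) : ∃ c : Fin (f i) → E, (∀ k, c k ∈ W) ∧
      (V i).valuation (w - s i ^ N i * ∑ k, algebraMap E F (c k) * b i k) ≤
        (V i).valuation (π i) := by
  classical
  obtain ⟨c, hc, rfl⟩ := h.exists_coeff hN hw
  let j₀ : Fin (e i) := ⟨0, h.e_pos i⟩
  refine ⟨fun k => c ⟨i, (j₀, k)⟩, fun k => hc _, ?_⟩
  have h1 := (h.sum_other hN c hc i).trans (h.val_ϖ_le_π i)
  have h2 : (V i).valuation (s i ^ N i * ∑ j : Fin (e i), π i ^ (j : ℕ) *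
        ∑ k, algebraMap E F (c ⟨i, (j, k)⟩) * b i k -
      s i ^ N i * ∑ k, algebraMap E F (c ⟨i, (j₀, k)⟩) * b i k) ≤ (V i).valuation (π i) := by
    rw [← mul_sub, ← Finset.add_sum_erase _ _ (Finset.mem_univ j₀)]
    have h3 : π i ^ ((j₀ : Fin (e i)) : ℕ) = 1 := pow_zero _
    rw [h3, one_mul, add_sub_cancel_left, map_mul, map_pow, h.val_s_eq, one_pow, one_mul]
    refine Valuation.map_sum_le _ fun j hj => ?_
    have hj0 : (j : ℕ) ≠ 0 := fun h0 => (Finset.mem_erase.mp hj).1 (Fin.ext h0)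
    rw [map_mul, map_pow]
    refine mul_le_of_le_of_le_one (pow_le_of_le_one zero_le' (h.val_π_lt i).le hj0) ?_
    refine Valuation.map_sum_le _ fun k _ => ?_
    rw [map_mul]
    exact mul_le_one' (h.val_c_le (hc _) i) (mem_iff_val.mp (h.b_mem i k))
  have h3 := (Valuation.map_add (V i).valuation _ _).trans (max_le h1 h2)
  rwa [sub_add_sub_cancel] at h3

/-- `π i` is a uniformizer of `V i`. -/
theorem val_le_π (i : ι) {z : F} (hz : (V i).valuation z < 1) :
    (V i).valuation z ≤ (V i).valuation (π i) := by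
  obtain ⟨N, hN⟩ := h.exists_N
  obtain ⟨n, hn⟩ := h.exists_pow_mul_mem i {z} (fun y hy => by
    rw [Finset.mem_singleton] at hy
    rw [hy, mem_iff_val]
    exact hz.le)
  have hw := hn n le_rfl z (Finset.mem_singleton_self z)
  obtain ⟨c, hc, hcw⟩ := h.exists_approx hN i hw
  have hwz : (V i).valuation (s i ^ n * z) = (V i).valuation z := by
    rw [map_mul, map_pow, h.val_s_eq, one_pow, one_mul]
  have h1 : (V i).valuation (s i ^ N i * ∑ k, algebraMap E F (c k) * b i k) < 1 := by
    have h2 : s i ^ N i * ∑ k, algebraMap E F (c k) * b i k = s i ^ n * z -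
        (s i ^ n * z - s i ^ N i * ∑ k, algebraMap E F (c k) * b i k) := by ring
    rw [h2]
    refine lt_of_le_of_lt (Valuation.map_sub _ _ _) (max_lt ?_ ?_)
    · rw [hwz]; exact hz
    · exact lt_of_le_of_lt hcw (h.val_π_lt i)
  rw [map_mul, map_pow, h.val_s_eq, one_pow, one_mul] at h1
  have h3 : ∀ k, rv W (c k) = 0 := by
    apply h.indep i c hc
    rw [rv_eq_zero_iff_val (mem_iff_val.mpr h1.le)]
    exact h1
  have h4 : (V i).valuation (s i ^ N i * ∑ k, algebraMap E F (c k) * b i k) ≤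
      (V i).valuation (π i) := by
    rw [map_mul, map_pow, h.val_s_eq, one_pow, one_mul]
    refine le_trans ?_ (h.val_ϖ_le_π i)
    refine Valuation.map_sum_le _ fun k _ => ?_
    rw [map_mul]
    exact mul_le_of_le_of_le_one (h.val_map_le (h.val_le_of_rv (hc k) (h3 k)) h.unif.ne_zero i)
      (mem_iff_val.mp (h.b_mem i k))
  have h5 := (Valuation.map_add (V i).valuation _ _).trans (max_le hcw h4)
  rwa [sub_add_cancel, hwz] at h5

/-- the residue field of `V i` is spanned by the residues of the `b i`. -/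
theorem exists_residue (i : ι) {z : F} (hz : z ∈ V i) :
    ∃ c : Fin (f i) → E, (∀ k, c k ∈ W) ∧
      (V i).valuation (z - ∑ k, algebraMap E F (c k) * b i k) < 1 := by
  classical
  obtain ⟨N, hN⟩ := h.exists_N
  -- the elements `b i k` and `z`
  let y : Option (Fin (f i)) → F := fun o => o.elim z (b i)
  have hy : ∀ o, y o ∈ V i := by
    rintro (_ | k)
    · exact hz
    · exact h.b_mem i k
  obtain ⟨n₀, hn₀⟩ := h.exists_pow_mul_mem i (Finset.univ.image y) (fun w hw => by
    obtain ⟨o, -, rfl⟩ := Finset.mem_image.mp hw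
    exact hy o)
  have hmem : ∀ o l, s i ^ n₀ * y o ∈ V l := fun o l =>
    hn₀ n₀ le_rfl _ (Finset.mem_image_of_mem _ (Finset.mem_univ o)) l
  choose c hc hcw using fun o => h.exists_approx hN i (hmem o)
  -- a relation between the coefficient vectors
  let v : Option (Fin (f i)) → (Fin (f i) → ResidueField W) := fun o k => rv W (c o k)
  obtain ⟨g, hg0, hg⟩ : ∃ g : Option (Fin (f i)) → ResidueField W,
      ∑ o, g o • v o = 0 ∧ ∃ o, g o ≠ 0 := by
    have hnli : ¬ LinearIndependent (ResidueField W) v := by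
      intro hli
      have := hli.fintype_card_le_finrank
      rw [Module.finrank_fin_fun, Fintype.card_option, Fintype.card_fin] at this
      omega
    rw [Fintype.linearIndependent_iff] at hnli
    push Not at hnli
    exact hnli
  have hlift : ∀ o, ∃ lam ∈ W, rv W lam = g o := fun o => rv_surj (g o)
  choose lam hlam hlamg using hlift
  have h1 : ∀ k, rv W (∑ o, lam o * c o k) = 0 := by
    intro k
    have h2 := congrFun hg0 k
    rw [Finset.sum_apply, Pi.zero_apply] at h2
    rw [rv_of_mem (sum_mem fun o _ => W.mul_mem _ _ (hlam o) (hc o k)), ← h2]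
    have h3 : (⟨∑ o, lam o * c o k, sum_mem fun o _ => W.mul_mem _ _ (hlam o) (hc o k)⟩ : W) =
        ∑ o, (⟨lam o, hlam o⟩ : W) * ⟨c o k, hc o k⟩ := by
      apply Subtype.ext
      push_cast
      rfl
    rw [h3, map_sum]
    refine Finset.sum_congr rfl fun o _ => ?_
    rw [map_mul, Pi.smul_apply, smul_eq_mul, ← hlamg o, rv_of_mem (hlam o)]
    congr 1
    exact (rv_of_mem (hc o k)).symm
  -- hence a relation between the elements
  have h2 : (V i).valuation (∑ o, algebraMap E F (lam o) * y o) < 1 := by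
    have h3 : (V i).valuation (s i ^ n₀ * ∑ o, algebraMap E F (lam o) * y o) < 1 := by
      have h4 : s i ^ n₀ * ∑ o, algebraMap E F (lam o) * y o =
          ∑ o, algebraMap E F (lam o) * (s i ^ n₀ * y o -
            s i ^ N i * ∑ k, algebraMap E F (c o k) * b i k) +
          s i ^ N i * ∑ k, algebraMap E F (∑ o, lam o * c o k) * b i k := by
        have h5 : ∑ k, algebraMap E F (∑ o, lam o * c o k) * b i k =
            ∑ o, algebraMap E F (lam o) * ∑ k, algebraMap E F (c o k) * b i k := by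
          simp_rw [map_sum, Finset.sum_mul, map_mul, Finset.mul_sum]
          rw [Finset.sum_comm]
          refine Finset.sum_congr rfl fun o _ => Finset.sum_congr rfl fun k _ => ?_
          ring
        rw [h5, Finset.mul_sum, Finset.mul_sum, ← Finset.sum_add_distrib]
        refine Finset.sum_congr rfl fun o _ => ?_
        ring
      rw [h4]
      refine lt_of_le_of_lt (Valuation.map_add _ _ _) (max_lt ?_ ?_)
      · refine lt_of_le_of_lt (Valuation.map_sum_le _ fun o _ => ?_) (h.val_π_lt i)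
        rw [map_mul]
        exact mul_le_of_le_one_of_le (h.val_c_le (hlam o) i) (hcw o)
      · rw [map_mul, map_pow, h.val_s_eq, one_pow, one_mul]
        refine lt_of_le_of_lt (Valuation.map_sum_le _ fun k _ => ?_) (h.val_ϖ_lt i)
        rw [map_mul]
        exact mul_le_of_le_of_le_one (h.val_map_le (h.val_le_of_rv
          (sum_mem fun o _ => W.mul_mem _ _ (hlam o) (hc o k)) (h1 k)) h.unif.ne_zero i)
          (mem_iff_val.mp (h.b_mem i k))
    rwa [map_mul, map_pow, h.val_s_eq, one_pow, one_mul] at h3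
  -- the coefficient of `z` is a unit
  have h3 : rv W (lam none) ≠ 0 := by
    intro h0
    obtain ⟨o, ho⟩ := hg
    rw [Fintype.sum_option] at h2
    have h4 : (V i).valuation (∑ k, algebraMap E F (lam (some k)) * b i k) < 1 := by
      have h5 : ∑ k, algebraMap E F (lam (some k)) * b i k =
          (algebraMap E F (lam none) * y none + ∑ k, algebraMap E F (lam (some k)) * y (some k)) -
          algebraMap E F (lam none) * y none := by
        change _ = (algebraMap E F (lam none) * y none +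
          ∑ k, algebraMap E F (lam (some k)) * b i k) - _
        ring
      rw [h5]
      refine lt_of_le_of_lt (Valuation.map_sub _ _ _) (max_lt h2 ?_)
      rw [map_mul]
      refine lt_of_le_of_lt (mul_le_of_le_of_le_one (h.val_map_le
        (h.val_le_of_rv (hlam none) h0) h.unif.ne_zero i) (mem_iff_val.mp (hy none)))
        (h.val_ϖ_lt i)
    have h6 := h.indep i (fun k => lam (some k)) (fun k => hlam _) (by
      rw [rv_eq_zero_iff_val (mem_iff_val.mpr h4.le)]
      exact h4)
    apply ho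
    rcases o with _ | k
    · rw [← hlamg]; exact h0
    · rw [← hlamg]; exact h6 k
  obtain ⟨hl0, -, hlinv⟩ := rv_ne_zero_iff.mp h3
  refine ⟨fun k => -(lam none)⁻¹ * lam (some k),
    fun k => W.mul_mem _ _ (W.neg_mem _ hlinv) (hlam _), ?_⟩
  have h4 : z - ∑ k, algebraMap E F (-(lam none)⁻¹ * lam (some k)) * b i k =
      algebraMap E F (lam none)⁻¹ * ∑ o, algebraMap E F (lam o) * y o := by
    rw [Fintype.sum_option, mul_add, ← mul_assoc, ← map_mul, inv_mul_cancel₀ hl0, map_one, one_mul,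
      Finset.mul_sum]
    change z - _ = z + ∑ k, algebraMap E F (lam none)⁻¹ * (algebraMap E F (lam (some k)) * b i k)
    rw [sub_eq_add_neg, ← Finset.sum_neg_distrib]
    congr 1
    refine Finset.sum_congr rfl fun k _ => ?_
    rw [map_mul, map_neg]
    ring
  rw [h4, map_mul]
  have h5 : (V i).valuation (algebraMap E F (lam none)⁻¹) ≤ 1 := h.val_c_le hlinv i
  exact lt_of_le_of_lt (mul_le_of_le_one_of_le h5 le_rfl) h2

end Main

end Fund

end Fermat.Agent.H26.RV
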