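import Mathlib
import Fermat.Agent.Q.KInf
import Fermat.Agent.Q.Galois
import Fermat.Agent.H08.RankOne
import Fermat.Agent.RV.Fund

/-!
# Gauss valuations via embeddings into Laurent series
-/

set_option autoImplicit false
set_option linter.unusedSectionVars false

noncomputable section

namespace Fermat.Agent.H26.RV

open Fermat.Agent.H23.R ModularCurve HahnSeries
open Fermat.Agent.Q (Red VL FL)

local notation "kk" => IsLocalRing.ResidueField

section Gauss

variable {K : Type*} [Field K] [CharZero K] [Algebra ℚ K] [Algebra.IsAlgebraic ℚ K]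
  {A : ValuationSubring K} {q : ℕ} (hq : q.Prime) (hA : A.LiesOverPrime q)

theorem laurentC_ne_zero {c : K} (hc : c ≠ 0) : (HahnSeries.C c : LaurentSeries K) ≠ 0 := by
  rw [ne_eq, map_eq_zero]; exact hc

/-- the residue of a constant vanishes iff it is a nonunit. -/
theorem redC_eq_zero_iff {c : K} (hc : c ∈ A) :
    (HahnSeries.C (IsLocalRing.residue A ⟨c, hc⟩) : LaurentSeries (kk A)) = 0 ↔
      A.valuation c < 1 := by
  rw [map_eq_zero, IsLocalRing.residue_eq_zero_iff, A.valuation_lt_one_iff]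

include hq hA in
theorem mem_or_inv_VL {z : LaurentSeries K} (hz : z ∈ FL A) : z ∈ VL A ∨ z⁻¹ ∈ VL A := by
  by_cases hz0 : z = 0
  · left; rw [hz0]; exact (VL A).zero_mem
  obtain ⟨c, hc, u, hu, hred⟩ := Q.exists_red hq hA hz hz0
  have hC := laurentC_ne_zero hc
  rcases A.mem_or_inv_mem c with hcA | hcA
  · right
    have h1 := (Red.C hcA).mul (hred.inv hu)
    have h2 : HahnSeries.C c * (HahnSeries.C c * z)⁻¹ = z⁻¹ := by
      rw [mul_inv, ← mul_assoc, mul_inv_cancel₀ hC, one_mul]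
    rw [h2] at h1
    exact ⟨_, h1⟩
  · left
    have h1 := (Red.C hcA).mul hred
    have h2 : HahnSeries.C c⁻¹ * (HahnSeries.C c * z) = z := by
      rw [← mul_assoc, ← map_mul, inv_mul_cancel₀ hc, map_one, one_mul]
    rw [h2] at h1
    exact ⟨_, h1⟩

variable {F : Type*} [Field F]

/-- The valuation ring of `F` induced by the Gauss norm and an embedding into Laurent series. -/
def gaussV (ι : F →+* LaurentSeries K) (hι : ∀ z, ι z ∈ FL A) : ValuationSubring F where
  carrier := {z | ι z ∈ VL A}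
  mul_mem' := fun {a b} ha hb => by
    change ι (a * b) ∈ VL A
    rw [map_mul]; exact (VL A).mul_mem ha hb
  one_mem' := by
    change ι 1 ∈ VL A
    rw [map_one]; exact (VL A).one_mem
  add_mem' := fun {a b} ha hb => by
    change ι (a + b) ∈ VL A
    rw [map_add]; exact (VL A).add_mem ha hb
  zero_mem' := by
    change ι 0 ∈ VL A
    rw [map_zero]; exact (VL A).zero_mem
  neg_mem' := fun {a} ha => by
    change ι (-a) ∈ VL A
    rw [map_neg]; exact (VL A).neg_mem ha
  mem_or_inv_mem' := fun z => by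
    change ι z ∈ VL A ∨ ι z⁻¹ ∈ VL A
    rw [map_inv₀]
    exact mem_or_inv_VL hq hA (hι z)

variable {ι : F →+* LaurentSeries K} {hι : ∀ z, ι z ∈ FL A}

theorem mem_gaussV {z : F} : z ∈ gaussV hq hA ι hι ↔ ∃ u, Red A (ι z) u := Iff.rfl

theorem mem_of_red {z : F} {u : LaurentSeries (kk A)} (h : Red A (ι z) u) :
    z ∈ gaussV hq hA ι hι := ⟨u, h⟩

theorem rv_eq_zero_iff_red {z : F} {u : LaurentSeries (kk A)} (h : Red A (ι z) u) :
    rv (gaussV hq hA ι hι) z = 0 ↔ u = 0 := by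
  constructor
  · intro hz
    by_contra hu
    have h1 : rv (gaussV hq hA ι hι) z ≠ 0 := by
      rw [rv_ne_zero_iff]
      refine ⟨?_, ⟨u, h⟩, ⟨u⁻¹, ?_⟩⟩
      · rintro rfl
        rw [map_zero] at h
        exact hu (h.unique Red.zero)
      · rw [map_inv₀]; exact h.inv hu
    exact h1 hz
  · intro hu
    by_contra hz
    rw [← ne_eq, rv_ne_zero_iff] at hz
    obtain ⟨h0, -, v, hv⟩ := hz
    have h1 := h.mul hv
    rw [map_inv₀, mul_inv_cancel₀ ((map_ne_zero ι).mpr h0), hu, zero_mul] at h1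
    exact one_ne_zero (Red.one.unique h1)

theorem rv_ne_zero_iff_red {z : F} {u : LaurentSeries (kk A)} (h : Red A (ι z) u) :
    rv (gaussV hq hA ι hι) z ≠ 0 ↔ u ≠ 0 := not_congr (rv_eq_zero_iff_red hq hA h)

theorem rv_eq_iff_red {z w : F} {u v : LaurentSeries (kk A)} (h : Red A (ι z) u)
    (h' : Red A (ι w) v) :
    rv (gaussV hq hA ι hι) z = rv (gaussV hq hA ι hι) w ↔ u = v := by
  rw [← sub_eq_zero, ← rv_sub (mem_of_red hq hA h) (mem_of_red hq hA h'),
    rv_eq_zero_iff_red hq hA (u := u - v) (by rw [map_sub]; exact h.sub h'), sub_eq_zero]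

include hq hA in
theorem exists_red_gauss {z : F} (hz : z ≠ 0) (hι' : ∀ z, ι z ∈ FL A) :
    ∃ c : K, c ≠ 0 ∧ ∃ u, u ≠ 0 ∧ Red A (HahnSeries.C c * ι z) u :=
  Q.exists_red hq hA (hι' z) ((map_ne_zero ι).mpr hz)

/-- rank one. -/
theorem arch_gauss (z y : F) (hy : y ∈ gaussV hq hA ι hι) (hy0 : rv (gaussV hq hA ι hι) y = 0) :
    ∃ k : ℕ, z * y ^ k ∈ gaussV hq hA ι hι := by
  haveI := H08.mulArchimedean_valueGroup hq hA
  by_cases hz0 : z = 0
  · exact ⟨0, by rw [hz0, zero_mul]; exact (gaussV hq hA ι hι).zero_mem⟩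
  by_cases hy00 : y = 0
  · exact ⟨1, by rw [hy00, pow_one, mul_zero]; exact (gaussV hq hA ι hι).zero_mem⟩
  obtain ⟨d, hd, v, hv, hdv⟩ := exists_red_gauss hq hA hz0 hι
  obtain ⟨c, hc, u, hu, hcu⟩ := exists_red_gauss hq hA hy00 hι
  have hC := laurentC_ne_zero hc
  have hD := laurentC_ne_zero hd
  -- `1 < v(c)`
  have hc1 : 1 < A.valuation c := by
    by_contra hcon
    rw [not_lt, A.valuation_le_one_iff] at hcon
    obtain ⟨w, hw⟩ := hy
    have h1 := (Red.C hcon).mul hw
    have h2 := h1.unique hcu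
    have hw0 : w = 0 := (rv_eq_zero_iff_red hq hA hw).mp hy0
    rw [hw0, mul_zero] at h2
    exact hu h2.symm
  obtain ⟨k, hk⟩ := MulArchimedean.arch (A.valuation d⁻¹) hc1
  refine ⟨k, ?_⟩
  have h3 : (d⁻¹ * (c ^ k)⁻¹) ∈ A := by
    rw [← A.valuation_le_one_iff, map_mul, map_inv₀ _ (c ^ k), map_pow]
    have h4 : 0 < A.valuation c ^ k := pow_pos (lt_trans zero_lt_one hc1) _
    rwa [mul_inv_le_iff₀ h4, one_mul]
  have h5 := (Red.C h3).mul (hdv.mul (hcu.pow k))
  have h6 : HahnSeries.C (d⁻¹ * (c ^ k)⁻¹) * ((HahnSeries.C d * ι z) * (HahnSeries.C c * ι y) ^ k) =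
      ι (z * y ^ k) := by
    rw [map_mul, map_inv₀, map_inv₀, map_pow, map_mul ι, map_pow ι, mul_pow]
    field_simp
  rw [h6] at h5
  exact ⟨_, h5⟩

end Gauss

section Const

variable {K : Type*} [Field K] [CharZero K] [Algebra ℚ K] [Algebra.IsAlgebraic ℚ K]
  {A : ValuationSubring K} {q : ℕ} (hq : q.Prime) (hA : A.LiesOverPrime q)
  {F : Type*} [Field F] {ι : F →+* LaurentSeries K} {hι : ∀ z, ι z ∈ FL A}

/-- constants. -/
theorem mem_gaussV_const {c : F} {c' : K} (h : ι c = HahnSeries.C c') :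
    c ∈ gaussV hq hA ι hι ↔ c' ∈ A := by
  rw [mem_gaussV]
  constructor
  · rintro ⟨u, hu⟩
    rw [h] at hu
    by_contra hcon
    have hc0 : c' ≠ 0 := by rintro rfl; exact hcon A.zero_mem
    have hinv : c'⁻¹ ∈ A := (A.mem_or_inv_mem c').resolve_left hcon
    have h1 := (Red.C hinv).mul hu
    rw [← map_mul, inv_mul_cancel₀ hc0, map_one] at h1
    have h2 := h1.unique Red.one
    have h3 : A.valuation c'⁻¹ < 1 := by
      rw [map_inv₀]
      exact inv_lt_one_of_one_lt₀ (not_le.mp (mt (A.valuation_le_one_iff _).mp hcon))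
    rw [(redC_eq_zero_iff hinv).mpr h3, zero_mul] at h2
    exact zero_ne_one h2
  · intro hc
    rw [h]
    exact ⟨_, Red.C hc⟩

theorem rv_gaussV_const {c : F} {c' : K} (h : ι c = HahnSeries.C c') (hc : c' ∈ A) :
    rv (gaussV hq hA ι hι) c = 0 ↔ A.valuation c' < 1 := by
  rw [rv_eq_zero_iff_red hq hA (u := HahnSeries.C (IsLocalRing.residue A ⟨c', hc⟩))
    (by rw [h]; exact Red.C hc), redC_eq_zero_iff]

theorem rv_gaussV_prime {c : F} (h : ι c = HahnSeries.C (q : K)) :
    rv (gaussV hq hA ι hι) c = 0 := by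
  rw [rv_gaussV_const hq hA h (natCast_mem A q)]
  simpa using H08.val_prime_lt_one hA

end Const

end Fermat.Agent.H26.RV
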