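import Mathlib
import Fermat.Agent.H05_Cyclo
import Fermat.Agent.H08.Inertia
import Fermat.Agent.H12.InertiaVal
import Fermat.Agent.Descent.LinDisj
import Fermat.Agent.RV.GaussVal

/-!
# The inertia field
-/

set_option autoImplicit false
set_option linter.unusedSectionVars false

noncomputable section

namespace Fermat.Agent.H26.RV

open Fermat.Agent.H23.R ModularCurve HahnSeries
open Fermat.Agent.Q (Red VL FL)

local notation "kk" => IsLocalRing.ResidueField

section Residue

variable {L : Type*} [Field L] {A : ValuationSubring L} {q : ℕ} (hq : q.Prime)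
  (hA : A.LiesOverPrime q)

include hq hA in
theorem charP_residue : CharP (kk A) q := by
  have h3 : (q : kk A) = 0 := by
    have h4 : IsLocalRing.residue A (q : A) = 0 := by
      rw [IsLocalRing.residue_eq_zero_iff, A.valuation_lt_one_iff]
      simpa using H08.val_prime_lt_one hA
    rwa [map_natCast] at h4
  exact (CharP.charP_iff_prime_eq_zero hq).mpr h3

variable [CharZero L] [Algebra.IsAlgebraic ℚ L]

include hq hA in
/-- Nonzero elements of the residue field are roots of unity of order prime to `q`. -/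
theorem exists_pow_eq_one_residue {a : kk A} (ha : a ≠ 0) : ∃ n : ℕ, ¬ q ∣ n ∧ a ^ n = 1 := by
  haveI := charP_residue hq hA
  haveI : Fact q.Prime := ⟨hq⟩
  letI : Algebra (ZMod q) (kk A) := ZMod.algebra _ q
  obtain ⟨⟨z, hz⟩, rfl⟩ := IsLocalRing.residue_surjective (R := A) a
  have halg : IsAlgebraic ℤ z :=
    (IsFractionRing.isAlgebraic_iff ℤ ℚ L).mpr (Algebra.IsAlgebraic.isAlgebraic z)
  obtain ⟨P, hP0, hP⟩ := halg
  have hPz : Polynomial.aeval z P.primPart = 0 := Polynomial.aeval_primPart_eq_zero hP0 hP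
  have hprim := P.isPrimitive_primPart
  have hPbar : P.primPart.map (Int.castRingHom (ZMod q)) ≠ 0 := by
    intro h0
    have h1 : Polynomial.C (q : ℤ) ∣ P.primPart := by
      rw [Polynomial.C_dvd_iff_dvd_coeff]
      intro i
      have h2 := congrArg (fun p => Polynomial.coeff p i) h0
      simp only [Polynomial.coeff_map, Polynomial.coeff_zero] at h2
      exact (ZMod.intCast_zmod_eq_zero_iff_dvd _ _).mp h2
    have h3 := hprim _ h1
    rw [Int.isUnit_iff] at h3
    have := hq.one_lt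
    omega
  have hroot : Polynomial.aeval (IsLocalRing.residue A ⟨z, hz⟩)
      (P.primPart.map (Int.castRingHom (ZMod q))) = 0 := by
    rw [Polynomial.aeval_def, Polynomial.eval₂_map]
    have h1 : (algebraMap (ZMod q) (kk A)).comp (Int.castRingHom (ZMod q)) =
        (IsLocalRing.residue A).comp (Int.castRingHom A) := RingHom.ext_int _ _
    rw [h1, ← Polynomial.hom_eval₂]
    have h2 : Polynomial.eval₂ (Int.castRingHom A) ⟨z, hz⟩ P.primPart = 0 := by
      apply Subtype.ext
      change A.subtype _ = 0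
      rw [Polynomial.hom_eval₂]
      have h3 : (A.subtype).comp (Int.castRingHom A) = algebraMap ℤ L := RingHom.ext_int _ _
      rw [h3]
      exact hPz
    rw [h2, map_zero]
  have halg' : IsAlgebraic (ZMod q) (IsLocalRing.residue A ⟨z, hz⟩) := ⟨_, hPbar, hroot⟩
  set a := IsLocalRing.residue A ⟨z, hz⟩ with ha_def
  haveI : FiniteDimensional (ZMod q) (IntermediateField.adjoin (ZMod q) {a}) :=
    IntermediateField.adjoin.finiteDimensional halg'.isIntegral
  haveI : Finite (IntermediateField.adjoin (ZMod q) {a}) :=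
    Module.finite_of_finite (ZMod q)
  letI : Fintype (IntermediateField.adjoin (ZMod q) {a}) := Fintype.ofFinite _
  have hcard := Module.card_eq_pow_finrank (K := ZMod q)
    (V := IntermediateField.adjoin (ZMod q) {a})
  rw [ZMod.card] at hcard
  set f := Module.finrank (ZMod q) (IntermediateField.adjoin (ZMod q) {a}) with hf
  have hf0 : f ≠ 0 := (Module.finrank_pos).ne'
  let a' : IntermediateField.adjoin (ZMod q) {a} :=
    ⟨a, IntermediateField.mem_adjoin_simple_self (ZMod q) a⟩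
  have ha'0 : a' ≠ 0 := fun h => ha (congrArg Subtype.val h)
  have hpow := FiniteField.pow_card_sub_one_eq_one a' ha'0
  refine ⟨Fintype.card (IntermediateField.adjoin (ZMod q) {a}) - 1, ?_, ?_⟩
  · rw [hcard]
    intro hdvd
    have h1 : q ∣ q ^ f := dvd_pow_self q hf0
    have h2 : 1 ≤ q ^ f := Nat.one_le_pow _ _ hq.pos
    have h3 : q ∣ 1 := by
      have := Nat.dvd_sub h1 hdvd
      rwa [Nat.sub_sub_self h2] at this
    exact hq.one_lt.ne' (Nat.dvd_one.mp h3)
  · exact congrArg Subtype.val hpow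

variable [IsAlgClosed L]

include hq hA in
/-- Teichmüller lifts. -/
theorem exists_root_of_unity_lift {a : kk A} (ha : a ≠ 0) :
    ∃ (n : ℕ) (z : L) (hz : z ∈ A), ¬ q ∣ n ∧ z ^ n = 1 ∧ IsLocalRing.residue A ⟨z, hz⟩ = a := by
  classical
  obtain ⟨n, hqn, han⟩ := exists_pow_eq_one_residue hq hA ha
  have hn0 : n ≠ 0 := by rintro rfl; exact hqn (dvd_zero _)
  haveI : NeZero (n : L) := ⟨by exact_mod_cast hn0⟩
  obtain ⟨ζ, hζ⟩ := HasEnoughRootsOfUnity.exists_primitiveRoot L n
  have hζA : ζ ∈ A := H05.mem_of_pow_eq_one A hn0 hζ.pow_eq_one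
  have hζ' : IsPrimitiveRoot (⟨ζ, hζA⟩ : A) n :=
    IsPrimitiveRoot.of_map_of_injective (f := A.subtype) hζ Subtype.val_injective
  have h1 := Polynomial.X_pow_sub_one_eq_prod (Nat.pos_of_ne_zero hn0) hζ'
  have h2 := congrArg (Polynomial.eval₂ (IsLocalRing.residue A) a) h1
  rw [Polynomial.eval₂_sub, Polynomial.eval₂_pow, Polynomial.eval₂_X, Polynomial.eval₂_one, han,
    sub_self, Polynomial.eval₂_finset_prod] at h2
  obtain ⟨w, hw, hwa⟩ := Finset.prod_eq_zero_iff.mp h2.symm
  rw [Polynomial.eval₂_sub, Polynomial.eval₂_X, Polynomial.eval₂_C, sub_eq_zero] at hwa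
  have hwn : w ^ n = 1 := (Polynomial.mem_nthRootsFinset (Nat.pos_of_ne_zero hn0) _).mp hw
  exact ⟨n, w, w.2, hqn, congrArg Subtype.val hwn, hwa.symm⟩

end Residue

section Emb

variable {L : Type*} [Field L] [CharZero L] [Algebra.IsAlgebraic ℚ L]
  (A : ValuationSubring L) (K0 : IntermediateField ℚ L)

/-- `A ∩ K0`. -/
abbrev A0 : ValuationSubring K0 := A.comap (algebraMap K0 L)

theorem mem_A0 {c : K0} : c ∈ A0 A K0 ↔ (c : L) ∈ A := Iff.rfl

/-- `A ∩ K0 → A`. -/
def a0ToA : A0 A K0 →+* A where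
  toFun c := ⟨(c : K0), c.2⟩
  map_one' := rfl
  map_mul' _ _ := rfl
  map_zero' := rfl
  map_add' _ _ := rfl

theorem isUnit_a0ToA {c : A0 A K0} (h : IsUnit (a0ToA A K0 c)) : IsUnit c := by
  obtain ⟨u, hu⟩ := h
  have h1 : (a0ToA A K0 c) * ((u⁻¹ : Aˣ) : A) = 1 := by rw [← hu]; exact Units.mul_inv u
  have h2 : ((c : K0) : L) * (((u⁻¹ : Aˣ) : A) : L) = 1 := congrArg Subtype.val h1
  have hc0 : (c : K0) ≠ 0 := by
    intro h0
    rw [h0] at h2
    simp at h2
  have h3 : (c : K0)⁻¹ ∈ A0 A K0 := by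
    rw [mem_A0]
    have h4 : (((c : K0)⁻¹ : K0) : L) = (((u⁻¹ : Aˣ) : A) : L) := by
      push_cast
      exact (eq_inv_of_mul_eq_one_right h2).symm
    rw [h4]
    exact ((u⁻¹ : Aˣ) : A).2
  exact IsUnit.of_mul_eq_one ⟨(c : K0)⁻¹, h3⟩ (Subtype.ext (mul_inv_cancel₀ hc0))

instance : IsLocalHom (a0ToA A K0) := ⟨fun _ h => isUnit_a0ToA A K0 h⟩

/-- the map of residue fields. -/
def resMap : kk (A0 A K0) →+* kk A := IsLocalRing.ResidueField.map (a0ToA A K0)

theorem resMap_residue (c : A0 A K0) : resMap A K0 (IsLocalRing.residue _ c) =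
    IsLocalRing.residue A ⟨(c : K0), c.2⟩ := rfl

variable {A K0} in
theorem liesOver_A0 {q : ℕ} (hA : A.LiesOverPrime q) : (A0 A K0).LiesOverPrime q := by
  have h1 := H08.val_prime_lt_one hA
  change (q : K0) ∈ (A0 A K0).nonunits
  rw [ValuationSubring.mem_nonunits_iff_exists_mem_maximalIdeal]
  refine ⟨natCast_mem _ q, ?_⟩
  rw [IsLocalRing.mem_maximalIdeal, mem_nonunits_iff]
  intro hu
  have h2 := hu.map (a0ToA A K0)
  have h3 : a0ToA A K0 ⟨(q : K0), natCast_mem _ q⟩ = (q : A) := Subtype.ext (by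
    change (((q : K0) : K0) : L) = ((q : A) : L)
    push_cast; rfl)
  rw [h3] at h2
  have h4 : A.valuation ((q : A) : L) < 1 := by simpa using h1
  rw [← A.valuation_lt_one_iff] at h4
  exact (IsLocalRing.mem_maximalIdeal _ |>.mp h4) h2

/-- reductions are compatible with the embedding. -/
theorem red_emb {y : LaurentSeries K0} {u : LaurentSeries (kk (A0 A K0))}
    (h : Red (A0 A K0) y u) : Red A (cEmb K0 L y) (coeffMap (resMap A K0) u) := by
  refine Red.map (cEmb K0 L) (coeffMap (resMap A K0)) (fun x => ?_) h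
  have hx : cEmb K0 L x ∈ Q.intL A := by
    rw [Q.mem_intL]
    intro n
    rw [coeffMap_coeff]
    exact Q.mem_intL.mp x.2 n
  refine ⟨hx, ?_⟩
  ext n
  have h1 : (coeffMap (resMap A K0) (Q.redL (A0 A K0) x)).coeff n =
      resMap A K0 ((Q.redL (A0 A K0) x).coeff n) := coeffMap_coeff _ _ _
  rw [h1, Q.redL_coeff, Q.redL_coeff]
  rfl

end Emb

section Inertia

variable {L : Type*} [Field L] [CharZero L] [Algebra.IsAlgebraic ℚ L]
  [IsAlgClosed L] (A : ValuationSubring L)

/-- The inertia field. -/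
abbrev K0 : IntermediateField ℚ L := IntermediateField.fixedField (A.inertiaSubgroupIn ℚ)

variable {A}

theorem mem_K0 {z : L} : z ∈ K0 A ↔ ∀ σ ∈ A.inertiaSubgroupIn ℚ, σ z = z := by
  rw [IntermediateField.mem_fixedField_iff]

variable {q : ℕ} (hq : q.Prime) (hA : A.LiesOverPrime q)

include hq hA

/-- Every residue class of `A` contains an element of the inertia field. -/
theorem exists_K0_residue (a : kk A) : ∃ c : A0 A (K0 A), resMap A (K0 A)
    (IsLocalRing.residue _ c) = a := by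
  by_cases ha : a = 0
  · exact ⟨0, by rw [map_zero, map_zero, ha]⟩
  obtain ⟨n, z, hz, hqn, hzn, hza⟩ := exists_root_of_unity_lift hq hA ha
  have hzK : z ∈ K0 A := mem_K0.mpr fun σ hσ => H05.inertia_apply_rootOfUnity hq hA hqn hσ hzn
  exact ⟨⟨⟨z, hzK⟩, hz⟩, hza⟩

theorem exists_K0_zpow {c : K0 A} (hc : c ≠ 0) : ∃ n : ℤ,
    A.valuation (c : L) = A.valuation (q : L) ^ n := by
  haveI : IsAlgClosure ℚ L := ⟨inferInstance, inferInstance⟩
  haveI : Normal ℚ L := IsAlgClosure.normal ℚ L
  haveI : IsGalois ℚ L := {}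
  exact H12.exists_valuation_eq_zpow hq hA (c : L) (by
    intro h; exact hc (Subtype.ext h)) (mem_K0.mp c.2)

end Inertia

end Fermat.Agent.H26.RV
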