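import Mathlib
import Fermat.Agent.Igusa.IntTools
import Fermat.Agent.H23.R.KeyThm
import Fermat.Agent.RV.Fund

/-!
# The integral closure of `A0[x]` in a function field
-/

set_option autoImplicit false
set_option linter.unusedSectionVars false

noncomputable section

open Polynomial IntermediateField
open scoped IntermediateField

namespace Fermat.Agent.H26.RV

open Fermat.Agent.H23.R

section Gen

theorem isIntegral_mul_of_coeff {B F : Type*} [CommRing B] [Field F] [Algebra B F] {z : F}
    (p : F[X]) (hp : p.Monic) (hpz : aeval z p = 0) (D : B)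
    (hD : ∀ i < p.natDegree, ∃ c : B, algebraMap B F c = algebraMap B F D * p.coeff i) :
    IsIntegral B (algebraMap B F D * z) := by
  have h1 : (p.scaleRoots (algebraMap B F D)) ∈ lifts (algebraMap B F) := by
    rw [lifts_iff_coeff_lifts]
    intro i
    rw [coeff_scaleRoots]
    rcases lt_trichotomy i p.natDegree with hi | hi | hi
    · obtain ⟨c, hc⟩ := hD i hi
      refine ⟨c * D ^ (p.natDegree - i - 1), ?_⟩
      rw [map_mul, hc, map_pow]
      have : p.natDegree - i = (p.natDegree - i - 1) + 1 := by omega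
      conv_rhs => rw [this, pow_succ]
      ring
    · refine ⟨1, ?_⟩
      rw [hi, Nat.sub_self, pow_zero, mul_one, map_one]
      exact hp.symm
    · exact ⟨0, by rw [coeff_eq_zero_of_natDegree_lt hi, zero_mul, map_zero]⟩
  obtain ⟨q, hq, -, hqm⟩ := lifts_and_natDegree_eq_and_monic h1
    ((monic_scaleRoots_iff _).mpr hp)
  refine ⟨q, hqm, ?_⟩
  rw [← eval_map, hq, ← coe_aeval_eq_eval]
  exact scaleRoots_aeval_eq_zero hpz

end Gen

/-- The ring of elements integral over `R[x]`. -/
def intSub (R : Type*) {F : Type*} [CommRing R] [Field F] [Algebra R F] (x : F) : Subring F :=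
  (integralClosure (Algebra.adjoin R {x}) F).toSubring

section IntSub

variable {R F : Type*} [CommRing R] [Field F] [Algebra R F] {x : F}

theorem mem_intSub {z : F} : z ∈ intSub R x ↔ IsIntegral (Algebra.adjoin R {x}) z := Iff.rfl

theorem adjoin_le_intSub {z : F} (hz : z ∈ Algebra.adjoin R {x}) : z ∈ intSub R x :=
  isIntegral_algebraMap (x := (⟨z, hz⟩ : Algebra.adjoin R {x}))

theorem self_mem_intSub : x ∈ intSub R x := adjoin_le_intSub (Algebra.subset_adjoin rfl)

theorem algebraMap_mem_intSub (a : R) : algebraMap R F a ∈ intSub R x :=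
  adjoin_le_intSub (Subalgebra.algebraMap_mem _ a)

theorem aeval_mem_intSub (p : R[X]) : aeval x p ∈ intSub R x :=
  adjoin_le_intSub (aeval_mem_adjoin_singleton _ _)

theorem intSub_closed {z : F} (hz : IsIntegral (intSub R x) z) : z ∈ intSub R x := by
  rw [mem_intSub]
  exact isIntegral_trans (A := integralClosure (Algebra.adjoin R {x}) F) z hz

/-- induction principle: `intSub` is the smallest integrally closed ring containing `R`, `x`. -/
theorem intSub_le {S : Subring F} (hS : ∀ z : F, IsIntegral S z → z ∈ S)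
    (hR : ∀ a : R, algebraMap R F a ∈ S) (hx : x ∈ S) {z : F} (hz : z ∈ intSub R x) : z ∈ S := by
  apply hS
  have hle : ∀ y : Algebra.adjoin R {x}, (y : F) ∈ S := by
    rintro ⟨y, hy⟩
    change y ∈ S
    induction hy using Algebra.adjoin_induction with
    | mem z hz => rw [Set.mem_singleton_iff] at hz; rw [hz]; exact hx
    | algebraMap a => exact hR a
    | add y z _ _ hy hz => exact S.add_mem hy hz
    | mul y z _ _ hy hz => exact S.mul_mem hy hz
  let φ : Algebra.adjoin R {x} →+* S :=
    (algebraMap (Algebra.adjoin R {x}) F).codRestrict S hle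
  exact (mem_intSub.mp hz).map_of_comp_eq φ (RingHom.id F) (by ext; rfl)

theorem isIntegral_intSub_of_le {R' : Type*} [CommRing R'] [Algebra R' F]
    (hR : ∀ a : R, algebraMap R F a ∈ intSub R' x) {z : F} (hz : z ∈ intSub R x) :
    z ∈ intSub R' x :=
  intSub_le (fun _ h => intSub_closed h) hR self_mem_intSub hz

end IntSub

section Chart

variable {A0 K0 F : Type*} [CommRing A0] [IsDomain A0] [IsDiscreteValuationRing A0] [Field K0]
  [Algebra A0 K0] [IsFractionRing A0 K0] [Field F] [Algebra K0 F] [Algebra A0 F]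
  [IsScalarTower A0 K0 F] {x : F} (hx : Transcendental K0 x)

include hx in
theorem aeval_injective_of_transcendental : Function.Injective (aeval (R := A0) x) := by
  rw [injective_iff_map_eq_zero]
  intro p hp
  have h1 : aeval x (p.map (algebraMap A0 K0)) = 0 := by
    rw [aeval_map_algebraMap]; exact hp
  have h2 := (injective_iff_map_eq_zero _).mp (transcendental_iff_injective.mp hx) _ h1
  exact (Polynomial.map_injective _ (IsFractionRing.injective A0 K0))
    (h2.trans (Polynomial.map_zero _).symm)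

/-- `A0[X] ≃ A0[x]`. -/
def polyEquiv' (hinj : Function.Injective (aeval (R := A0) x)) :
    A0[X] ≃ₐ[A0] Algebra.adjoin A0 {x} :=
  (AlgEquiv.ofInjective (aeval x) hinj).trans
    (Subalgebra.equivOfEq _ _ (Algebra.adjoin_singleton_eq_range_aeval _ x).symm)

theorem coe_polyEquiv' (hinj : Function.Injective (aeval (R := A0) x)) (P : A0[X]) :
    ((polyEquiv' hinj P : Algebra.adjoin A0 {x}) : F) = aeval x P := rfl

include hx

theorem isIntegrallyClosed_adj : IsIntegrallyClosed (Algebra.adjoin A0 {x}) :=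
  IsIntegrallyClosed.of_equiv (polyEquiv' (aeval_injective_of_transcendental hx)).toRingEquiv

theorem isNoetherianRing_adj : IsNoetherianRing (Algebra.adjoin A0 {x}) :=
  isNoetherianRing_of_ringEquiv _ (polyEquiv' (aeval_injective_of_transcendental hx)).toRingEquiv

/-- the coprimality criterion. -/
theorem mem_intSub_of_coprime {ϖ : A0} (hϖ : Prime ϖ) {D : A0[X]} (hD : ¬ C ϖ ∣ D) {z : F}
    (h1 : algebraMap A0 F ϖ * z ∈ intSub A0 x) (h2 : aeval x D * z ∈ intSub A0 x) :
    z ∈ intSub A0 x := by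
  haveI := isIntegrallyClosed_adj (A0 := A0) hx
  let e := polyEquiv' (aeval_injective_of_transcendental (A0 := A0) hx)
  have hl : Prime (e (C ϖ)) := (MulEquiv.prime_iff e).mpr (Polynomial.prime_C_iff.mpr hϖ)
  refine Igusa.isIntegral_of_coprime (S := Algebra.adjoin A0 {x}) Subtype.val_injective
    (l := e (C ϖ)) (D := e D) hl ?_ ?_ ?_
  · rw [map_dvd_iff]; exact hD
  · have : algebraMap (Algebra.adjoin A0 {x}) F (e (C ϖ)) = algebraMap A0 F ϖ := by
      change aeval x (C ϖ) = _
      rw [aeval_C]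
    rw [this]; exact h1
  · exact h2

theorem mem_intSub_of_pow {ϖ : A0} (hϖ : Prime ϖ) {D : A0[X]} (hD : ¬ C ϖ ∣ D) (n : ℕ) {z : F}
    (h1 : algebraMap A0 F ϖ ^ n * z ∈ intSub A0 x) (h2 : aeval x D * z ∈ intSub A0 x) :
    z ∈ intSub A0 x := by
  induction n with
  | zero => rwa [pow_zero, one_mul] at h1
  | succ n ih =>
    apply ih
    refine mem_intSub_of_coprime hx hϖ hD ?_ ?_
    · rw [← mul_assoc, ← pow_succ']; exact h1
    · have : aeval x D * (algebraMap A0 F ϖ ^ n * z) = algebraMap A0 F ϖ ^ n * (aeval x D * z) := by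
        ring
      rw [this]
      exact mul_mem (pow_mem (algebraMap_mem_intSub _) _) h2

omit hx in
/-- denominators of polynomials. -/
theorem exists_clear_pow {ϖ : A0} (hϖ : Irreducible ϖ) (T : Finset K0) :
    ∃ n : ℕ, ∀ a ∈ T, ∃ c : A0, algebraMap A0 K0 c = algebraMap A0 K0 ϖ ^ n * a := by
  classical
  obtain ⟨b, hb⟩ := IsLocalization.exist_integer_multiples_of_finset (nonZeroDivisors A0) T
  obtain ⟨n, u, hbn⟩ := IsDiscreteValuationRing.eq_unit_mul_pow_irreducible
    (nonZeroDivisors.ne_zero b.2) hϖ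
  refine ⟨n, fun a ha => ?_⟩
  obtain ⟨c, hc⟩ := hb a ha
  refine ⟨((u⁻¹ : A0ˣ) : A0) * c, ?_⟩
  rw [map_mul, hc, Algebra.smul_def, hbn, map_mul, map_pow, ← mul_assoc, ← mul_assoc, ← map_mul,
    Units.inv_mul, map_one, one_mul]

omit hx in
/-- elements integral over `K0[x]` become integral over `A0[x]` after multiplication by `ϖ ^ n`. -/
theorem exists_pow_mul_mem_intSub {ϖ : A0} (hϖ : Irreducible ϖ) {z : F} (hz : z ∈ intSub K0 x) :
    ∃ n : ℕ, algebraMap A0 F ϖ ^ n * z ∈ intSub A0 x := by
  classical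
  obtain ⟨p, hp, hpz⟩ := mem_intSub.mp hz
  -- the coefficients
  have hcoef : ∀ i, ∃ P : K0[X], aeval x P = ((p.coeff i : Algebra.adjoin K0 {x}) : F) := by
    intro i
    have h : ((p.coeff i : Algebra.adjoin K0 {x}) : F) ∈ (aeval x : K0[X] →ₐ[K0] F).range := by
      rw [← Algebra.adjoin_singleton_eq_range_aeval]
      exact (p.coeff i).2
    exact h
  choose P hP using hcoef
  obtain ⟨n, hn⟩ := exists_clear_pow (K0 := K0) hϖ
    ((Finset.range p.natDegree).biUnion fun i => (P i).support.image (P i).coeff)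
  refine ⟨n, ?_⟩
  rw [mem_intSub]
  have h1 : algebraMap A0 F ϖ ^ n = algebraMap (Algebra.adjoin A0 {x}) F
      (algebraMap A0 (Algebra.adjoin A0 {x}) ϖ ^ n) := by
    rw [map_pow]; rfl
  rw [h1]
  refine isIntegral_mul_of_coeff (p.map (algebraMap (Algebra.adjoin K0 {x}) F)) (hp.map _) ?_ _ ?_
  · rw [coe_aeval_eq_eval, eval_map]; exact hpz
  · intro i hi
    rw [hp.natDegree_map] at hi
    rw [coeff_map]
    have h2 : ∃ Q : A0[X], Q.map (algebraMap A0 K0) = C (algebraMap A0 K0 ϖ ^ n) * P i := by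
      have h3 : C (algebraMap A0 K0 ϖ ^ n) * P i ∈ lifts (algebraMap A0 K0) := by
        rw [lifts_iff_coeff_lifts]
        intro m
        rw [coeff_C_mul]
        by_cases hm : (P i).coeff m = 0
        · exact ⟨0, by rw [hm, mul_zero, map_zero]⟩
        · obtain ⟨c, hc⟩ := hn _ (Finset.mem_biUnion.mpr ⟨i, Finset.mem_range.mpr hi,
            Finset.mem_image_of_mem _ (mem_support_iff.mpr hm)⟩)
          exact ⟨c, hc⟩
      exact (mem_lifts _).mp h3
    obtain ⟨Q, hQ⟩ := h2
    refine ⟨⟨aeval x Q, aeval_mem_adjoin_singleton _ _⟩, ?_⟩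
    change aeval x Q = _
    have h4 : aeval x Q = aeval x (Q.map (algebraMap A0 K0)) := (aeval_map_algebraMap K0 x Q).symm
    rw [h4, hQ, map_mul, aeval_C, hP, map_pow, ← IsScalarTower.algebraMap_apply, map_pow]
    rfl

omit hx in
/-- `A0[x] → K0(x)`. -/
def adjToField' (K0 : Type*) [Field K0] [Algebra A0 K0] [Algebra K0 F] [IsScalarTower A0 K0 F]
    (x : F) : Algebra.adjoin A0 {x} →+* K0⟮x⟯ where
  toFun y := ⟨y, by
    obtain ⟨y, hy⟩ := y
    change y ∈ K0⟮x⟯
    induction hy using Algebra.adjoin_induction with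
    | mem z hz =>
      rw [Set.mem_singleton_iff] at hz
      rw [hz]
      exact mem_adjoin_simple_self K0 _
    | algebraMap a =>
      rw [IsScalarTower.algebraMap_apply A0 K0 F]
      exact (K0⟮x⟯).algebraMap_mem _
    | add y z _ _ hy hz => exact add_mem hy hz
    | mul y z _ _ hy hz => exact mul_mem hy hz⟩
  map_one' := rfl
  map_mul' _ _ := rfl
  map_zero' := rfl
  map_add' _ _ := rfl

omit hx in
theorem exists_clear_poly (p : K0[X]) : ∃ (b : A0) (q : A0[X]), b ≠ 0 ∧
    q.map (algebraMap A0 K0) = C (algebraMap A0 K0 b) * p := by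
  obtain ⟨b, hb⟩ := IsLocalization.integerNormalization_map_to_map (nonZeroDivisors A0) p
  refine ⟨b, IsLocalization.integerNormalization (nonZeroDivisors A0) p,
    nonZeroDivisors.ne_zero b.2, ?_⟩
  rw [hb, ← smul_eq_C_mul, algebraMap_smul]

omit hx in
theorem isFractionRing_adj :
    letI := (adjToField' (A0 := A0) K0 x).toAlgebra
    IsFractionRing (Algebra.adjoin A0 {x}) K0⟮x⟯ := by
  letI := (adjToField' (A0 := A0) K0 x).toAlgebra
  haveI : FaithfulSMul (Algebra.adjoin A0 {x}) K0⟮x⟯ := by
    rw [faithfulSMul_iff_algebraMap_injective]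
    intro a b h
    exact Subtype.ext (congrArg (fun z : K0⟮x⟯ => (z : F)) h)
  apply IsFractionRing.of_field
  rintro ⟨z, hz⟩
  obtain ⟨r, s, hrs⟩ := (mem_adjoin_simple_iff K0 z).mp hz
  obtain ⟨b, r', hb, hr'⟩ := exists_clear_poly (A0 := A0) r
  obtain ⟨c, s', hc, hs'⟩ := exists_clear_poly (A0 := A0) s
  have hinj : Function.Injective (algebraMap A0 F) := by
    rw [IsScalarTower.algebraMap_eq A0 K0 F]
    exact (algebraMap K0 F).injective.comp (IsFractionRing.injective A0 K0)
  have hkey : ∀ (p' : A0[X]) (p : K0[X]) (m : A0), p'.map (algebraMap A0 K0) =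
      C (algebraMap A0 K0 m) * p → aeval x p' = algebraMap A0 F m * aeval x p := by
    intro p' p m h
    have h1 : aeval x (p'.map (algebraMap A0 K0)) = aeval x p' := aeval_map_algebraMap K0 x p'
    rw [← h1, h, map_mul, aeval_C, ← IsScalarTower.algebraMap_apply]
  have hmem : ∀ p : A0[X], aeval x p ∈ Algebra.adjoin A0 {x} :=
    fun p => aeval_mem_adjoin_singleton _ _
  refine ⟨⟨aeval x (C c * r'), hmem _⟩, ⟨aeval x (C b * s'), hmem _⟩, ?_⟩
  apply Subtype.ext
  change z = aeval x (C c * r') / aeval x (C b * s')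
  rw [map_mul, map_mul, hkey r' r b hr', hkey s' s c hs', aeval_C, aeval_C, hrs]
  have hb' : algebraMap A0 F b ≠ 0 := fun h => hb (hinj (h.trans (map_zero _).symm))
  have hc' : algebraMap A0 F c ≠ 0 := fun h => hc (hinj (h.trans (map_zero _).symm))
  by_cases h0 : aeval x s = 0
  · rw [h0]; simp
  · field_simp

variable [CharZero K0] [FiniteDimensional K0⟮x⟯ F]

theorem finite_intSub : Module.Finite (Algebra.adjoin A0 {x})
    (integralClosure (Algebra.adjoin A0 {x}) F) := by
  letI := (adjToField' (A0 := A0) K0 x).toAlgebra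
  haveI : IsFractionRing (Algebra.adjoin A0 {x}) K0⟮x⟯ := isFractionRing_adj
  haveI : IsScalarTower (Algebra.adjoin A0 {x}) K0⟮x⟯ F :=
    IsScalarTower.of_algebraMap_eq fun _ => rfl
  haveI := isIntegrallyClosed_adj (A0 := A0) hx
  haveI := isNoetherianRing_adj (A0 := A0) hx
  haveI : CharZero K0⟮x⟯ := charZero_of_injective_algebraMap (algebraMap K0 K0⟮x⟯).injective
  exact IsIntegralClosure.finite (Algebra.adjoin A0 {x}) K0⟮x⟯ F
    (integralClosure (Algebra.adjoin A0 {x}) F)

theorem isNoetherianRing_intSub : IsNoetherianRing (intSub A0 x) := by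
  haveI := finite_intSub (A0 := A0) hx
  haveI := isNoetherianRing_adj (A0 := A0) hx
  exact IsNoetherianRing.of_finite (Algebra.adjoin A0 {x})
    (integralClosure (Algebra.adjoin A0 {x}) F)

theorem exists_finset_intSub : ∃ s : Finset F, ∀ z ∈ intSub A0 x,
    z ∈ Submodule.span (Algebra.adjoin A0 {x}) (s : Set F) := by
  classical
  haveI := finite_intSub (A0 := A0) hx
  obtain ⟨s, hs⟩ := (Module.Finite.fg_top : (⊤ : Submodule (Algebra.adjoin A0 {x})
    (integralClosure (Algebra.adjoin A0 {x}) F)).FG)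
  refine ⟨Finset.image (fun y : integralClosure (Algebra.adjoin A0 {x}) F => (y : F)) s,
    fun z hz => ?_⟩
  have h1 : (⟨z, hz⟩ : integralClosure (Algebra.adjoin A0 {x}) F) ∈
      Submodule.span (Algebra.adjoin A0 {x}) (s : Set (integralClosure (Algebra.adjoin A0 {x}) F)) := by
    rw [hs]; exact Submodule.mem_top
  have h2 := Submodule.mem_map_of_mem
    (f := (integralClosure (Algebra.adjoin A0 {x}) F).val.toLinearMap) h1
  rw [Submodule.map_span] at h2
  rw [Finset.coe_image]
  exact h2

/-- every element of `F` is a fraction of elements integral over `A0[x]`. -/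
theorem exists_frac (z : F) : ∃ b ∈ intSub A0 x, b ≠ 0 ∧ b * z ∈ intSub A0 x := by
  letI := (adjToField' (A0 := A0) K0 x).toAlgebra
  haveI : IsFractionRing (Algebra.adjoin A0 {x}) K0⟮x⟯ := isFractionRing_adj
  haveI : IsScalarTower (Algebra.adjoin A0 {x}) K0⟮x⟯ F :=
    IsScalarTower.of_algebraMap_eq fun _ => rfl
  haveI : FaithfulSMul (Algebra.adjoin A0 {x}) F := by
    rw [faithfulSMul_iff_algebraMap_injective]; exact Subtype.val_injective
  haveI : Algebra.IsAlgebraic (Algebra.adjoin A0 {x}) F := by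
    rw [IsFractionRing.comap_isAlgebraic_iff (K := K0⟮x⟯)]
    infer_instance
  obtain ⟨y, hy, hyz⟩ :=
    (Algebra.IsAlgebraic.isAlgebraic (R := Algebra.adjoin A0 {x}) z).exists_integral_multiple
  refine ⟨algebraMap (Algebra.adjoin A0 {x}) F y, ?_, ?_, ?_⟩
  · exact isIntegral_algebraMap
  · exact fun h => hy (Subtype.ext h)
  · rw [← Algebra.smul_def]; exact hyz

end Chart

end Fermat.Agent.H26.RV
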