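import Mathlib
import Fermat.Agent.RV.ChartInt

/-!
# The chart rings `intSub K0 x ⊓ vert V`
-/

set_option autoImplicit false
set_option linter.unusedSectionVars false

noncomputable section

open Polynomial IntermediateField
open scoped IntermediateField

namespace Fermat.Agent.H26.RV

open Fermat.Agent.H23.R

section TwoCharts

variable {R F : Type*} [CommRing R] [Field F] [Algebra R F] {x : F}

/-- elements of a valuation ring. -/
theorem intSub_le_valuationSubring {W : ValuationSubring F} (hR : ∀ a : R, algebraMap R F a ∈ W)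
    (hx : x ∈ W) {z : F} (hz : z ∈ intSub R x) : z ∈ W := by
  refine intSub_le (S := W.toSubring) (fun y hy => ?_) hR hx hz
  have h1 : IsIntegral W y := hy
  obtain ⟨a, ha⟩ := (IsIntegrallyClosed.isIntegral_iff (K := F)).mp h1
  rw [← ha]
  exact a.2

theorem pow_inv_mul_aeval_mem (hx0 : x ≠ 0) (Q : R[X]) (m : ℕ) (hm : Q.natDegree ≤ m) :
    x⁻¹ ^ m * aeval x Q ∈ Algebra.adjoin R {x⁻¹} := by
  rw [aeval_eq_sum_range, Finset.mul_sum]
  refine Subalgebra.sum_mem _ fun j hj => ?_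
  rw [mul_smul_comm]
  apply Subalgebra.smul_mem
  have hjm : j ≤ m := (Nat.lt_succ_iff.mp (Finset.mem_range.mp hj)).trans hm
  have : x⁻¹ ^ m * x ^ j = x⁻¹ ^ (m - j) := by
    obtain ⟨d, rfl⟩ := Nat.exists_eq_add_of_le hjm
    rw [Nat.add_sub_cancel_left, pow_add, mul_right_comm, ← mul_pow, inv_mul_cancel₀ hx0, one_pow,
      one_mul]
  rw [this]
  exact Subalgebra.pow_mem _ (Algebra.subset_adjoin (Set.mem_singleton x⁻¹)) _

theorem exists_pow_inv_mul_mem (hx0 : x ≠ 0) {z : F} (hz : z ∈ intSub R x) :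
    ∃ e : ℕ, x⁻¹ ^ e * z ∈ intSub R x⁻¹ := by
  classical
  obtain ⟨p, hp, hpz⟩ := mem_intSub.mp hz
  have hcoef : ∀ i, ∃ P : R[X], aeval x P = ((p.coeff i : Algebra.adjoin R {x}) : F) := by
    intro i
    have h : ((p.coeff i : Algebra.adjoin R {x}) : F) ∈ (aeval x : R[X] →ₐ[R] F).range := by
      rw [← Algebra.adjoin_singleton_eq_range_aeval]
      exact (p.coeff i).2
    exact h
  choose P hP using hcoef
  obtain ⟨e, he⟩ : ∃ e : ℕ, ∀ i ∈ Finset.range p.natDegree, (P i).natDegree ≤ e :=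
    ⟨(Finset.range p.natDegree).sup fun i => (P i).natDegree,
      fun i hi => Finset.le_sup (f := fun i => (P i).natDegree) hi⟩
  refine ⟨e, ?_⟩
  have hmem : x⁻¹ ^ e ∈ Algebra.adjoin R {x⁻¹} :=
    Subalgebra.pow_mem _ (Algebra.subset_adjoin (Set.mem_singleton x⁻¹)) _
  have h1 : IsIntegral (Algebra.adjoin R {x⁻¹})
      (algebraMap (Algebra.adjoin R {x⁻¹}) F ⟨x⁻¹ ^ e, hmem⟩ * z) := by
    refine isIntegral_mul_of_coeff (p.map (algebraMap (Algebra.adjoin R {x}) F)) (hp.map _) ?_ _ ?_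
    · rw [coe_aeval_eq_eval, eval_map]; exact hpz
    · intro i hi
      rw [hp.natDegree_map] at hi
      rw [coeff_map]
      refine ⟨⟨_, pow_inv_mul_aeval_mem hx0 (P i) e (he i (Finset.mem_range.mpr hi))⟩, ?_⟩
      change x⁻¹ ^ e * aeval x (P i) = x⁻¹ ^ e * ((p.coeff i : Algebra.adjoin R {x}) : F)
      rw [hP]
  exact h1

end TwoCharts

section Const

variable {K F : Type*} [Field K] [Field F] [Algebra K F] {x : F}

/-- functions regular on both charts are algebraic over the constants. -/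
theorem isAlgebraic_of_mem_both {z : F} (h1 : z ∈ intSub K x) (h2 : z ∈ intSub K x⁻¹) :
    IsIntegral K z := by
  by_contra hcon
  let S : Subring F := (integralClosure K F).toSubring
  have : IsIntegrallyClosedIn S F := by
    rw [Subring.isIntegrallyClosedIn_iff]
    intro y hy
    exact isIntegral_trans (A := integralClosure K F) y hy
  obtain ⟨W, hSW, hW⟩ := Subring.exists_le_valuationSubring_of_isIntegrallyClosedIn
    (R := S) (x := z) hcon
  apply hW
  have hKW : ∀ a : K, algebraMap K F a ∈ W := fun a => hSW (isIntegral_algebraMap)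
  rcases W.mem_or_inv_mem x with hx | hx
  · exact intSub_le_valuationSubring hKW hx h1
  · exact intSub_le_valuationSubring hKW hx h2

end Const

section Chart

variable {A0 K0 F : Type*} [CommRing A0] [IsDomain A0] [IsDiscreteValuationRing A0] [Field K0]
  [Algebra A0 K0] [IsFractionRing A0 K0] [Field F] [Algebra K0 F] [Algebra A0 F]
  [IsScalarTower A0 K0 F] {x : F} {ι : Type*}

/-- Vertical valuation rings adapted to the chart `x`. -/
structure Adapted (A0 K0 : Type*) {F : Type*} [CommRing A0] [Field K0] [Algebra A0 K0] [Field F]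
    [Algebra K0 F] [Algebra A0 F] {ι : Type*} (V : ι → ValuationSubring F) (ϖ : A0) (x : F) :
    Prop where
  tr : Transcendental K0 x
  mem : ∀ i (a : A0), algebraMap A0 F a ∈ V i
  x_mem : ∀ i, x ∈ V i
  prim : ∀ i (d : A0[X]), ¬ C ϖ ∣ d → rv (V i) (aeval x d) ≠ 0
  int : ∀ z : F, (∀ i, z ∈ V i) → ∃ D : A0[X], ¬ C ϖ ∣ D ∧ aeval x D * z ∈ intSub A0 x

theorem Adapted.intSub_le {V : ι → ValuationSubring F} {ϖ : A0} (h : Adapted A0 K0 V ϖ x)
    {z : F} (hz : z ∈ intSub A0 x) (i : ι) : z ∈ V i :=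
  intSub_le_valuationSubring (h.mem i) (h.x_mem i) hz

theorem Adapted.eq {V : ι → ValuationSubring F} {ϖ : A0} (h : Adapted A0 K0 V ϖ x)
    (hϖ : Irreducible ϖ) : intSub K0 x ⊓ vert V = intSub A0 x := by
  apply le_antisymm
  · rintro z ⟨hz1, hz2⟩
    obtain ⟨n, hn⟩ := exists_pow_mul_mem_intSub hϖ hz1
    obtain ⟨D, hD, hDz⟩ := h.int z hz2
    exact mem_intSub_of_pow h.tr hϖ.prime hD n hn hDz
  · intro z hz
    refine ⟨isIntegral_intSub_of_le (fun a => ?_) hz, fun i => h.intSub_le hz i⟩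
    rw [IsScalarTower.algebraMap_apply A0 K0 F]
    exact algebraMap_mem_intSub _

variable [CharZero K0] [FiniteDimensional K0⟮x⟯ F]

theorem Adapted.chart {V : ι → ValuationSubring F} {ϖ : A0} (h : Adapted A0 K0 V ϖ x)
    (hϖ : Irreducible ϖ)
    (root : ∀ (i : ι) (m : ℕ), m ≠ 0 → ∀ (b : IsLocalRing.ResidueField (V i)),
      ∀ a ∈ intSub A0 x, b ^ m = rv (V i) a → ∃ a' ∈ intSub A0 x, b = rv (V i) a')
    (ufd : ∀ s : Ideal (intSub K0 x ⊓ vert V : Subring F), s.IsMaximal →
      (∀ a : (intSub K0 x ⊓ vert V : Subring F), (a : F) = algebraMap A0 F ϖ → a ∈ s) →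
      ∀ [s.IsPrime], UniqueFactorizationMonoid (locSub _ s)) :
    Chart V (algebraMap A0 F ϖ) (intSub K0 x) where
  ϖ_mem := by
    rw [IsScalarTower.algebraMap_apply A0 K0 F]
    exact algebraMap_mem_intSub _
  ϖ_inv := by
    rw [IsScalarTower.algebraMap_apply A0 K0 F, ← map_inv₀]
    exact algebraMap_mem_intSub _
  closed z hz := intSub_closed hz
  frac z := by
    rw [h.eq hϖ]
    exact exists_frac (A0 := A0) (K0 := K0) h.tr z
  loc b hb := by
    rw [h.eq hϖ]
    obtain ⟨D, hD, hDz⟩ := h.int b hb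
    exact ⟨aeval x D, aeval_mem_intSub D, fun i => h.prim i D hD, hDz⟩
  root i m hm b a ha hb := by
    rw [h.eq hϖ] at ha ⊢
    exact root i m hm b a ha hb
  ufd := ufd

/-- A criterion for `int`. -/
theorem int_of_isIntegral {V : ι → ValuationSubring F} {ϖ : A0} (hϖ : Irreducible ϖ)
    (W : ValuationSubring K0⟮x⟯)
    (hW : ∀ w ∈ W, ∃ a d : A0[X], ¬ C ϖ ∣ d ∧ aeval x d * (w : F) = aeval x a)
    (hint : ∀ z : F, (∀ i, z ∈ V i) → IsIntegral W z) {z : F} (hz : ∀ i, z ∈ V i) :
    ∃ D : A0[X], ¬ C ϖ ∣ D ∧ aeval x D * z ∈ intSub A0 x := by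
  classical
  obtain ⟨p, hp, hpz⟩ := hint z hz
  choose a d hd had using fun i => hW _ (p.coeff i).2
  have hprime : Prime (C ϖ : A0[X]) := Polynomial.prime_C_iff.mpr hϖ.prime
  refine ⟨∏ i ∈ Finset.range p.natDegree, d i, ?_, ?_⟩
  · intro hdvd
    obtain ⟨i, -, hi⟩ := (Prime.dvd_finset_prod_iff hprime _).mp hdvd
    exact hd i hi
  · let D : Algebra.adjoin A0 {x} := ⟨aeval x (∏ i ∈ Finset.range p.natDegree, d i),
      aeval_mem_adjoin_singleton _ _⟩
    have h1 : IsIntegral (Algebra.adjoin A0 {x}) (algebraMap (Algebra.adjoin A0 {x}) F D * z) := by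
      refine isIntegral_mul_of_coeff (p.map (algebraMap W F)) (hp.map _) ?_ D ?_
      · rw [coe_aeval_eq_eval, eval_map]; exact hpz
      · intro i hi
        rw [hp.natDegree_map] at hi
        rw [coeff_map]
        refine ⟨⟨aeval x ((∏ j ∈ (Finset.range p.natDegree).erase i, d j) * a i),
          aeval_mem_adjoin_singleton _ _⟩, ?_⟩
        change aeval x ((∏ j ∈ (Finset.range p.natDegree).erase i, d j) * a i) =
          aeval x (∏ i ∈ Finset.range p.natDegree, d i) * ((p.coeff i : K0⟮x⟯) : F)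
        rw [← Finset.mul_prod_erase _ _ (Finset.mem_range.mpr hi), map_mul, map_mul, ← had i]
        ring
    exact h1

end Chart

end Fermat.Agent.H26.RV
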