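import Fermat.Agent.RV.FundF6
import Fermat.Agent.H23.R.Lifts

/-!
# The fundamental equality over the inertia field: final statements
-/

set_option autoImplicit false
set_option maxSynthPendingDepth 3
set_option linter.unusedSectionVars false

noncomputable section

attribute [-instance] HahnSeries.instModule HahnSeries.instSMul HahnSeries.instDistribMulAction
  HahnSeries.instSMulZeroClass

namespace Fermat.Agent.H26.FK

open ModularCurve Polynomial AlgebraicCurve Fermat.Agent.H26.RV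
open Fermat.Agent.H23.R hiding red_aeval io_algebraMap_A0 resA0
open Fermat.Agent.Q (Red)

local notation "Qb" => AlgebraicClosure ℚ
local notation "kk" => IsLocalRing.ResidueField

variable {q M : ℕ} [hq : Fact q.Prime] [NeZero M] (hqM : Nat.Coprime q M)
  {A : ValuationSubring Qb} (hA : A.LiesOverPrime q)

include hA in
theorem hL (i : Fin 3) (z : LF (H23.R.K0 A) (M * q * q)) (u : LaurentSeries (kk A))
    (h : Red A (io hqM (H23.R.K0 A) i z) u) : u ∈ LK A M :=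
  red_mem_L hqM hA (surRes_K0 hA) (isUnif_V0 hqM hA) h

theorem isUnif_0 : IsUnif (V hqM (H23.R.K0 A) hA 0) (q : LF (H23.R.K0 A) (M * q * q)) :=
  isUnif_V0 hqM hA

theorem isUnif_2 : IsUnif (V hqM (H23.R.K0 A) hA 2) (q : LF (H23.R.K0 A) (M * q * q)) :=
  isUnif_V2 hqM hA (surRes_K0 hA) (isUnif_V0 hqM hA)

theorem unif_1 {π' z : LF (H23.R.K0 A) (M * q * q)}
    (hπ' : rv (V hqM (H23.R.K0 A) hA 1) (π' ^ (q - 1) * (q : LF (H23.R.K0 A) (M * q * q))⁻¹) ≠ 0)
    (hz : z ∈ V hqM (H23.R.K0 A) hA 1) (hz0 : rv (V hqM (H23.R.K0 A) hA 1) z = 0) :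
    z * π'⁻¹ ∈ V hqM (H23.R.K0 A) hA 1 :=
  unif_V1 hqM hA (surRes_K0 hA) (isUnif_V0 hqM hA) hπ' hz hz0

/-- `Fund` over `K0(j)`: `e = eF q = ![1, q-1, 1]`. -/
theorem fundj_K0 : ∃ b, Fund (Wj hqM hA) (q : Bj q M (H23.R.K0 A)) (V hqM (H23.R.K0 A) hA) (eF q)
    (fF q M) (sF q M (H23.R.K0 A)) (πF q M (H23.R.K0 A)) b ∧
      ∀ i k, ∃ u ∈ modularFunctionFieldFullC (kk A) M, Red A (io hqM (H23.R.K0 A) i (b i k)) u :=
  fundj hqM hA (surRes_K0 hA) (isUnif_V0 hqM hA)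

instance isFrac_A0 : IsFractionRing (H23.R.A0 A) (H23.R.K0 A) :=
  inferInstanceAs (IsFractionRing (H23.R.A0 A) (H23.R.K0 A))

include hA in
theorem adapted_jK : Adapted (H23.R.A0 A) (H23.R.K0 A) (V hqM (H23.R.K0 A) hA)
    (q : H23.R.A0 A) (jK (H23.R.K0 A) (M * q * q)) := by
  haveI := H23.R.isDVR_A0 hq.out hA
  exact adapted_j hqM hA (surRes_K0 hA) (isUnif_V0 hqM hA) (coe_jK _ _)
    (H23.R.irreducible_q hq.out hA)

include hA in
theorem adapted_jK_inv : Adapted (H23.R.A0 A) (H23.R.K0 A) (V hqM (H23.R.K0 A) hA)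
    (q : H23.R.A0 A) (jK (H23.R.K0 A) (M * q * q))⁻¹ := by
  haveI := H23.R.isDVR_A0 hq.out hA
  exact adapted_jinv hqM hA (surRes_K0 hA) (isUnif_V0 hqM hA) (coe_jK _ _)
    (H23.R.irreducible_q hq.out hA)

instance fin_jK {N : ℕ} [NeZero N] :
    FiniteDimensional (IntermediateField.adjoin (H23.R.K0 A) {jK (H23.R.K0 A) N})
      (LF (H23.R.K0 A) N) := finite_adjoin_j (coe_jK _ _)

instance fin_jK_inv {N : ℕ} [NeZero N] :
    FiniteDimensional (IntermediateField.adjoin (H23.R.K0 A) {(jK (H23.R.K0 A) N)⁻¹})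
      (LF (H23.R.K0 A) N) := finite_adjoin_j_inv (coe_jK _ _)

end Fermat.Agent.H26.FK
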