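import Mathlib
import Fermat.Agent.H23.R.KeyThm
import Fermat.Agent.RV.Fund

/-!
# Local factoriality of the chart rings
-/

set_option autoImplicit false
set_option linter.unusedSectionVars false

noncomputable section

namespace Fermat.Agent.H26.RV

open Fermat.Agent.H23.R

section Dedekind

theorem isPrincipalIdealRing_atPrime (D : Type*) [CommRing D] [IsDedekindDomain D] (P : Ideal D)
    [P.IsPrime] : IsPrincipalIdealRing (Localization.AtPrime P) := by
  by_cases hP : P = ⊥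
  · subst hP
    have h1 : IsField (Localization.AtPrime (⊥ : Ideal D)) := by
      have : IsFractionRing D (Localization.AtPrime (⊥ : Ideal D)) := by
        have h2 : (⊥ : Ideal D).primeCompl = nonZeroDivisors D := by
          ext x
          rw [mem_nonZeroDivisors_iff_ne_zero]
          exact Iff.rfl
        rw [IsFractionRing, ← h2]
        infer_instance
      exact IsFractionRing.toField D |>.toIsField |> fun h => h
    letI := h1.toField
    infer_instance
  · haveI := IsLocalization.AtPrime.isDiscreteValuationRing_of_dedekind_domain D hP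
      (Localization.AtPrime P)
    infer_instance

/-- ideals of a Dedekind domain are locally principal. -/
theorem exists_local_generator' {D : Type*} [CommRing D] [IsDedekindDomain D] (P : Ideal D)
    [hP : P.IsPrime] (J : Ideal D) : ∃ g ∈ J, ∀ a ∈ J, ∃ d ∉ P, ∃ c, d * a = c * g := by
  haveI := isPrincipalIdealRing_atPrime D P
  obtain ⟨y, hy⟩ := (IsPrincipalIdealRing.principal
    (J.map (algebraMap D (Localization.AtPrime P)))).principal
  have hyJ : y ∈ J.map (algebraMap D (Localization.AtPrime P)) := by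
    rw [hy]; exact Submodule.mem_span_singleton_self y
  obtain ⟨⟨⟨g, hg⟩, ⟨t, ht⟩⟩, hgt⟩ :=
    (IsLocalization.mem_map_algebraMap_iff P.primeCompl (Localization.AtPrime P)).mp hyJ
  simp only at hgt
  refine ⟨g, hg, fun a ha => ?_⟩
  have h1 : algebraMap D (Localization.AtPrime P) a ∈ J.map (algebraMap D (Localization.AtPrime P)) :=
    Ideal.mem_map_of_mem _ ha
  rw [hy] at h1
  obtain ⟨z, hz⟩ := Submodule.mem_span_singleton.mp h1
  obtain ⟨⟨c, ⟨d, hd⟩⟩, hcd⟩ := IsLocalization.surj (M := P.primeCompl) z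
  simp only at hcd
  refine ⟨d * t, fun h => (hP.mem_or_mem h).elim hd ht, c, ?_⟩
  have h2 : algebraMap D (Localization.AtPrime P) (d * t * a) =
      algebraMap D (Localization.AtPrime P) (c * g) := by
    rw [map_mul, map_mul, map_mul, ← hz, ← hgt, ← hcd, smul_eq_mul]
    ring
  exact IsLocalization.injective (Localization.AtPrime P) P.primeCompl_le_nonZeroDivisors h2

end Dedekind

section Local

variable {F : Type*} [Field F] {R : Subring F} {V : ValuationSubring F}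

/-- **Local factoriality.** -/
theorem ufd_local [IsNoetherianRing R] (hRV : R ≤ V.toSubring) (s : Ideal R) [hs : s.IsPrime]
    (hker : ∀ a : R, rv V a = 0 → a ∈ s) {D : Type*} [CommRing D] [IsDedekindDomain D]
    (ρ : R →+* D) (hρ : Function.Surjective ρ) (hρ0 : ∀ a : R, ρ a = 0 ↔ rv V a = 0)
    {τ : F} (hτ : τ ∈ locSub R s) (hτ0 : τ ≠ 0) (hτV : rv V τ = 0)
    (hdiv : ∀ z : R, rv V z = 0 → (z : F) * τ⁻¹ ∈ locSub R s) :
    UniqueFactorizationMonoid (locSub R s) := by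
  haveI : IsNoetherianRing (locSub R s) :=
    IsLocalization.isNoetherianRing s.primeCompl (locSub R s) inferInstance
  -- residues of the local ring
  have hmemV : ∀ z ∈ locSub R s, z ∈ V := by
    rintro z ⟨d, hd, hz⟩
    have h1 : rv V (d : F) ≠ 0 := fun h => hd (hker d h)
    have h2 : z = (d : F)⁻¹ * (d * z) := by
      rw [← mul_assoc, inv_mul_cancel₀ (ne_zero_of_notMem R s hd), one_mul]
    rw [h2]
    exact V.mul_mem _ _ (rv_ne_zero_iff.mp h1).2.2 (hRV hz)
  let φ : locSub R s →+* IsLocalRing.ResidueField V :=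
    (IsLocalRing.residue V).comp
      { toFun := fun z => ⟨z, hmemV z z.2⟩
        map_one' := rfl
        map_mul' := fun _ _ => rfl
        map_zero' := rfl
        map_add' := fun _ _ => rfl }
  have hφ : ∀ z : locSub R s, φ z = rv V z := fun z => (rv_of_mem (hmemV z z.2)).symm
  let τ' : locSub R s := ⟨τ, hτ⟩
  have hτ'0 : τ' ≠ 0 := fun h => hτ0 (congrArg Subtype.val h)
  -- the kernel
  have hkerφ : RingHom.ker φ = Ideal.span {τ'} := by
    apply le_antisymm
    · intro z hz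
      rw [RingHom.mem_ker, hφ] at hz
      obtain ⟨d, hd, hdz⟩ := z.2
      have h1 : rv V ((⟨_, hdz⟩ : R) : F) = 0 := by
        change rv V ((d : F) * z) = 0
        rw [rv_mul (hRV d.2) (hmemV z z.2), hz, mul_zero]
      have h2 := hdiv ⟨_, hdz⟩ h1
      rw [Ideal.mem_span_singleton]
      refine ⟨⟨(d : F)⁻¹, inv_mem_locSub R s hd⟩ * ⟨_, h2⟩, Subtype.ext ?_⟩
      change (z : F) = τ * ((d : F)⁻¹ * ((d : F) * z * τ⁻¹))
      have hd0 := ne_zero_of_notMem R s hd
      field_simp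
    · rw [Ideal.span_le, Set.singleton_subset_iff, SetLike.mem_coe, RingHom.mem_ker, hφ]
      exact hτV
  have hprime : Prime τ' := by
    rw [← Ideal.span_singleton_prime hτ'0, ← hkerφ]
    exact RingHom.ker_isPrime φ
  refine ufd_of_prime hprime ?_
  -- the quotient is principal
  refine ⟨fun I => ?_⟩
  haveI hPprime : (s.map ρ).IsPrime := by
    refine Ideal.map_isPrime_of_surjective hρ fun a ha => ?_
    rw [RingHom.mem_ker, hρ0] at ha
    exact hker a ha
  have hcomap : ∀ a : R, ρ a ∈ s.map ρ → a ∈ s := by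
    intro a ha
    obtain ⟨b, hb, hab⟩ := (Ideal.mem_map_iff_of_surjective ρ hρ).mp ha
    have h1 : a - b ∈ s := hker _ ((hρ0 _).mp (by rw [map_sub, hab, sub_self]))
    have : a = (a - b) + b := by ring
    rw [this]
    exact s.add_mem h1 hb
  let J : Ideal R := (I.comap (Ideal.Quotient.mk (Ideal.span {τ'}))).comap
    (algebraMap R (locSub R s))
  obtain ⟨g, hg, hgJ⟩ := exists_local_generator' (s.map ρ) (J.map ρ)
  obtain ⟨g, hgJ', rfl⟩ := (Ideal.mem_map_iff_of_surjective ρ hρ).mp hg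
  refine ⟨⟨Ideal.Quotient.mk _ (algebraMap R (locSub R s) g), ?_⟩⟩
  apply le_antisymm
  · intro y hy
    obtain ⟨z, rfl⟩ := Ideal.Quotient.mk_surjective y
    obtain ⟨d, hd, hdz⟩ := z.2
    -- `d z ∈ J`
    have h1 : (⟨_, hdz⟩ : R) ∈ J := by
      change Ideal.Quotient.mk (Ideal.span {τ'}) (algebraMap R (locSub R s) ⟨_, hdz⟩) ∈ I
      have : algebraMap R (locSub R s) ⟨_, hdz⟩ = algebraMap R (locSub R s) d * z :=
        Subtype.ext rfl
      rw [this, map_mul]
      exact I.mul_mem_left _ hy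
    obtain ⟨e, he, c, hec⟩ := hgJ _ (Ideal.mem_map_of_mem ρ h1)
    obtain ⟨e, rfl⟩ := hρ e
    obtain ⟨c, rfl⟩ := hρ c
    have he' : e ∉ s := fun h => he (Ideal.mem_map_of_mem ρ h)
    -- `e d z - c g` is divisible by `τ`
    have h2 : rv V ((e * ⟨_, hdz⟩ - c * g : R) : F) = 0 := by
      rw [← hρ0, map_sub, map_mul, map_mul, hec, sub_self]
    have h3 := hdiv _ h2
    rw [Submodule.mem_span_singleton]
    refine ⟨Ideal.Quotient.mk _ (⟨((e * d : R) : F)⁻¹, inv_mem_locSub R s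
      (fun h => (hs.mem_or_mem h).elim he' hd)⟩ * algebraMap R (locSub R s) c), ?_⟩
    rw [smul_eq_mul, ← map_mul, Ideal.Quotient.eq, Ideal.mem_span_singleton]
    refine ⟨-(⟨((e * d : R) : F)⁻¹, inv_mem_locSub R s
      (fun h => (hs.mem_or_mem h).elim he' hd)⟩ * ⟨_, h3⟩), Subtype.ext ?_⟩
    have he0 := ne_zero_of_notMem R s he'
    have hd0 := ne_zero_of_notMem R s hd
    change (((e * d : R) : F))⁻¹ * (c : F) * (g : F) - z =
      τ * -(((e * d : R) : F)⁻¹ * ((((e * ⟨_, hdz⟩ - c * g : R) : F)) * τ⁻¹))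
    push_cast
    field_simp
    ring
  · rw [Submodule.span_le, Set.singleton_subset_iff]
    exact hgJ'

end Local

section Separated

variable {F : Type*} [Field F] {ι : Type*} [Finite ι] {V : ι → ValuationSubring F} {ϖ : F}
  {S : Subring F}

/-- Every prime containing `ϖ` contains the kernel of one of the reductions. -/
theorem exists_ker_le (hV : Vert V ϖ) (hϖS : ϖ⁻¹ ∈ S) [Nonempty ι]
    (s : Ideal (S ⊓ vert V : Subring F)) [hs : s.IsPrime]
    (hϖ : ∀ a : (S ⊓ vert V : Subring F), (a : F) = ϖ → a ∈ s) (hϖmem : ϖ ∈ S ⊓ vert V) :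
    ∃ i, ∀ a : (S ⊓ vert V : Subring F), rv (V i) a = 0 → a ∈ s := by
  classical
  cases nonempty_fintype ι
  by_contra hcon
  push Not at hcon
  choose a ha has using hcon
  -- the product is in all the kernels
  have hP : ∏ i, a i ∉ s := by
    intro h
    obtain ⟨i, -, hi⟩ := (Ideal.IsPrime.prod_mem_iff (hp := hs)).mp h
    exact has i hi
  have hPi : ∀ i, rv (V i) ((∏ i, a i : (S ⊓ vert V : Subring F)) : F) = 0 := by
    intro i
    have h1 : ((∏ i, a i : (S ⊓ vert V : Subring F)) : F) = ∏ l, ((a l : F)) := by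
      push_cast; rfl
    rw [h1, rv_prod _ _ fun l _ => (a l).2.2 i]
    exact Finset.prod_eq_zero (Finset.mem_univ i) (ha i)
  set P := ∏ i, a i with hPdef
  choose e he using fun i => hV.rk i P (P.2.2 i) (hPi i)
  have h2 : (P : F) ^ (Finset.univ.sup e) * ϖ⁻¹ ∈ S ⊓ vert V := by
    refine ⟨S.mul_mem (pow_mem P.2.1 _) hϖS, fun i => ?_⟩
    obtain ⟨d, hd⟩ := Nat.exists_eq_add_of_le (Finset.le_sup (f := e) (Finset.mem_univ i))
    have h3 : (P : F) ^ Finset.univ.sup e * ϖ⁻¹ = (P : F) ^ d * ((P : F) ^ e i * ϖ⁻¹) := by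
      rw [hd, pow_add]; ring
    rw [h3]
    exact (V i).mul_mem _ _ (pow_mem (P.2.2 i) _) (he i)
  apply hP
  apply hs.mem_of_pow_mem (Finset.univ.sup e)
  have h4 : P ^ (Finset.univ.sup e) = ⟨ϖ, hϖmem⟩ * ⟨_, h2⟩ := by
    apply Subtype.ext
    change (P : F) ^ _ = ϖ * ((P : F) ^ _ * ϖ⁻¹)
    have := hV.ne_zero
    field_simp
  rw [h4]
  exact s.mul_mem_right _ (hϖ _ rfl)

variable (V S) in
/-- The point `s` of component `i` does not lie on the other components. -/
def Sep (s : Ideal (S ⊓ vert V : Subring F)) (i : ι) : Prop :=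
  ∀ l, l ≠ i → ∃ a : (S ⊓ vert V : Subring F), rv (V l) a = 0 ∧ a ∉ s

theorem Sep.exists_elt {s : Ideal (S ⊓ vert V : Subring F)} [hs : s.IsPrime] {i : ι}
    (h : Sep V S s i) : ∃ a : (S ⊓ vert V : Subring F), (∀ l, l ≠ i → rv (V l) a = 0) ∧ a ∉ s := by
  classical
  cases nonempty_fintype ι
  have h1 : ∀ l, ∃ a : (S ⊓ vert V : Subring F), (l ≠ i → rv (V l) a = 0) ∧ a ∉ s := by
    intro l
    by_cases hl : l = i
    · exact ⟨1, fun h => absurd hl h, fun h => hs.ne_top ((Ideal.eq_top_iff_one s).mpr h)⟩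
    · obtain ⟨a, ha, has⟩ := h l hl
      exact ⟨a, fun _ => ha, has⟩
  choose a ha has using h1
  refine ⟨∏ l, a l, fun l hl => ?_, fun h => ?_⟩
  · have h1 : ((∏ i, a i : (S ⊓ vert V : Subring F)) : F) = ∏ l, ((a l : F)) := by
      push_cast; rfl
    rw [h1, rv_prod _ _ fun m _ => (a m).2.2 l]
    exact Finset.prod_eq_zero (Finset.mem_univ l) (ha l hl)
  · obtain ⟨l, -, hl⟩ := (Ideal.IsPrime.prod_mem_iff (hp := hs)).mp h
    exact has l hl

/-- at a separated point the local ring is cut out by `V i`. -/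
theorem Sep.mem_locSub {s : Ideal (S ⊓ vert V : Subring F)} [hs : s.IsPrime] {i : ι}
    (h : Sep V S s i)
    (harch : ∀ l (z y : F), y ∈ V l → rv (V l) y = 0 → ∃ k : ℕ, z * y ^ k ∈ V l)
    {d : (S ⊓ vert V : Subring F)} (hd : d ∉ s) {y : F} (hy : (d : F) * y ∈ S) (hyV : y ∈ V i) :
    y ∈ locSub _ s := by
  classical
  cases nonempty_fintype ι
  obtain ⟨a, ha, has⟩ := h.exists_elt
  have h1 : ∀ l, ∃ k : ℕ, (d : F) * y * (a : F) ^ k ∈ V l := by
    intro l
    by_cases hl : l = i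
    · subst hl
      exact ⟨0, by rw [pow_zero, mul_one]; exact (V l).mul_mem _ _ (d.2.2 l) hyV⟩
    · exact harch l _ _ (a.2.2 l) (ha l hl)
  choose k hk using h1
  refine ⟨d * a ^ (Finset.univ.sup k), fun h => (hs.mem_or_mem h).elim hd
    fun h => has (hs.mem_of_pow_mem _ h), ?_⟩
  have h2 : ((d * a ^ (Finset.univ.sup k) : (S ⊓ vert V : Subring F)) : F) * y =
      d * y * (a : F) ^ (Finset.univ.sup k) := by
    push_cast; ring
  rw [h2]
  refine ⟨S.mul_mem hy (pow_mem a.2.1 _), fun l => ?_⟩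
  obtain ⟨m, hm⟩ := Nat.exists_eq_add_of_le (Finset.le_sup (f := k) (Finset.mem_univ l))
  have h3 : (d : F) * y * (a : F) ^ (Finset.univ.sup k) = (a : F) ^ m * (d * y * (a : F) ^ k l) := by
    rw [hm, pow_add]; ring
  rw [h3]
  exact (V l).mul_mem _ _ (pow_mem (a.2.2 l) _) (hk l)

/-- Local factoriality at separated points. -/
theorem Sep.ufd [IsNoetherianRing (S ⊓ vert V : Subring F)]
    {s : Ideal (S ⊓ vert V : Subring F)} [hs : s.IsPrime] {i : ι}
    (h : Sep V S s i) (hϖS : ϖ⁻¹ ∈ S)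
    (harch : ∀ l (z y : F), y ∈ V l → rv (V l) y = 0 → ∃ k : ℕ, z * y ^ k ∈ V l)
    (hker : ∀ a : (S ⊓ vert V : Subring F), rv (V i) a = 0 → a ∈ s)
    {D : Type*} [CommRing D] [IsDedekindDomain D]
    (ρ : (S ⊓ vert V : Subring F) →+* D) (hρ : Function.Surjective ρ)
    (hρ0 : ∀ a : (S ⊓ vert V : Subring F), ρ a = 0 ↔ rv (V i) a = 0)
    {t : F} {e : ℕ} (he : e ≠ 0) (ht : t ∈ locSub _ s) (ht0 : t ≠ 0) (htV : rv (V i) t = 0)
    (hunif : ∀ z ∈ V i, rv (V i) z = 0 → z * t⁻¹ ∈ V i) (hϖ0 : ϖ ≠ 0)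
    (hu : t ^ e * ϖ⁻¹ ∈ V i) (hu' : ϖ * (t ^ e)⁻¹ ∈ locSub _ s) :
    UniqueFactorizationMonoid (locSub _ s) := by
  have hRV : S ⊓ vert V ≤ (V i).toSubring := fun z hz => hz.2 i
  refine ufd_local (V := V i) hRV s hker ρ hρ hρ0 ht ht0 htV fun z hz => ?_
  obtain ⟨e, rfl⟩ := Nat.exists_eq_succ_of_ne_zero he
  obtain ⟨d, hd, hdt⟩ := pow_mem ht e
  have hd0 := ne_zero_of_notMem _ s hd
  have h1 : (z : F) * t⁻¹ = ((z : F) * t ^ e * ϖ⁻¹) * (ϖ * (t ^ (e + 1))⁻¹) := by
    rw [pow_succ]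
    field_simp
  rw [h1]
  refine mul_mem ?_ hu'
  refine h.mem_locSub harch hd ?_ ?_
  · have : (d : F) * ((z : F) * t ^ e * ϖ⁻¹) = z * (d * t ^ e) * ϖ⁻¹ := by ring
    rw [this]
    exact S.mul_mem (S.mul_mem z.2.1 hdt.1) hϖS
  · have : (z : F) * t ^ e * ϖ⁻¹ = ((z : F) * t⁻¹) * (t ^ (e + 1) * ϖ⁻¹) := by
      rw [pow_succ]
      field_simp
    rw [this]
    exact (V i).mul_mem _ _ (hunif z (z.2.2 i) hz) hu

/-- Local factoriality at the points lying on all the components. -/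
theorem ufd_common [IsNoetherianRing (S ⊓ vert V : Subring F)]
    {s : Ideal (S ⊓ vert V : Subring F)} [hs : s.IsPrime] {i : ι}
    {D : Type*} [CommRing D] [IsDedekindDomain D]
    (ρ : (S ⊓ vert V : Subring F) →+* D) (hρ : Function.Surjective ρ)
    (hρ0 : ∀ a : (S ⊓ vert V : Subring F), ρ a = 0 ↔ rv (V i) a = 0)
    {c c' : F} (hc : c ∈ S ⊓ vert V) (hcs : (⟨c, hc⟩ : (S ⊓ vert V : Subring F)) ∈ s)
    (hci : rv (V i) c = 0)
    {u : (S ⊓ vert V : Subring F)} (hu : u ∉ s) (hcc' : c * c' = ϖ * u) (hϖ0 : ϖ ≠ 0)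
    (hdiv : ∀ z : (S ⊓ vert V : Subring F), rv (V i) z = 0 → (z : F) * c' * ϖ⁻¹ ∈ S ⊓ vert V) :
    (∀ a : (S ⊓ vert V : Subring F), rv (V i) a = 0 → a ∈ s) ∧
    UniqueFactorizationMonoid (locSub _ s) := by
  have hu0 : (u : F) ≠ 0 := ne_zero_of_notMem _ s hu
  have hc0 : c ≠ 0 := by
    rintro rfl
    rw [zero_mul] at hcc'
    exact mul_ne_zero hϖ0 hu0 hcc'.symm
  have key : ∀ z : (S ⊓ vert V : Subring F), ∀ hz : rv (V i) z = 0,
      z * u = (⟨_, hdiv z hz⟩ : (S ⊓ vert V : Subring F)) * ⟨c, hc⟩ := by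
    intro z hz
    apply Subtype.ext
    change (z : F) * u = z * c' * ϖ⁻¹ * c
    have : (u : F) = c * c' * ϖ⁻¹ := by rw [hcc']; field_simp
    rw [this]; ring
  have hker : ∀ a : (S ⊓ vert V : Subring F), rv (V i) a = 0 → a ∈ s := by
    intro z hz
    have h1 : z * u ∈ s := by
      rw [key z hz]
      exact s.mul_mem_left _ hcs
    exact (hs.mem_or_mem h1).resolve_right hu
  refine ⟨hker, ?_⟩
  have hRV : S ⊓ vert V ≤ (V i).toSubring := fun z hz => hz.2 i
  refine ufd_local (V := V i) hRV s hker ρ hρ hρ0 (le_locSub _ s hc) hc0 hci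
    fun z hz => ?_
  refine ⟨u, hu, ?_⟩
  have h1 := congrArg Subtype.val (key z hz)
  change (z : F) * u = z * c' * ϖ⁻¹ * c at h1
  have h2 : (u : F) * (z * c⁻¹) = z * c' * ϖ⁻¹ := by
    rw [← mul_assoc, mul_comm (u : F), h1, mul_assoc, mul_inv_cancel₀ hc0, mul_one]
  rw [h2]
  exact hdiv z hz

end Separated

end Fermat.Agent.H26.RV
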