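import Mathlib
import Fermat.Agent.Q.AtkinLehner

/-!
# The third embedding `κ` of the function field of `X₀(M q²)`
-/

set_option autoImplicit false

noncomputable section

namespace Fermat.Agent.H26.RV

open ModularCurve HahnSeries Fermat.Agent.Igusa UpperHalfPlane Fermat.Agent.Q
open scoped MatrixGroups

section Generic

variable {ι : Type*} {K : Type*} [Field K]

theorem isExp_aeval' (f : ι → ℍ → ℂ) (F : ι → LaurentSeries ℂ)
    (hf : ∀ i, Igusa.IsExp 1 (f i) (F i)) (P : MvPolynomial ι ℂ) :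
    Igusa.IsExp 1 (fun τ => MvPolynomial.aeval (fun i => f i τ) P) (MvPolynomial.aeval F P) := by
  induction P using MvPolynomial.induction_on with
  | C a =>
    simp only [MvPolynomial.algHom_C, Algebra.algebraMap_self, RingHom.id_apply]
    have h1 : algebraMap ℂ (LaurentSeries ℂ) a = HahnSeries.C a := by
      rw [algebraMap_laurentSeries_eq_single]
      rfl
    rw [h1]
    exact Igusa.IsExp.const a
  | add P Q' hP hQ =>
    simp only [map_add]
    exact hP.add hQ
  | mul_X P i hP =>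
    simp only [map_mul, MvPolynomial.aeval_X]
    exact hP.mul (hf i)

/-- Two families of series which are the expansions of functions related by a surjective
substitution satisfy the same algebraic relations. -/
theorem aeval_iff_of_isExp (σ : K →+* ℂ) (u v : ι → LaurentSeries K) (f g : ι → ℍ → ℂ)
    (hf : ∀ i, Igusa.IsExp 1 (f i) (coeffMap σ (u i))) (hg : ∀ i, Igusa.IsExp 1 (g i) (coeffMap σ (v i)))
    (γ : ℍ → ℍ) (hγ : Function.Surjective γ) (h : ∀ i τ, f i (γ τ) = g i τ)
    (P : MvPolynomial ι K) :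
    MvPolynomial.aeval u P = 0 ↔ MvPolynomial.aeval v P = 0 := by
  have hcoe : ∀ (w : ι → LaurentSeries K), MvPolynomial.aeval w P = 0 ↔
      MvPolynomial.aeval (fun i => coeffMap σ (w i)) (MvPolynomial.map σ P) = 0 := by
    intro w
    rw [← coeffMap_aeval K σ w _ (fun _ => rfl) P]
    constructor
    · intro h; rw [h, map_zero]
    · intro h
      exact Igusa.coeffMap_injective σ σ.injective (by rw [h, map_zero])
  have hval : ∀ (w : ι → LaurentSeries K) (f : ι → ℍ → ℂ)
      (_ : ∀ i, Igusa.IsExp 1 (f i) (coeffMap σ (w i))),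
      MvPolynomial.aeval (fun i => coeffMap σ (w i)) (MvPolynomial.map σ P) = 0 ↔
        ∀ τ : ℍ, MvPolynomial.aeval (fun i => f i τ) (MvPolynomial.map σ P) = 0 := by
    intro w f hf
    have h1 := isExp_aeval' _ _ hf (MvPolynomial.map σ P)
    constructor
    · intro h0 τ
      rw [h0] at h1
      exact (h1 τ).unique (by simp)
    · intro h0
      have h2 : (fun τ => MvPolynomial.aeval (fun i => f i τ) (MvPolynomial.map σ P)) =
          fun _ => 0 := funext h0
      rw [h2] at h1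
      exact h1.eq_zero one_pos
  rw [hcoe u, hcoe v, hval u f hf, hval v g hg]
  constructor
  · intro h0 τ
    have := h0 (γ τ)
    simpa only [h] using this
  · intro h0 τ
    obtain ⟨τ, rfl⟩ := hγ τ
    have := h0 τ
    simpa only [h] using this

open scoped IntermediateField.algebraAdjoinAdjoin in
/-- lifting a relation preserving assignment to the generated field. -/
theorem exists_hom_of_aeval (u v : ι → LaurentSeries K)
    (h : ∀ P : MvPolynomial ι K, MvPolynomial.aeval u P = 0 ↔ MvPolynomial.aeval v P = 0) :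
    ∃ φ : IntermediateField.adjoin K (Set.range u) →ₐ[K] LaurentSeries K,
      ∀ i, φ ⟨u i, IntermediateField.subset_adjoin K _ ⟨i, rfl⟩⟩ = v i := by
  obtain ⟨φ, hφ, h⟩ : ∃ φ : Algebra.adjoin K (Set.range u) →ₐ[K] LaurentSeries K,
      Function.Injective φ ∧ ∀ i, φ ⟨u i, Algebra.subset_adjoin ⟨i, rfl⟩⟩ = v i := by
    let f : MvPolynomial ι K →ₐ[K] Algebra.adjoin K (Set.range u) :=
      MvPolynomial.aeval fun i => ⟨u i, Algebra.subset_adjoin ⟨i, rfl⟩⟩
    have hf : ∀ P, ((f P : Algebra.adjoin K (Set.range u)) : LaurentSeries K) =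
        MvPolynomial.aeval u P := fun P => by
      have : (Algebra.adjoin K (Set.range u)).val.comp f = MvPolynomial.aeval u := by
        apply MvPolynomial.algHom_ext
        intro i
        simp [f]
      exact congrArg (fun φ : MvPolynomial ι K →ₐ[K] LaurentSeries K => φ P) this
    have hsurj : Function.Surjective f := by
      rintro ⟨x, hx⟩
      rw [Algebra.adjoin_range_eq_range_aeval] at hx
      obtain ⟨P, hP⟩ := hx
      exact ⟨P, Subtype.ext ((hf P).trans hP)⟩
    have hker : ∀ P, f P = 0 → MvPolynomial.aeval u P = 0 := fun P h1 => by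
      rw [← hf, h1]; rfl
    let g : MvPolynomial ι K ⧸ RingHom.ker f →ₐ[K] LaurentSeries K :=
      Ideal.Quotient.liftₐ (RingHom.ker f) (MvPolynomial.aeval v)
        (fun P hP => (h P).mp (hker P hP))
    let e := Ideal.quotientKerAlgEquivOfSurjective hsurj
    have hfe : ∀ P, e (Ideal.Quotient.mk _ P) = f P := fun P => rfl
    have hg : ∀ P, (g.comp e.symm.toAlgHom) (f P) = MvPolynomial.aeval v P := by
      intro P
      rw [← hfe]
      change g (e.symm (e _)) = _
      rw [AlgEquiv.symm_apply_apply]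
      rfl
    refine ⟨g.comp e.symm.toAlgHom, ?_, ?_⟩
    · rw [injective_iff_map_eq_zero]
      intro x hx
      obtain ⟨P, rfl⟩ := hsurj x
      rw [hg, ← h] at hx
      exact Subtype.ext ((hf P).trans hx)
    · intro i
      have := hg (MvPolynomial.X i)
      simpa [f] using this
  refine ⟨IsFractionRing.liftAlgHom (A := Algebra.adjoin K (Set.range u))
    (K := IntermediateField.adjoin K (Set.range u)) hφ, ?_⟩
  intro i
  rw [IsFractionRing.liftAlgHom_apply]
  have : (⟨u i, IntermediateField.subset_adjoin K _ ⟨i, rfl⟩⟩ :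
      IntermediateField.adjoin K (Set.range u)) =
      algebraMap (Algebra.adjoin K (Set.range u)) _
        ⟨u i, Algebra.subset_adjoin ⟨i, rfl⟩⟩ := rfl
  rw [this, IsFractionRing.lift_algebraMap]
  exact h i

end Generic

section Matrices

variable {q M : ℕ} [NeZero q] [NeZero M]

theorem exists_ab (hqM : Nat.Coprime q M) : ∃ a b : ℤ, a * (M + q) - b * (q * M) = 1 := by
  have h1 : Nat.Coprime (M + q) (q * M) := by
    apply Nat.Coprime.mul_right
    · rw [Nat.coprime_add_self_left]; exact hqM.symm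
    · rw [Nat.coprime_self_add_left]; exact hqM
  have h := Nat.isCoprime_iff_coprime.mpr h1
  obtain ⟨u, v, huv⟩ := h
  push_cast at huv
  exact ⟨u, -v, by linarith⟩

variable {a b : ℤ} (h : a * (M + q) - b * (q * M) = 1)

/-- the matrix `γ` -/
def gm : SL(2, ℤ) :=
  ⟨!![a, b; (q * M : ℤ), M + q], by rw [Matrix.det_fin_two_of, ← h]⟩

/-- the matrix for `j(e τ)`, `e ∣ q M`. -/
def ge (e : ℕ) (he : e ∣ M * q) : SL(2, ℤ) :=
  ⟨!![a, e * b; ((M * q / e : ℕ) : ℤ), M + q], by
    have h2 : (e : ℤ) * ((M * q / e : ℕ) : ℤ) = M * q := by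
      exact_mod_cast Nat.mul_div_cancel' he
    rw [Matrix.det_fin_two_of]
    linear_combination h - b * h2⟩

/-- the matrix for `j(q² d τ)`, `d ∣ M`. -/
def gd (d : ℕ) (hd : d ∣ M) : SL(2, ℤ) :=
  ⟨!![q * a, -(d * a) + q * d * b; ((M / d : ℕ) : ℤ), 1], by
    have h2 : (d : ℤ) * ((M / d : ℕ) : ℤ) = M := by
      exact_mod_cast Nat.mul_div_cancel' hd
    rw [Matrix.det_fin_two_of]
    linear_combination h + (a - q * b) * h2⟩

theorem im_ne (τ : ℍ) {x y : ℝ} (hx : x ≠ 0) : (x : ℂ) * τ + y ≠ 0 := by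
  intro h0
  have h1 := congrArg Complex.im h0
  simp only [Complex.add_im, Complex.mul_im, Complex.ofReal_re, Complex.ofReal_im, zero_mul,
    add_zero, Complex.zero_im] at h1
  exact mul_ne_zero hx τ.im_pos.ne' h1

omit [NeZero q] [NeZero M] in
theorem coe_gm_smul (τ : ℍ) : ((gm h • τ : ℍ) : ℂ) = (a * τ + b) / ((q * M : ℂ) * τ + (M + q)) := by
  rw [UpperHalfPlane.coe_specialLinearGroup_apply]
  simp only [algebraMap_int_eq, eq_intCast]
  have h3 : gm h 0 0 = a := rfl
  have h4 : gm h 0 1 = b := rfl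
  have h5 : gm h 1 0 = q * M := rfl
  have h6 : gm h 1 1 = M + q := rfl
  rw [h3, h4, h5, h6]
  push_cast
  rfl

theorem scl_gm (e : ℕ) [NeZero e] (he : e ∣ M * q) (τ : ℍ) :
    scl e (gm h • τ) = ge h e he • scl e τ := by
  apply UpperHalfPlane.ext
  rw [coe_scl, coe_gm_smul, UpperHalfPlane.coe_specialLinearGroup_apply]
  simp only [algebraMap_int_eq, eq_intCast]
  have h3 : ge h e he 0 0 = a := rfl
  have h4 : ge h e he 0 1 = e * b := rfl
  have h5 : ge h e he 1 0 = ((M * q / e : ℕ) : ℤ) := rfl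
  have h6 : ge h e he 1 1 = M + q := rfl
  rw [h3, h4, h5, h6, coe_scl]
  have he0 : (e : ℂ) ≠ 0 := by exact_mod_cast NeZero.ne e
  have hcast : (((M * q / e : ℕ) : ℤ) : ℂ) = M * q / e := by
    rw [Int.cast_natCast, Nat.cast_div he he0, Nat.cast_mul]
  have hne : (q * M : ℂ) * τ + (M + q) ≠ 0 := by
    have := im_ne τ (x := q * M) (y := M + q) (by
      have h1 : (q : ℝ) ≠ 0 := by exact_mod_cast NeZero.ne q
      have h2 : (M : ℝ) ≠ 0 := by exact_mod_cast NeZero.ne M
      exact mul_ne_zero h1 h2)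
    push_cast at this
    exact this
  simp only [Complex.ofReal_intCast]
  rw [hcast]
  push_cast
  have hne' : (M * q / e : ℂ) * (e * τ) + (M + q) ≠ 0 := by
    have : (M * q / e : ℂ) * (e * τ) + (M + q) = (q * M : ℂ) * τ + (M + q) := by
      field_simp
    rw [this]; exact hne
  rw [mul_div_assoc', div_eq_div_iff hne hne']
  field_simp

theorem scl_gm' (d : ℕ) [NeZero d] (hd : d ∣ M) (τ : ℍ) :
    scl (q * q * d) (gm h • τ) = gd h d hd • scl d (lin q 1 (scl q τ)) := by
  apply UpperHalfPlane.ext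
  rw [coe_scl, coe_gm_smul, UpperHalfPlane.coe_specialLinearGroup_apply]
  simp only [algebraMap_int_eq, eq_intCast]
  have h3 : gd h d hd 0 0 = q * a := rfl
  have h4 : gd h d hd 0 1 = -(d * a) + q * d * b := rfl
  have h5 : gd h d hd 1 0 = ((M / d : ℕ) : ℤ) := rfl
  have h6 : gd h d hd 1 1 = 1 := rfl
  rw [h3, h4, h5, h6, coe_scl, coe_lin, coe_scl]
  have hd0 : (d : ℂ) ≠ 0 := by exact_mod_cast NeZero.ne d
  have hq0 : (q : ℂ) ≠ 0 := by exact_mod_cast NeZero.ne q
  have hcast : (((M / d : ℕ) : ℤ) : ℂ) = M / d := by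
    rw [Int.cast_natCast, Nat.cast_div hd hd0]
  have hne : (q * M : ℂ) * τ + (M + q) ≠ 0 := by
    have := im_ne τ (x := q * M) (y := M + q) (by
      have h1 : (q : ℝ) ≠ 0 := by exact_mod_cast NeZero.ne q
      have h2 : (M : ℝ) ≠ 0 := by exact_mod_cast NeZero.ne M
      exact mul_ne_zero h1 h2)
    push_cast at this
    exact this
  simp only [Complex.ofReal_intCast]
  rw [hcast]
  push_cast
  have e1 : (M / d : ℂ) * (d * ((q * τ + 1) / q)) + 1 = ((q * M : ℂ) * τ + (M + q)) / q := by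
    field_simp
    ring
  have hne' : (M / d : ℂ) * (d * ((q * τ + 1) / q)) + 1 ≠ 0 := by
    rw [e1]; exact div_ne_zero hne hq0
  rw [mul_div_assoc', div_eq_div_iff hne hne', e1]
  field_simp
  ring

theorem jf_scl_gm (e : ℕ) [NeZero e] (he : e ∣ M * q) (τ : ℍ) :
    jf (scl e (gm h • τ)) = jf (scl e τ) := by
  rw [scl_gm h e he, jf_smul]

theorem jf_scl_gm' (d : ℕ) [NeZero d] (hd : d ∣ M) (τ : ℍ) :
    jf (scl (q * q * d) (gm h • τ)) = jf (scl d (lin q 1 (scl q τ))) := by
  rw [scl_gm' h d hd, jf_smul]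

end Matrices

section Kappa

variable (q M : ℕ) [hq : Fact q.Prime] [NeZero M]

/-- index set of the generators. -/
abbrev Idk : Type := {d : ℕ // d ∣ M * q} ⊕ {d : ℕ // d ∣ M}

variable {q M}

instance nz1 (d : {d : ℕ // d ∣ M * q}) : NeZero d.1 :=
  ⟨fun h => mul_ne_zero (NeZero.ne M) hq.out.ne_zero (Nat.eq_zero_of_zero_dvd (h ▸ d.2))⟩

instance nz2 (d : {d : ℕ // d ∣ M}) : NeZero d.1 :=
  ⟨fun h => (NeZero.ne M) (Nat.eq_zero_of_zero_dvd (h ▸ d.2))⟩

instance nz3 (d : {d : ℕ // d ∣ M}) : NeZero (q * q * d.1) :=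
  ⟨mul_ne_zero (mul_ne_zero hq.out.ne_zero hq.out.ne_zero) (NeZero.ne _)⟩

variable (q M) in
/-- generators -/
def gU (K : Type*) [CommRing K] : Idk q M → LaurentSeries K
  | .inl d => jd K d.1
  | .inr d => jd K (q * q * d.1)

variable (q M) in
/-- images of the generators -/
def gV {K : Type*} [CommRing K] (ζ : Kˣ) : Idk q M → LaurentSeries K
  | .inl d => jd K d.1
  | .inr d => twist ζ (jd K d.1)

theorem range_gU (K : Type*) [Field K] :
    Set.range (gU q M K) = divisorExpansionsC K (M * q * q) := by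
  have hM0 := NeZero.ne M
  ext x
  constructor
  · rintro ⟨i | i, rfl⟩
    · exact ⟨i.1, inferInstance, i.2.trans (dvd_mul_right _ _), rfl⟩
    · exact ⟨q * q * i.1, inferInstance, by
        rw [mul_assoc M, mul_comm M]
        exact mul_dvd_mul_left _ i.2, rfl⟩
  · rintro ⟨d, hd, hdvd, rfl⟩
    by_cases h1 : d ∣ M * q
    · exact ⟨.inl ⟨d, h1⟩, rfl⟩
    · have h2 : q * q ∣ d := by
        rw [mul_assoc, Nat.dvd_mul] at hdvd
        obtain ⟨y, z, hy, hz, rfl⟩ := hdvd
        have h3 : z ∣ q ^ 2 := by rw [sq]; exact hz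
        rw [Nat.dvd_prime_pow hq.out] at h3
        obtain ⟨m, hm, rfl⟩ := h3
        interval_cases m
        · exact absurd (mul_dvd_mul hy (one_dvd q)) h1
        · exact absurd (mul_dvd_mul hy (by rw [pow_one])) h1
        · rw [sq]; exact dvd_mul_left _ _
      obtain ⟨e, rfl⟩ := h2
      have h3 : e ∣ M := by
        rw [mul_assoc M, mul_comm M] at hdvd
        exact Nat.dvd_of_mul_dvd_mul_left (mul_pos hq.out.pos hq.out.pos) hdvd
      exact ⟨.inr ⟨e, h3⟩, rfl⟩

theorem adjoin_range_gU (K : Type*) [Field K] : IntermediateField.adjoin K (Set.range (gU q M K)) =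
    modularFunctionFieldFullC K (M * q * q) := by
  rw [range_gU]
  rfl

theorem coeffMap_gU {R S : Type*} [CommRing R] [CommRing S] (f : R →+* S) (i : Idk q M) :
    coeffMap f (gU q M R i) = gU q M S i := by
  rcases i with i | i
  · exact coeffMap_jd f _
  · exact coeffMap_jd f _

theorem coeffMap_gV {R S : Type*} [CommRing R] [CommRing S] (f : R →+* S) (ζ : Rˣ) (i : Idk q M) :
    coeffMap f (gV q M ζ i) = gV q M (Units.map (f : R →* S) ζ) i := by
  rcases i with i | i
  · exact coeffMap_jd f _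
  · change coeffMap f (twist ζ (jd R i.1)) = twist _ (jd S i.1)
    rw [← twist_coeffMap, coeffMap_jd]

/-- the functions -/
def fU : Idk q M → ℍ → ℂ
  | .inl d => fun τ => jf (scl d.1 τ)
  | .inr d => fun τ => jf (scl (q * q * d.1) τ)

/-- the functions -/
def fV : Idk q M → ℍ → ℂ
  | .inl d => fun τ => jf (scl d.1 τ)
  | .inr d => fun τ => jf (scl d.1 (lin q 1 (scl q τ)))

theorem isExp_gU (i : Idk q M) : Igusa.IsExp 1 (fU i) (gU q M ℂ i) := by
  rcases i with i | i
  · exact isExp_jf.comp_scl _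
  · exact isExp_jf.comp_scl _

theorem isExp_gV (i : Idk q M) : Igusa.IsExp 1 (fV i) (gV q M (zr q) i) := by
  rcases i with i | i
  · exact isExp_jf.comp_scl _
  · have h1 := (isExp_jf.comp_scl i.1).comp_lin q 1
    rw [zpow_one] at h1
    have h2 := h1.comp_scl q
    rw [isExp_qExpand_iff] at h2
    exact h2

variable (K : Type*) [Field K] [Algebra ℚ K] [Algebra.IsAlgebraic ℚ K] [IsAlgClosed K]

variable (q) in
theorem exists_zeta : ∃ (σ : K →+* ℂ) (ζ : Kˣ), IsPrimitiveRoot ζ q ∧
    Units.map (σ : K →* ℂ) ζ = zr q := by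
  let σ : K →+* ℂ := ((IsAlgClosed.lift : K →ₐ[ℚ] ℂ) : K →+* ℂ)
  have hz := zr_isPrimitiveRoot q
  haveI : CharZero K := algebraRat.charZero K
  haveI : NeZero (q : K) := ⟨by exact_mod_cast hq.out.ne_zero⟩
  obtain ⟨ζ₀, hζ₀⟩ := HasEnoughRootsOfUnity.exists_primitiveRoot K q
  have h1 : IsPrimitiveRoot (σ ζ₀) q := hζ₀.map_of_injective σ.injective
  obtain ⟨i, hi, hi'⟩ := h1.eq_pow_of_pow_eq_one hz.pow_eq_one
  have h2 : IsPrimitiveRoot (ζ₀ ^ i) q := by
    apply IsPrimitiveRoot.of_map_of_injective (f := σ) _ σ.injective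
    rw [map_pow, hi']
    exact hz
  refine ⟨σ, h2.isUnit hq.out.ne_zero |>.unit, ?_, ?_⟩
  · rw [← IsPrimitiveRoot.coe_units_iff]; exact h2
  · ext
    change σ (ζ₀ ^ i) = _
    rw [map_pow, hi']

/-- **The embedding `κ`.** -/
theorem exists_kappa (hqM : Nat.Coprime q M) :
    ∃ ζ : Kˣ, IsPrimitiveRoot ζ q ∧ ∃ φ : IntermediateField.adjoin K (Set.range (gU q M K)) →ₐ[K]
      LaurentSeries K, ∀ i, φ ⟨gU q M K i, IntermediateField.subset_adjoin K _ ⟨i, rfl⟩⟩ =
        gV q M ζ i := by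
  obtain ⟨σ, ζ, hζ, hσζ⟩ := exists_zeta q K
  refine ⟨ζ, hζ, exists_hom_of_aeval _ _ ?_⟩
  obtain ⟨a, b, h⟩ := exists_ab hqM
  refine aeval_iff_of_isExp σ _ _ fU fV (fun i => ?_) (fun i => ?_) (fun τ => gm h • τ)
    (MulAction.surjective (gm h)) (fun i τ => ?_)
  · rw [coeffMap_gU]; exact isExp_gU i
  · rw [coeffMap_gV, hσζ]; exact isExp_gV i
  · rcases i with i | i
    · exact jf_scl_gm h i.1 i.2 τ
    · exact jf_scl_gm' h i.1 i.2 τ

end Kappa

end Fermat.Agent.H26.RV
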