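import Mathlib
import Fermat.Agent.RV.Kappa1
import Fermat.Agent.Q.Galois

/-!
# The embeddings of the function field of `X₀(M q²)` in `ℚ̄((t))`
-/

set_option autoImplicit false

noncomputable section

namespace Fermat.Agent.H26.RV

open ModularCurve HahnSeries Fermat.Agent.Igusa Fermat.Agent.Q

section Kap

variable {q M : ℕ} [hq : Fact q.Prime] [NeZero M]
variable (K : Type*) [Field K] [Algebra ℚ K] [Algebra.IsAlgebraic ℚ K] [IsAlgClosed K]
  (hqM : Nat.Coprime q M)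

/-- the root of unity -/
def zt : Kˣ := (exists_kappa K hqM).choose

theorem zt_prim : IsPrimitiveRoot (zt K hqM) q := (exists_kappa K hqM).choose_spec.1

theorem zt_pow : (zt K hqM) ^ q = 1 := (zt_prim K hqM).pow_eq_one

/-- the embedding `κ` -/
def kap : modularFunctionFieldFullC K (M * q * q) →ₐ[K] LaurentSeries K :=
  (exists_kappa K hqM).choose_spec.2.choose.comp
    (IntermediateField.equivOfEq (adjoin_range_gU K).symm).toAlgHom

theorem kap_gU (i : Idk q M) (h : gU q M K i ∈ modularFunctionFieldFullC K (M * q * q)) :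
    kap K hqM ⟨gU q M K i, h⟩ = gV q M (zt K hqM) i :=
  (exists_kappa K hqM).choose_spec.2.choose_spec i

instance nzq : NeZero q := ⟨hq.out.ne_zero⟩

theorem kap_jd {d : ℕ} [NeZero d] (hd : d ∣ M * q)
    (h : jd K d ∈ modularFunctionFieldFullC K (M * q * q)) : kap K hqM ⟨jd K d, h⟩ = jd K d :=
  kap_gU K hqM (.inl ⟨d, hd⟩) h

theorem kap_jd' {d e : ℕ} [NeZero d] [NeZero e] (hd : d ∣ M) (he : q * q * d = e)
    (h : jd K e ∈ modularFunctionFieldFullC K (M * q * q)) :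
    kap K hqM ⟨jd K e, h⟩ = twist (zt K hqM) (jd K d) := by
  subst he
  exact kap_gU K hqM (.inr ⟨d, hd⟩) h

theorem mem_mul_q {x : LaurentSeries K} (hx : x ∈ modularFunctionFieldFullC K (M * q)) :
    x ∈ modularFunctionFieldFullC K (M * q * q) :=
  full_degeneracyC_le K (dvd_mul_right (M * q) q) hx

theorem qExpand_mem_q {x : LaurentSeries K} (hx : x ∈ modularFunctionFieldFullC K (M * q)) :
    qExpand K q x ∈ modularFunctionFieldFullC K (M * q * q) :=
  full_degeneracyC_map_le K (M * q) q ⟨x, hx, rfl⟩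

/-- `κ` is the identity on functions of level `M q`. -/
theorem kap_of_mem {x : LaurentSeries K} (hx : x ∈ modularFunctionFieldFullC K (M * q))
    (h : x ∈ modularFunctionFieldFullC K (M * q * q)) : kap K hqM ⟨x, h⟩ = x := by
  let f : modularFunctionFieldFullC K (M * q) →ₐ[K] LaurentSeries K :=
    (kap K hqM).comp (IntermediateField.inclusion
      (full_degeneracyC_le K (dvd_mul_right (M * q) q)))
  have : f = (modularFunctionFieldFullC K (M * q)).val := by
    apply algHom_ext_gen K (Q := q) (M := M)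
    intro i
    have hd : i.1.1 * i.1.2 ∣ M * q := by
      rw [mul_comm M]; exact mul_dvd_mul i.2.1 i.2.2
    exact kap_jd K hqM hd _
  exact congrArg (fun f : modularFunctionFieldFullC K (M * q) →ₐ[K] LaurentSeries K => f ⟨x, hx⟩) this

/-- twist as an algebra homomorphism -/
def twistₐ (a : Kˣ) : LaurentSeries K →ₐ[K] LaurentSeries K :=
  { twist a with
    commutes' := fun c => by
      change twist a (algebraMap K (LaurentSeries K) c) = _
      rw [algebraMap_laurentSeries_eq_single, twist_single]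
      simp }

theorem div_cases {d : ℕ} (hd : d ∣ q) : d = 1 ∨ d = q := (Nat.dvd_prime hq.out).mp hd

theorem kap_qExpand {x : LaurentSeries K} (hx : x ∈ modularFunctionFieldFullC K (M * q))
    (h : qExpand K q x ∈ modularFunctionFieldFullC K (M * q * q)) :
    kap K hqM ⟨qExpand K q x, h⟩ = twist (zt K hqM) (wQ K hqM ⟨x, hx⟩ : LaurentSeries K) := by
  let f : modularFunctionFieldFullC K (M * q) →ₐ[K] LaurentSeries K :=
    (kap K hqM).comp ((((qExpandAlgHomC K q).comp (modularFunctionFieldFullC K (M * q)).val)).codRestrict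
      (modularFunctionFieldFullC K (M * q * q)).toSubalgebra
      (fun y => qExpand_mem_q K y.2))
  let g : modularFunctionFieldFullC K (M * q) →ₐ[K] LaurentSeries K :=
    ((twistₐ K (zt K hqM)).comp (modularFunctionFieldFullC K (M * q)).val).comp (wHom K hqM)
  have hfg : f = g := by
    apply algHom_ext_gen K (Q := q) (M := M)
    intro i
    obtain ⟨⟨d₁, d₂⟩, h1, h2⟩ := i
    haveI : NeZero d₂ := ⟨fun h => NeZero.ne M (Nat.eq_zero_of_zero_dvd (h ▸ h2))⟩
    haveI : NeZero d₁ := ⟨fun h => NeZero.ne q (Nat.eq_zero_of_zero_dvd (h ▸ h1))⟩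
    haveI : NeZero (d₁ * d₂) := ⟨mul_ne_zero (NeZero.ne _) (NeZero.ne _)⟩
    have hmem : jd K (d₁ * d₂) ∈ modularFunctionFieldFullC K (M * q) := gen_mem K ⟨(d₁, d₂), h1, h2⟩
    have e1 : f ⟨jd K (d₁ * d₂), hmem⟩ = kap K hqM ⟨qExpand K q (jd K (d₁ * d₂)),
      qExpand_mem_q K hmem⟩ := rfl
    have e2 : g ⟨jd K (d₁ * d₂), hmem⟩ = twist (zt K hqM)
      (wQ K hqM ⟨jd K (d₁ * d₂), hmem⟩ : LaurentSeries K) := rfl
    change f ⟨jd K (d₁ * d₂), hmem⟩ = g ⟨jd K (d₁ * d₂), hmem⟩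
    rw [e1, e2]
    have h3 : ∀ (h : qExpand K q (jd K (d₁ * d₂)) ∈ modularFunctionFieldFullC K (M * q * q)),
        (⟨qExpand K q (jd K (d₁ * d₂)), h⟩ : modularFunctionFieldFullC K (M * q * q)) =
        ⟨jd K (q * (d₁ * d₂)), by rw [← qExpand_jd]; exact h⟩ := fun h =>
      Subtype.ext (qExpand_jd K q (d₁ * d₂))
    rw [h3]
    rcases div_cases h1 with rfl | h1'
    · rw [kap_jd K hqM (by rw [one_mul, mul_comm M]; exact mul_dvd_mul_left q h2),
        coe_wQ_jd' K hqM (d₁ := 1) (d₂ := d₂) (e := q * d₂) (one_dvd q) h2 rfl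
          (by rw [Nat.div_one]), jd_congr K (show q * (1 * d₂) = q * d₂ by rw [one_mul]),
        ← qExpand_jd K q d₂, twist_qExpand _ _ (zt_pow K hqM)]
    · subst h1'
      rw [kap_jd' K hqM (d := d₂) h2 (by ring),
        coe_wQ_jd' K hqM (d₁ := d₁) (d₂ := d₂) (e := d₂) (dvd_refl d₁) h2 rfl
          (by rw [Nat.div_self hq.out.pos, one_mul])]
  exact congrArg (fun f : modularFunctionFieldFullC K (M * q) →ₐ[K] LaurentSeries K => f ⟨x, hx⟩) hfg

omit hq [NeZero M] in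
include hqM in
theorem cop2 : Nat.Coprime (q * q) M := Nat.Coprime.mul_left hqM hqM

theorem mem_assoc {x : LaurentSeries K} : x ∈ modularFunctionFieldFullC K (M * q * q) ↔
    x ∈ modularFunctionFieldFullC K (M * (q * q)) := by rw [mul_assoc]

/-- the involution `w_{q²}` as an embedding -/
def w2 : modularFunctionFieldFullC K (M * q * q) →ₐ[K] LaurentSeries K :=
  ((modularFunctionFieldFullC K (M * (q * q))).val.comp (wQ K (cop2 hqM)).toAlgHom).comp
    (IntermediateField.equivOfEq (show modularFunctionFieldFullC K (M * q * q) =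
      modularFunctionFieldFullC K (M * (q * q)) by rw [mul_assoc])).toAlgHom

theorem w2_apply {x : LaurentSeries K} (hx : x ∈ modularFunctionFieldFullC K (M * q * q))
    (hx' : x ∈ modularFunctionFieldFullC K (M * (q * q))) :
    w2 K hqM ⟨x, hx⟩ = (wQ K (cop2 hqM) ⟨x, hx'⟩ : LaurentSeries K) := rfl

theorem w2_jd {d₁ d₂ d e : ℕ} [NeZero d] [NeZero e] (h1 : d₁ ∣ q * q) (h2 : d₂ ∣ M)
    (hd : d₁ * d₂ = d) (he : q * q / d₁ * d₂ = e)
    (h : jd K d ∈ modularFunctionFieldFullC K (M * q * q)) :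
    w2 K hqM ⟨jd K d, h⟩ = jd K e := by
  rw [w2_apply K hqM h ((mem_assoc K).mp h)]
  exact coe_wQ_jd' K (cop2 hqM) h1 h2 hd he _

theorem w2_mem (x : modularFunctionFieldFullC K (M * q * q)) :
    w2 K hqM x ∈ modularFunctionFieldFullC K (M * q * q) := by
  rw [mem_assoc]
  exact (wQ K (cop2 hqM) ⟨x, (mem_assoc K).mp x.2⟩).2

theorem w2_w2 (x : modularFunctionFieldFullC K (M * q * q)) :
    w2 K hqM ⟨w2 K hqM x, w2_mem K hqM x⟩ = x := by
  rw [w2_apply K hqM _ ((mem_assoc K).mp (w2_mem K hqM x))]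
  have : (⟨w2 K hqM x, (mem_assoc K).mp (w2_mem K hqM x)⟩ :
      modularFunctionFieldFullC K (M * (q * q))) =
      wQ K (cop2 hqM) ⟨x, (mem_assoc K).mp x.2⟩ := rfl
  rw [this, wQ_wQ]

theorem w2_of_mem {x : LaurentSeries K} (hx : x ∈ modularFunctionFieldFullC K (M * q))
    (h : x ∈ modularFunctionFieldFullC K (M * q * q)) :
    w2 K hqM ⟨x, h⟩ = qExpand K q (wQ K hqM ⟨x, hx⟩ : LaurentSeries K) := by
  let f : modularFunctionFieldFullC K (M * q) →ₐ[K] LaurentSeries K :=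
    (w2 K hqM).comp (IntermediateField.inclusion
      (full_degeneracyC_le K (dvd_mul_right (M * q) q)))
  let g : modularFunctionFieldFullC K (M * q) →ₐ[K] LaurentSeries K :=
    ((qExpandAlgHomC K q).comp (modularFunctionFieldFullC K (M * q)).val).comp (wHom K hqM)
  have hfg : f = g := by
    apply algHom_ext_gen K (Q := q) (M := M)
    intro i
    obtain ⟨⟨d₁, d₂⟩, h1, h2⟩ := i
    haveI : NeZero d₂ := ⟨fun h => NeZero.ne M (Nat.eq_zero_of_zero_dvd (h ▸ h2))⟩
    haveI : NeZero d₁ := ⟨fun h => NeZero.ne q (Nat.eq_zero_of_zero_dvd (h ▸ h1))⟩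
    haveI : NeZero (d₁ * d₂) := ⟨mul_ne_zero (NeZero.ne _) (NeZero.ne _)⟩
    have hmem : jd K (d₁ * d₂) ∈ modularFunctionFieldFullC K (M * q) := gen_mem K ⟨(d₁, d₂), h1, h2⟩
    have e1 : f ⟨jd K (d₁ * d₂), hmem⟩ = w2 K hqM ⟨jd K (d₁ * d₂), mem_mul_q K hmem⟩ := rfl
    have e2 : g ⟨jd K (d₁ * d₂), hmem⟩ = qExpand K q
      (wQ K hqM ⟨jd K (d₁ * d₂), hmem⟩ : LaurentSeries K) := rfl
    change f ⟨jd K (d₁ * d₂), hmem⟩ = g ⟨jd K (d₁ * d₂), hmem⟩
    haveI : NeZero (q / d₁ * d₂) := ⟨by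
      rcases div_cases h1 with rfl | rfl
      · rw [Nat.div_one]; exact mul_ne_zero hq.out.ne_zero (NeZero.ne _)
      · rw [Nat.div_self hq.out.pos, one_mul]; exact NeZero.ne _⟩
    rw [e1, e2, coe_wQ_jd' K hqM (d₁ := d₁) (d₂ := d₂) (e := q / d₁ * d₂) h1 h2 rfl rfl,
      qExpand_jd]
    refine w2_jd K hqM (d₁ := d₁) (d₂ := d₂) (h1.trans (dvd_mul_right q q)) h2 rfl ?_ _
    rw [← mul_assoc, Nat.mul_div_assoc q h1]
  exact congrArg (fun f : modularFunctionFieldFullC K (M * q) →ₐ[K] LaurentSeries K => f ⟨x, hx⟩) hfg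

theorem w2_qExpand {x : LaurentSeries K} (hx : x ∈ modularFunctionFieldFullC K (M * q))
    (h : qExpand K q x ∈ modularFunctionFieldFullC K (M * q * q)) :
    w2 K hqM ⟨qExpand K q x, h⟩ = (wQ K hqM ⟨x, hx⟩ : LaurentSeries K) := by
  -- apply `w2_of_mem` to `w_q x`
  obtain ⟨y, hy⟩ : ∃ y, y = wQ K hqM ⟨x, hx⟩ := ⟨_, rfl⟩
  have h1 := w2_of_mem K hqM y.2 (mem_mul_q K y.2)
  have h2 : wQ K hqM ⟨(y : LaurentSeries K), y.2⟩ = ⟨x, hx⟩ := by
    have : (⟨(y : LaurentSeries K), y.2⟩ : modularFunctionFieldFullC K (M * q)) = y := rfl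
    rw [this, hy, wQ_wQ]
  rw [h2] at h1
  have h3 := w2_w2 K hqM ⟨(y : LaurentSeries K), mem_mul_q K y.2⟩
  have h4 : (⟨w2 K hqM ⟨(y : LaurentSeries K), mem_mul_q K y.2⟩, w2_mem K hqM _⟩ :
      modularFunctionFieldFullC K (M * q * q)) = ⟨qExpand K q x, h⟩ := Subtype.ext h1
  rw [h4] at h3
  rw [h3, hy]

end Kap

end Fermat.Agent.H26.RV
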