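import Mathlib
import Fermat.Agent.RV.Kappa2
import Fermat.Agent.RV.K0

/-!
# The three embeddings of `F`, the two embeddings of `E`
-/

set_option autoImplicit false
set_option linter.unusedSectionVars false

noncomputable section

namespace Fermat.Agent.H26.RV

open ModularCurve HahnSeries Fermat.Agent.Igusa Fermat.Agent.Q Fermat.Agent.H23.R
open Fermat.Agent.Q (Red VL FL)

local notation "kk" => IsLocalRing.ResidueField
local notation "Qb" => AlgebraicClosure ℚ

section Twist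

variable {K : Type*} [Field K] [CharZero K] [Algebra ℚ K] [Algebra.IsAlgebraic ℚ K]
  {A : ValuationSubring K} {q : ℕ}

theorem twist_mem_intL' {a : Kˣ} (ha : (a : K) ∈ A) (ha' : ((a⁻¹ : Kˣ) : K) ∈ A)
    {x : LaurentSeries K} (hx : x ∈ intL A) : twist a x ∈ intL A := by
  rw [mem_intL]
  intro n
  rw [twist_coeff]
  refine mul_mem (mem_intL.mp hx n) ?_
  obtain ⟨m, rfl | rfl⟩ := n.eq_nat_or_neg
  · rw [zpow_natCast, Units.val_pow_eq_pow_val]; exact pow_mem ha m
  · rw [zpow_neg, zpow_natCast, ← inv_pow, Units.val_pow_eq_pow_val]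
    exact pow_mem ha' m

theorem zeta_mem (hq : q.Prime) {a : Kˣ} (ha : a ^ q = 1) :
    (a : K) ∈ A ∧ ((a⁻¹ : Kˣ) : K) ∈ A :=
  ⟨H05.mem_of_pow_eq_one A hq.ne_zero (by rw [← Units.val_pow_eq_pow_val, ha, Units.val_one]),
    H05.mem_of_pow_eq_one A hq.ne_zero (by
      rw [← Units.val_pow_eq_pow_val, inv_pow, ha, inv_one, Units.val_one])⟩

theorem zeta_res (hq : q.Prime) (hA : A.LiesOverPrime q) {a : Kˣ} (ha : a ^ q = 1)
    (hmem : (a : K) ∈ A) : IsLocalRing.residue A ⟨a, hmem⟩ = 1 := by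
  haveI := charP_residue hq hA
  haveI : ExpChar (kk A) q := ExpChar.prime hq
  have h1 : (IsLocalRing.residue A ⟨a, hmem⟩) ^ q = 1 := by
    rw [← map_pow]
    have : (⟨(a : K), hmem⟩ : A) ^ q = 1 := Subtype.ext (by
      rw [SubmonoidClass.coe_pow]
      change (a : K) ^ q = 1
      rw [← Units.val_pow_eq_pow_val, ha, Units.val_one])
    rw [this, map_one]
  have h2 : (IsLocalRing.residue A ⟨a, hmem⟩ - 1) ^ q = 0 := by
    rw [sub_pow_expChar, h1, one_pow, sub_self]
  exact sub_eq_zero.mp (pow_eq_zero_iff hq.ne_zero |>.mp h2)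

theorem red_twist (hq : q.Prime) (hA : A.LiesOverPrime q) {a : Kˣ} (ha : a ^ q = 1)
    {z : LaurentSeries K} {u : LaurentSeries (kk A)} (h : Red A z u) : Red A (twist a z) u :=
  h.twist (zeta_mem hq ha).1 (zeta_mem hq ha).2 (zeta_res hq hA ha _)

theorem twist_twist {R : Type*} [CommRing R] (a b : Rˣ) (x : LaurentSeries R) :
    twist a (twist b x) = twist (a * b) x := by
  ext n
  rw [twist_coeff, twist_coeff, twist_coeff, mul_zpow, Units.val_mul]
  ring

theorem twist_one {R : Type*} [CommRing R] (x : LaurentSeries R) : twist (1 : Rˣ) x = x := by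
  ext n
  rw [twist_coeff, one_zpow, Units.val_one, mul_one]

theorem red_twist_iff (hq : q.Prime) (hA : A.LiesOverPrime q) {a : Kˣ} (ha : a ^ q = 1)
    {z : LaurentSeries K} {u : LaurentSeries (kk A)} : Red A (twist a z) u ↔ Red A z u := by
  refine ⟨fun h => ?_, red_twist hq hA ha⟩
  have h1 := red_twist hq hA (a := a⁻¹) (by rw [inv_pow, ha, inv_one]) h
  rwa [twist_twist, inv_mul_cancel, twist_one] at h1

theorem twist_mem_finL {a : Kˣ} {x : LaurentSeries K} (hx : x ∈ finL K) : twist a x ∈ finL K := by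
  obtain ⟨E, hE, h⟩ := hx
  haveI : FiniteDimensional ℚ (IntermediateField.adjoin ℚ {(a : K)}) :=
    IntermediateField.adjoin.finiteDimensional
      (Algebra.IsAlgebraic.isAlgebraic (R := ℚ) (a : K)).isIntegral
  refine ⟨E ⊔ IntermediateField.adjoin ℚ {(a : K)}, inferInstance, fun n => ?_⟩
  rw [twist_coeff, Units.val_zpow_eq_zpow_val]
  refine mul_mem ((le_sup_left : E ≤ _) (h n)) (zpow_mem ?_ n)
  exact (le_sup_right : _ ≤ E ⊔ IntermediateField.adjoin ℚ {(a : K)})
    (IntermediateField.mem_adjoin_simple_self ℚ (a : K))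

theorem twist_mem_bddL (hq : q.Prime) {a : Kˣ} (ha : a ^ q = 1) {x : LaurentSeries K}
    (hx : x ∈ bddL A) : twist a x ∈ bddL A := by
  obtain ⟨c, hc, hc0, hcx⟩ := hx
  have h1 := twist_mem_intL' (zeta_mem (A := A) hq ha).1 (zeta_mem (A := A) hq ha).2 hcx
  have h2 : twist a (HahnSeries.C c * x) = HahnSeries.C c * twist a x := by
    rw [map_mul, HahnSeries.C_apply, twist_single, zpow_zero, Units.val_one, mul_one]
  rw [h2] at h1
  exact ⟨c, hc, hc0, h1⟩

theorem twist_mem_FL (hq : q.Prime) {a : Kˣ} (ha : a ^ q = 1) {x : LaurentSeries K}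
    (hx : x ∈ FL A) : twist a x ∈ FL A := by
  rw [mem_FL] at hx
  obtain ⟨P, hP, Q, hQ, rfl⟩ := hx
  rw [map_div₀]
  exact div_mem (DD_le_FL ⟨twist_mem_bddL hq ha hP.1, twist_mem_finL hP.2⟩)
    (DD_le_FL ⟨twist_mem_bddL hq ha hQ.1, twist_mem_finL hQ.2⟩)

end Twist

end Fermat.Agent.H26.RV
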