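import Mathlib
import Fermat.Agent.RV.Comp

/-!
# The three embeddings of `F`, the two embeddings of `E`
-/

set_option autoImplicit false
set_option linter.unusedSectionVars false

noncomputable section

namespace Fermat.Agent.H26.RV

open ModularCurve HahnSeries Fermat.Agent.Igusa Fermat.Agent.Q Fermat.Agent.H23.R
open Fermat.Agent.Q (Red VL FL)

local notation "kk" => IsLocalRing.ResidueField
local notation "Qb" => AlgebraicClosure ℚ

section Embeddings

variable {q M : ℕ} [hq : Fact q.Prime] [NeZero M] (hqM : Nat.Coprime q M)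
  (K0 : IntermediateField ℚ Qb)

/-- the function field of level `N` over `K0` -/
abbrev LF (N : ℕ) : IntermediateField K0 (LaurentSeries K0) :=
  laurentBaseChange K0 (modularFunctionFieldFull N)

variable {K0} in
theorem cEmb_mem_full {N : ℕ} (z : LF K0 N) :
    cEmb K0 Qb (z : LaurentSeries K0) ∈ modularFunctionFieldFullC Qb N := by
  rw [← H05.laurentBaseChange_full]
  exact (embBC Qb (modularFunctionFieldFull N) z).2

/-- constant extension -/
def bar (N : ℕ) : LF K0 N →+* modularFunctionFieldFullC Qb N :=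
  ((cEmb K0 Qb).comp (LF K0 N).val.toRingHom).codRestrict
    (modularFunctionFieldFullC Qb N).toSubfield (fun z => cEmb_mem_full z)

theorem coe_bar {N : ℕ} (z : LF K0 N) :
    (bar K0 N z : LaurentSeries Qb) = cEmb K0 Qb (z : LaurentSeries K0) := rfl

/-- embedding of any level -/
def eb (N : ℕ) : LF K0 N →+* LaurentSeries Qb :=
  (modularFunctionFieldFullC Qb N).val.toRingHom.comp (bar K0 N)

theorem eb_apply {N : ℕ} (z : LF K0 N) : eb K0 N z = cEmb K0 Qb (z : LaurentSeries K0) := rfl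

/-- the three embeddings of `F`. -/
def io : Fin 3 → (LF K0 (M * q * q) →+* LaurentSeries Qb) :=
  ![eb K0 (M * q * q), (kap Qb hqM).toRingHom.comp (bar K0 (M * q * q)),
    (w2 Qb hqM).toRingHom.comp (bar K0 (M * q * q))]

/-- the two embeddings of `E`. -/
def ie : Fin 2 → (LF K0 (M * q) →+* LaurentSeries Qb) :=
  ![eb K0 (M * q), ((modularFunctionFieldFullC Qb (M * q)).val.toRingHom.comp
    (wQ Qb hqM).toAlgHom.toRingHom).comp (bar K0 (M * q))]

theorem io0 (z : LF K0 (M * q * q)) : io hqM K0 0 z = cEmb K0 Qb (z : LaurentSeries K0) := rfl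

theorem io1 (z : LF K0 (M * q * q)) : io hqM K0 1 z = kap Qb hqM (bar K0 _ z) := rfl

theorem io2 (z : LF K0 (M * q * q)) : io hqM K0 2 z = w2 Qb hqM (bar K0 _ z) := rfl

theorem ie0 (z : LF K0 (M * q)) : ie hqM K0 0 z = cEmb K0 Qb (z : LaurentSeries K0) := rfl

theorem ie1 (z : LF K0 (M * q)) : ie hqM K0 1 z = wQ Qb hqM (bar K0 _ z) := rfl

theorem cEmb_qExpand (n : ℕ) [NeZero n] (z : LaurentSeries K0) :
    cEmb K0 Qb (qExpand K0 n z) = qExpand Qb n (cEmb K0 Qb z) := coeffMap_qExpand _ _ _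


theorem bar_alpha (z : LF K0 (M * q)) :
    bar K0 _ (heckeAlphaBar K0 (M * q) q z) = ⟨(bar K0 _ z : LaurentSeries Qb),
      mem_mul_q Qb (bar K0 _ z).2⟩ := by
  apply Subtype.ext
  rw [coe_bar, coe_heckeAlphaBar]
  exact (coe_bar K0 z).symm

theorem bar_beta (z : LF K0 (M * q)) :
    bar K0 _ (heckeBetaBar K0 (M * q) q z) = ⟨qExpand Qb q (bar K0 _ z : LaurentSeries Qb),
      qExpand_mem_q Qb (bar K0 _ z).2⟩ := by
  apply Subtype.ext
  rw [coe_bar, coe_heckeBetaBar, cEmb_qExpand]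
  exact congrArg (qExpand Qb q) (coe_bar K0 z).symm

theorem io0_alpha (z : LF K0 (M * q)) :
    io hqM K0 0 (heckeAlphaBar K0 (M * q) q z) = ie hqM K0 0 z := by
  rw [io0, ie0, coe_heckeAlphaBar]

theorem io1_alpha (z : LF K0 (M * q)) :
    io hqM K0 1 (heckeAlphaBar K0 (M * q) q z) = ie hqM K0 0 z := by
  rw [io1, bar_alpha, kap_of_mem Qb hqM (bar K0 _ z).2, ie0]
  exact coe_bar K0 z

theorem coe_wq_bar (z : LF K0 (M * q)) :
    (wQ Qb hqM ⟨(bar K0 _ z : LaurentSeries Qb), (bar K0 _ z).2⟩ : LaurentSeries Qb) =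
      ie hqM K0 1 z := by
  rw [ie1]

theorem io2_alpha (z : LF K0 (M * q)) :
    io hqM K0 2 (heckeAlphaBar K0 (M * q) q z) = qExpand Qb q (ie hqM K0 1 z) := by
  rw [io2, bar_alpha, w2_of_mem Qb hqM (bar K0 _ z).2, coe_wq_bar]

theorem io0_beta (z : LF K0 (M * q)) :
    io hqM K0 0 (heckeBetaBar K0 (M * q) q z) = qExpand Qb q (ie hqM K0 0 z) := by
  rw [io0, coe_heckeBetaBar, cEmb_qExpand, ie0]

theorem io1_beta (z : LF K0 (M * q)) :
    io hqM K0 1 (heckeBetaBar K0 (M * q) q z) = twist (zt Qb hqM) (ie hqM K0 1 z) := by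
  rw [io1, bar_beta, kap_qExpand Qb hqM (bar K0 _ z).2, coe_wq_bar]

theorem io2_beta (z : LF K0 (M * q)) :
    io hqM K0 2 (heckeBetaBar K0 (M * q) q z) = ie hqM K0 1 z := by
  rw [io2, bar_beta, w2_qExpand Qb hqM (bar K0 _ z).2, coe_wq_bar]

theorem ie0_alpha (z : LF K0 M) :
    ie hqM K0 0 (heckeAlphaBar K0 M q z) = eb K0 M z := by
  rw [ie0, coe_heckeAlphaBar, eb_apply]

theorem ie0_beta (z : LF K0 M) :
    ie hqM K0 0 (heckeBetaBar K0 M q z) = qExpand Qb q (eb K0 M z) := by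
  rw [ie0, coe_heckeBetaBar, cEmb_qExpand, eb_apply]

theorem ie1_alpha (z : LF K0 M) :
    ie hqM K0 1 (heckeAlphaBar K0 M q z) = qExpand Qb q (eb K0 M z) := by
  have h1 : bar K0 (M * q) (heckeAlphaBar K0 M q z) = ⟨(bar K0 _ z : LaurentSeries Qb),
      mem_of_mem Qb _ (bar K0 _ z).2⟩ := by
    apply Subtype.ext
    rw [coe_bar, coe_heckeAlphaBar]
    exact (coe_bar K0 z).symm
  rw [ie1, h1, coe_wQ_of_mem Qb hqM _ (bar K0 _ z).2, eb_apply, coe_bar]

theorem ie1_beta (z : LF K0 M) :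
    ie hqM K0 1 (heckeBetaBar K0 M q z) = eb K0 M z := by
  have h1 : bar K0 (M * q) (heckeBetaBar K0 M q z) = ⟨qExpand Qb q (bar K0 _ z : LaurentSeries Qb),
      qExpand_mem Qb _ (bar K0 _ z).2⟩ := by
    apply Subtype.ext
    rw [coe_bar, coe_heckeBetaBar, cEmb_qExpand]
    exact congrArg (qExpand Qb q) (coe_bar K0 z).symm
  rw [ie1, h1, coe_wQ_qExpand Qb hqM _ (bar K0 _ z).2, eb_apply, coe_bar]

/-! constants -/

theorem cEmb_C (c : K0) : cEmb K0 Qb (HahnSeries.C c) = HahnSeries.C (c : Qb) :=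
  coeffMap_C _ _

theorem coe_algebraMap_LF {N : ℕ} (c : K0) :
    ((algebraMap K0 (LF K0 N) c : LF K0 N) : LaurentSeries K0) = HahnSeries.C c := by
  rw [← algebraMap_eq_C]; rfl

theorem bar_algebraMap {N : ℕ} (c : K0) : bar K0 N (algebraMap K0 (LF K0 N) c) =
    algebraMap Qb _ (c : Qb) := by
  apply Subtype.ext
  rw [coe_bar, coe_algebraMap_LF, cEmb_C, ← algebraMap_eq_C]
  rfl

theorem eb_algebraMap {N : ℕ} (c : K0) :
    eb K0 N (algebraMap K0 (LF K0 N) c) = HahnSeries.C (c : Qb) := by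
  rw [eb_apply, coe_algebraMap_LF, cEmb_C]

theorem io_algebraMap (i : Fin 3) (c : K0) :
    io hqM K0 i (algebraMap K0 (LF K0 (M * q * q)) c) = HahnSeries.C (c : Qb) := by
  fin_cases i
  · change io hqM K0 0 _ = _
    rw [io0, coe_algebraMap_LF, cEmb_C]
  · change io hqM K0 1 _ = _
    rw [io1, bar_algebraMap, AlgHom.commutes, algebraMap_eq_C]
  · change io hqM K0 2 _ = _
    rw [io2, bar_algebraMap, AlgHom.commutes, algebraMap_eq_C]

theorem ie_algebraMap (i : Fin 2) (c : K0) :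
    ie hqM K0 i (algebraMap K0 (LF K0 (M * q)) c) = HahnSeries.C (c : Qb) := by
  fin_cases i
  · change ie hqM K0 0 _ = _
    rw [ie0, coe_algebraMap_LF, cEmb_C]
  · change ie hqM K0 1 _ = _
    rw [ie1, bar_algebraMap, AlgEquiv.commutes, ← algebraMap_eq_C]
    rfl

variable {A : ValuationSubring Qb}

theorem kap_mem_FL (x : modularFunctionFieldFullC Qb (M * q * q)) : kap Qb hqM x ∈ FL A := by
  let S : IntermediateField Qb (LaurentSeries Qb) := (FL A).toIntermediateField (fun c => by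
        rw [algebraMap_eq_C]; exact C_mem_FL c)
  have hle : modularFunctionFieldFullC Qb (M * q * q) ≤
      (S.comap (kap Qb hqM)).map (modularFunctionFieldFullC Qb (M * q * q)).val := by
    conv_lhs => rw [← adjoin_range_gU]
    rw [IntermediateField.adjoin_le_iff]
    rintro _ ⟨i, rfl⟩
    have hmem : gU q M Qb i ∈ modularFunctionFieldFullC Qb (M * q * q) := by
      rw [← adjoin_range_gU]
      exact IntermediateField.subset_adjoin Qb _ ⟨i, rfl⟩
    refine ⟨⟨_, hmem⟩, ?_, rfl⟩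
    change kap Qb hqM ⟨_, hmem⟩ ∈ FL A
    rw [kap_gU]
    rcases i with i | i
    · exact DD_le_FL (jd_mem_DD _)
    · exact twist_mem_FL hq.out (zt_pow Qb hqM) (DD_le_FL (jd_mem_DD _))
  obtain ⟨y, hy, hyx⟩ := hle x.2
  have : y = x := Subtype.ext hyx
  rw [← this]
  exact hy

theorem io_mem_FL (i : Fin 3) (z : LF K0 (M * q * q)) : io hqM K0 i z ∈ FL A := by
  fin_cases i
  · exact full_le_FL _ (cEmb_mem_full z)
  · exact kap_mem_FL hqM _
  · exact full_le_FL _ (w2_mem Qb hqM _)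

theorem ie_mem_FL (i : Fin 2) (z : LF K0 (M * q)) : ie hqM K0 i z ∈ FL A := by
  fin_cases i
  · exact full_le_FL _ (cEmb_mem_full z)
  · exact full_le_FL _ (wQ Qb hqM (bar K0 _ z)).2

theorem eb_mem_FL {N : ℕ} (z : LF K0 N) : eb K0 N z ∈ FL A := full_le_FL _ (cEmb_mem_full z)

end Embeddings

end Fermat.Agent.H26.RV
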