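import Mathlib

/-!
# Primes above a maximal ideal attached to the factors of a minimal polynomial
-/

set_option autoImplicit false

noncomputable section

open Polynomial

namespace Fermat.Agent.H26.RV

variable {V S : Type*} [CommRing V] [IsDomain V] [IsIntegrallyClosed V] [CommRing S] [IsDomain S]
  [Algebra V S] [Algebra.IsIntegral V S] [FaithfulSMul V S] (m : Ideal V) [hm : m.IsMaximal]

/-- Every irreducible factor of the reduction of the minimal polynomial of `θ` gives a prime. -/
theorem exists_prime_of_factor (θ : S) (g : (V ⧸ m)[X])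
    (hg : letI := Ideal.Quotient.field m; Irreducible g)
    (hgΦ : g ∣ (minpoly V θ).map (Ideal.Quotient.mk m)) :
    ∃ P : Ideal S, P.IsMaximal ∧ P.comap (algebraMap V S) = m ∧
      ∀ G : V[X], aeval θ G ∈ P ↔ g ∣ G.map (Ideal.Quotient.mk m) := by
  letI := Ideal.Quotient.field m
  have hθ : IsIntegral V θ := Algebra.IsIntegral.isIntegral θ
  haveI : Fact (Irreducible g) := ⟨hg⟩
  let B := Algebra.adjoin V {θ}
  let e : AdjoinRoot (minpoly V θ) ≃ₐ[V] B := minpoly.equivAdjoin hθ
  let ψ0 : AdjoinRoot (minpoly V θ) →+* AdjoinRoot g :=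
    AdjoinRoot.lift ((AdjoinRoot.of g).comp (Ideal.Quotient.mk m)) (AdjoinRoot.root g) (by
      rw [← eval₂_map]
      obtain ⟨h, hh⟩ := hgΦ
      rw [hh, eval₂_mul, AdjoinRoot.eval₂_root, zero_mul])
  let ψ : B →+* AdjoinRoot g := ψ0.comp e.symm.toRingHom
  have hψ : ∀ G : V[X], ψ (aeval (⟨θ, Algebra.self_mem_adjoin_singleton V θ⟩ : B) G) =
      AdjoinRoot.mk g (G.map (Ideal.Quotient.mk m)) := by
    intro G
    have h1 : e.symm (aeval (⟨θ, Algebra.self_mem_adjoin_singleton V θ⟩ : B) G) =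
        AdjoinRoot.mk (minpoly V θ) G := by
      rw [AlgEquiv.symm_apply_eq]
      have h2 : e (AdjoinRoot.root (minpoly V θ)) =
          (⟨θ, Algebra.self_mem_adjoin_singleton V θ⟩ : B) := by
        rw [minpoly.coe_equivAdjoin]
        simp [AdjoinRoot.Minpoly.toAdjoin]
      rw [← AdjoinRoot.aeval_eq, ← h2]
      exact (aeval_algHom_apply e.toAlgHom _ G)
    change ψ0 (e.symm _) = _
    rw [h1]
    change AdjoinRoot.lift _ _ _ _ = _
    rw [AdjoinRoot.lift_mk, ← eval₂_map]
    rw [← AdjoinRoot.aeval_eq, aeval_def]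
    rfl
  have hker : (RingHom.ker ψ).IsPrime := RingHom.ker_isPrime ψ
  haveI : Algebra.IsIntegral B S := Algebra.IsIntegral.tower_top (R := V)
  obtain ⟨P, -, hP, hPψ⟩ := Ideal.exists_ideal_over_prime_of_isIntegral (RingHom.ker ψ)
    (⊥ : Ideal S) (by
      intro x hx
      rw [Ideal.mem_comap, Ideal.mem_bot] at hx
      have : x = 0 := Subtype.ext hx
      rw [this]
      exact Submodule.zero_mem _)
  have hPG : ∀ G : V[X], aeval θ G ∈ P ↔ g ∣ G.map (Ideal.Quotient.mk m) := by
    intro G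
    have h1 : aeval θ G = algebraMap B S (aeval (⟨θ, Algebra.self_mem_adjoin_singleton V θ⟩ : B) G) := by
      rw [← aeval_algebraMap_apply]
      rfl
    rw [h1, ← Ideal.mem_comap, hPψ, RingHom.mem_ker, hψ, AdjoinRoot.mk_eq_zero]
  have hcomap : P.comap (algebraMap V S) = m := by
    ext v
    have h1 := hPG (C v)
    rw [aeval_C] at h1
    rw [Ideal.mem_comap, h1, map_C]
    constructor
    · intro h
      by_contra hv
      have h2 : Ideal.Quotient.mk m v ≠ 0 := by
        rwa [Ne, Ideal.Quotient.eq_zero_iff_mem]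
      exact hg.not_isUnit (isUnit_of_dvd_unit h (isUnit_C.mpr (isUnit_iff_ne_zero.mpr h2)))
    · intro h
      rw [Ideal.Quotient.eq_zero_iff_mem.mpr h, C_0]
      exact dvd_zero _
  refine ⟨P, ?_, hcomap, hPG⟩
  haveI : (P.comap (algebraMap V S)).IsMaximal := by rw [hcomap]; exact hm
  exact Ideal.isMaximal_of_isIntegral_of_isMaximal_comap P this

end Fermat.Agent.H26.RV
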