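import Mathlib
import Fermat.Agent.RV.Emb3

/-!
# The valuation rings `V i` of `F` and `W i` of `E`
-/

set_option autoImplicit false
set_option linter.unusedSectionVars false

noncomputable section

namespace Fermat.Agent.H26.RV

open ModularCurve HahnSeries Fermat.Agent.Igusa Fermat.Agent.Q Fermat.Agent.H23.R
open Fermat.Agent.Q (Red VL FL)

local notation "kk" => IsLocalRing.ResidueField
local notation "Qb" => AlgebraicClosure ℚ

section VLiff

variable {K : Type*} [Field K] [CharZero K] [Algebra ℚ K] [Algebra.IsAlgebraic ℚ K]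
  {A : ValuationSubring K} {q : ℕ}

theorem mem_VL_iff_of_red {x : LaurentSeries K} {c : K} (hc : c ≠ 0) {u : LaurentSeries (kk A)}
    (hu : u ≠ 0) (h : Red A (HahnSeries.C c * x) u) : x ∈ VL A ↔ c⁻¹ ∈ A := by
  have hC : (HahnSeries.C c : LaurentSeries K) ≠ 0 := laurentC_ne_zero hc
  constructor
  · rintro ⟨v, hv⟩
    by_contra hcon
    have hcA : c ∈ A := (A.mem_or_inv_mem c).resolve_right hcon
    have h1 := (Red.C hcA).mul hv
    have h2 := h1.unique h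
    have h3 : A.valuation c < 1 := by
      rw [← not_le]
      intro h4
      apply hcon
      rw [← A.valuation_le_one_iff, map_inv₀]
      exact inv_le_one_of_one_le₀ h4
    rw [(redC_eq_zero_iff hcA).mpr h3, zero_mul] at h2
    exact hu h2.symm
  · intro hcA
    have h1 := (Red.C hcA).mul h
    rw [← mul_assoc, ← map_mul, inv_mul_cancel₀ hc, map_one, one_mul] at h1
    exact ⟨_, h1⟩

theorem qExpand_mem_VL_iff (hq : q.Prime) (hA : A.LiesOverPrime q) (n : ℕ) [NeZero n]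
    {x : LaurentSeries K} (hx : x ∈ FL A) : ModularCurve.qExpand K n x ∈ VL A ↔ x ∈ VL A := by
  by_cases hx0 : x = 0
  · rw [hx0, map_zero]
  obtain ⟨c, hc, u, hu, hred⟩ := Q.exists_red hq hA hx hx0
  have h1 := hred.qExpand n
  rw [map_mul, qExpand_C] at h1
  rw [mem_VL_iff_of_red hc hu hred, mem_VL_iff_of_red hc ((map_ne_zero _).mpr hu) h1]

/-- descend a reduction along `qExpand` -/
theorem red_of_red_qExpand (hq : q.Prime) (hA : A.LiesOverPrime q) (n : ℕ) [NeZero n]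
    {x : LaurentSeries K} (hx : x ∈ FL A) {v : LaurentSeries (kk A)}
    (h : Red A (ModularCurve.qExpand K n x) v) :
    ∃ u, Red A x u ∧ v = ModularCurve.qExpand (kk A) n u := by
  obtain ⟨u, hu⟩ := (qExpand_mem_VL_iff hq hA n hx).mp ⟨v, h⟩
  exact ⟨u, hu, h.unique (hu.qExpand n)⟩

end VLiff

section Def

variable {q M : ℕ} [hq : Fact q.Prime] [NeZero M] (hqM : Nat.Coprime q M)
  (K0 : IntermediateField ℚ Qb) {A : ValuationSubring Qb} (hA : A.LiesOverPrime q)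

/-- the three valuation rings of `F` -/
def V (i : Fin 3) : ValuationSubring (LF K0 (M * q * q)) :=
  gaussV hq.out hA (io hqM K0 i) (io_mem_FL hqM K0 i)

/-- the two valuation rings of `E` -/
def W (i : Fin 2) : ValuationSubring (LF K0 (M * q)) :=
  gaussV hq.out hA (ie hqM K0 i) (ie_mem_FL hqM K0 i)

variable {K0}

theorem mem_V {i : Fin 3} {z : LF K0 (M * q * q)} :
    z ∈ V hqM K0 hA i ↔ io hqM K0 i z ∈ VL A := Iff.rfl

theorem mem_W {i : Fin 2} {z : LF K0 (M * q)} :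
    z ∈ W hqM K0 hA i ↔ ie hqM K0 i z ∈ VL A := Iff.rfl

theorem mem_V_of_red {i : Fin 3} {z : LF K0 (M * q * q)} {u : LaurentSeries (kk A)}
    (h : Red A (io hqM K0 i z) u) : z ∈ V hqM K0 hA i := ⟨u, h⟩

theorem mem_W_of_red {i : Fin 2} {z : LF K0 (M * q)} {u : LaurentSeries (kk A)}
    (h : Red A (ie hqM K0 i z) u) : z ∈ W hqM K0 hA i := ⟨u, h⟩

theorem rvV_eq_zero_iff {i : Fin 3} {z : LF K0 (M * q * q)} {u : LaurentSeries (kk A)}
    (h : Red A (io hqM K0 i z) u) : rv (V hqM K0 hA i) z = 0 ↔ u = 0 :=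
  rv_eq_zero_iff_red hq.out hA h

theorem rvV_ne_zero_iff {i : Fin 3} {z : LF K0 (M * q * q)} {u : LaurentSeries (kk A)}
    (h : Red A (io hqM K0 i z) u) : rv (V hqM K0 hA i) z ≠ 0 ↔ u ≠ 0 :=
  rv_ne_zero_iff_red hq.out hA h

theorem rvV_eq_iff {i : Fin 3} {z w : LF K0 (M * q * q)} {u v : LaurentSeries (kk A)}
    (h : Red A (io hqM K0 i z) u) (h' : Red A (io hqM K0 i w) v) :
    rv (V hqM K0 hA i) z = rv (V hqM K0 hA i) w ↔ u = v :=
  rv_eq_iff_red hq.out hA h h'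

theorem rvW_eq_zero_iff {i : Fin 2} {z : LF K0 (M * q)} {u : LaurentSeries (kk A)}
    (h : Red A (ie hqM K0 i z) u) : rv (W hqM K0 hA i) z = 0 ↔ u = 0 :=
  rv_eq_zero_iff_red hq.out hA h

theorem rvW_ne_zero_iff {i : Fin 2} {z : LF K0 (M * q)} {u : LaurentSeries (kk A)}
    (h : Red A (ie hqM K0 i z) u) : rv (W hqM K0 hA i) z ≠ 0 ↔ u ≠ 0 :=
  rv_ne_zero_iff_red hq.out hA h

theorem archV (i : Fin 3) (z y : LF K0 (M * q * q)) (hy : y ∈ V hqM K0 hA i)
    (hy0 : rv (V hqM K0 hA i) y = 0) : ∃ k : ℕ, z * y ^ k ∈ V hqM K0 hA i :=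
  arch_gauss hq.out hA z y hy hy0

theorem archW (i : Fin 2) (z y : LF K0 (M * q)) (hy : y ∈ W hqM K0 hA i)
    (hy0 : rv (W hqM K0 hA i) y = 0) : ∃ k : ℕ, z * y ^ k ∈ W hqM K0 hA i :=
  arch_gauss hq.out hA z y hy hy0

/-! over -/

theorem alpha_mem_V0 (z : LF K0 (M * q)) :
    heckeAlphaBar K0 (M * q) q z ∈ V hqM K0 hA 0 ↔ z ∈ W hqM K0 hA 0 := by
  rw [mem_V, mem_W, io0_alpha]

theorem alpha_mem_V1 (z : LF K0 (M * q)) :
    heckeAlphaBar K0 (M * q) q z ∈ V hqM K0 hA 1 ↔ z ∈ W hqM K0 hA 0 := by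
  rw [mem_V, mem_W, io1_alpha]

theorem alpha_mem_V2 (z : LF K0 (M * q)) :
    heckeAlphaBar K0 (M * q) q z ∈ V hqM K0 hA 2 ↔ z ∈ W hqM K0 hA 1 := by
  rw [mem_V, mem_W, io2_alpha, qExpand_mem_VL_iff hq.out hA q (ie_mem_FL hqM K0 1 z)]

theorem beta_mem_V0 (z : LF K0 (M * q)) :
    heckeBetaBar K0 (M * q) q z ∈ V hqM K0 hA 0 ↔ z ∈ W hqM K0 hA 0 := by
  rw [mem_V, mem_W, io0_beta, qExpand_mem_VL_iff hq.out hA q (ie_mem_FL hqM K0 0 z)]

theorem beta_mem_V1 (z : LF K0 (M * q)) :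
    heckeBetaBar K0 (M * q) q z ∈ V hqM K0 hA 1 ↔ z ∈ W hqM K0 hA 1 := by
  rw [mem_V, mem_W, io1_beta, mem_VL, mem_VL]
  exact exists_congr fun u => red_twist_iff hq.out hA (zt_pow Qb hqM)

theorem beta_mem_V2 (z : LF K0 (M * q)) :
    heckeBetaBar K0 (M * q) q z ∈ V hqM K0 hA 2 ↔ z ∈ W hqM K0 hA 1 := by
  rw [mem_V, mem_W, io2_beta]

/-! constants -/

theorem const_mem_V (i : Fin 3) (c : K0) :
    algebraMap K0 (LF K0 (M * q * q)) c ∈ V hqM K0 hA i ↔ (c : Qb) ∈ A :=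
  mem_gaussV_const hq.out hA (io_algebraMap hqM K0 i c)

theorem const_mem_W (i : Fin 2) (c : K0) :
    algebraMap K0 (LF K0 (M * q)) c ∈ W hqM K0 hA i ↔ (c : Qb) ∈ A :=
  mem_gaussV_const hq.out hA (ie_algebraMap hqM K0 i c)

theorem io_natCast (i : Fin 3) (n : ℕ) : io hqM K0 i (n : LF K0 (M * q * q)) = HahnSeries.C (n : Qb) := by
  rw [map_natCast, map_natCast]

theorem ie_natCast (i : Fin 2) (n : ℕ) : ie hqM K0 i (n : LF K0 (M * q)) = HahnSeries.C (n : Qb) := by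
  rw [map_natCast, map_natCast]

theorem rv_q_V (i : Fin 3) : rv (V hqM K0 hA i) (q : LF K0 (M * q * q)) = 0 :=
  rv_gaussV_prime hq.out hA (io_natCast hqM i q)

theorem rv_q_W (i : Fin 2) : rv (W hqM K0 hA i) (q : LF K0 (M * q)) = 0 :=
  rv_gaussV_prime hq.out hA (ie_natCast hqM i q)

end Def

end Fermat.Agent.H26.RV
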