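import Mathlib
import Fermat.Agent.RV.VW

/-!
# Uniformizers
-/

set_option autoImplicit false
set_option linter.unusedSectionVars false

noncomputable section

namespace Fermat.Agent.H26.RV

open ModularCurve HahnSeries Fermat.Agent.Igusa Fermat.Agent.Q Fermat.Agent.H23.R
open Fermat.Agent.Q (Red VL FL)

local notation "kk" => IsLocalRing.ResidueField
local notation "Qb" => AlgebraicClosure ℚ

section Ext

variable {K : Type*} [Field K] {N : ℕ} {Ω : Type*} [Field Ω]

theorem ringHom_ext_full {f g : modularFunctionFieldFullC K N →+* Ω}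
    (hc : ∀ c, f (algebraMap K _ c) = g (algebraMap K _ c))
    (hj : ∀ (d : ℕ) [NeZero d] (hd : d ∣ N), f ⟨jd K d, jd_mem_full hd⟩ =
      g ⟨jd K d, jd_mem_full hd⟩) : f = g := by
  let S : Subfield (LaurentSeries K) :=
    (f.eqLocusField g).map (modularFunctionFieldFullC K N).val.toRingHom
  have hle : (modularFunctionFieldFullC K N).toSubfield ≤ S := by
    change Subfield.closure _ ≤ S
    rw [Subfield.closure_le]
    rintro y (⟨c, rfl⟩ | ⟨d, hd, hdvd, rfl⟩)
    · exact ⟨algebraMap K _ c, hc c, rfl⟩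
    · exact ⟨⟨jd K d, jd_mem_full hdvd⟩, hj d hdvd, rfl⟩
  ext x
  obtain ⟨y, hy, hyx⟩ := hle x.2
  have : y = x := Subtype.ext hyx
  rw [← this]
  exact hy

variable {L : Type*} [Field L] (σ : K →+* L)

theorem coeffMap_mem_full' {x : LaurentSeries K} (hx : x ∈ modularFunctionFieldFullC K N) :
    coeffMap σ x ∈ modularFunctionFieldFullC L N := by
  change x ∈ Subfield.closure (Set.range (algebraMap K (LaurentSeries K)) ∪
    divisorExpansionsC K N) at hx
  induction hx using Subfield.closure_induction with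
  | mem y hy =>
    rcases hy with ⟨a, rfl⟩ | ⟨d, hd, hdvd, rfl⟩
    · rw [algebraMap_eq_C, coeffMap_C, ← algebraMap_eq_C]
      exact (modularFunctionFieldFullC L N).algebraMap_mem _
    · rw [show qExpand K d (jqModC K) = jd K d from rfl, coeffMap_jd]
      exact jd_mem_full hdvd
  | one => rw [map_one]; exact one_mem _
  | add x y _ _ hx hy =>
    rw [map_add]
    exact add_mem hx hy
  | neg x _ hx => rw [map_neg]; exact neg_mem hx
  | inv x _ hx => rw [map_inv₀]; exact inv_mem hx
  | mul x y _ _ hx hy =>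
    rw [map_mul]
    exact mul_mem hx hy

/-- the map on modular function fields induced by a field embedding. -/
def fullMap (N : ℕ) : modularFunctionFieldFullC K N →+* modularFunctionFieldFullC L N :=
  ((coeffMap σ).comp (modularFunctionFieldFullC K N).val.toRingHom).codRestrict
    (modularFunctionFieldFullC L N).toSubfield (fun z => coeffMap_mem_full' σ z.2)

theorem coe_fullMap (x : modularFunctionFieldFullC K N) :
    (fullMap σ N x : LaurentSeries L) = coeffMap σ (x : LaurentSeries K) := rfl

theorem fullMap_algebraMap (c : K) : fullMap σ N (algebraMap K _ c) = algebraMap L _ (σ c) := by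
  apply Subtype.ext
  rw [coe_fullMap]
  change coeffMap σ (algebraMap K (LaurentSeries K) c) = algebraMap L (LaurentSeries L) (σ c)
  rw [algebraMap_eq_C, coeffMap_C, algebraMap_eq_C]

theorem fullMap_jd {d : ℕ} [NeZero d] (hd : d ∣ N) :
    fullMap σ N ⟨jd K d, jd_mem_full hd⟩ = ⟨jd L d, jd_mem_full hd⟩ := by
  apply Subtype.ext
  rw [coe_fullMap]
  exact coeffMap_jd σ d

variable [Algebra ℚ K] [Algebra.IsAlgebraic ℚ K] [Algebra ℚ L] [Algebra.IsAlgebraic ℚ L]
  {Q M : ℕ} [NeZero Q] [NeZero M]

theorem coeffMap_wQ_gen (hQM : Nat.Coprime Q M) (x : modularFunctionFieldFullC K (M * Q)) :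
    fullMap σ _ (wQ K hQM x) = wQ L hQM (fullMap σ _ x) := by
  have : (fullMap σ _).comp (wQ K hQM).toAlgHom.toRingHom =
      (wQ L hQM).toAlgHom.toRingHom.comp (fullMap σ _) := by
    apply ringHom_ext_full
    · intro c
      change fullMap σ _ (wQ K hQM (algebraMap K _ c)) = wQ L hQM (fullMap σ _ (algebraMap K _ c))
      rw [AlgEquiv.commutes, fullMap_algebraMap, AlgEquiv.commutes]
    · intro d _ hd
      change fullMap σ _ (wQ K hQM ⟨jd K d, jd_mem_full hd⟩) =
        wQ L hQM (fullMap σ _ ⟨jd K d, jd_mem_full hd⟩)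
      rw [fullMap_jd σ hd]
      have hd' := hd
      rw [mul_comm M Q, Nat.dvd_mul] at hd'
      obtain ⟨y, z, hy, hz, rfl⟩ := hd'
      haveI : NeZero (Q / y * z) := ⟨mul_ne_zero (by
        intro h
        have h2 := Nat.div_mul_cancel hy
        rw [h, zero_mul] at h2
        exact NeZero.ne Q h2.symm) (by
        intro h
        rw [h] at hz
        exact NeZero.ne M (Nat.eq_zero_of_zero_dvd hz))⟩
      apply Subtype.ext
      rw [coe_fullMap, coe_wQ_jd' K hQM hy hz rfl rfl, coeffMap_jd,
        coe_wQ_jd' L hQM hy hz rfl rfl]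
  exact congrArg (fun f : modularFunctionFieldFullC K (M * Q) →+* _ => f x) this

end Ext

end Fermat.Agent.H26.RV
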