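import Mathlib
import Fermat.Agent.RV.Unif

/-!
# Uniformizers
-/

set_option autoImplicit false
set_option linter.unusedSectionVars false

noncomputable section

namespace Fermat.Agent.H26.RV

open ModularCurve HahnSeries Fermat.Agent.Igusa Fermat.Agent.Q Fermat.Agent.H23.R
open Fermat.Agent.Q (Red VL FL)

local notation "kk" => IsLocalRing.ResidueField
local notation "Qb" => AlgebraicClosure ℚ

instance instAlgQ (K0 : IntermediateField ℚ Qb) : Algebra.IsAlgebraic ℚ K0 := by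
  constructor
  intro x
  obtain ⟨p, hp, hpx⟩ := Algebra.IsAlgebraic.isAlgebraic (R := ℚ) (x : Qb)
  refine ⟨p, hp, ?_⟩
  apply Subtype.ext
  have h := Polynomial.hom_eval₂ p (algebraMap ℚ K0) (algebraMap K0 Qb) x
  change algebraMap K0 Qb _ = 0
  rw [Polynomial.aeval_def, h]
  rw [Polynomial.aeval_def] at hpx
  have : (algebraMap K0 Qb).comp (algebraMap ℚ K0) = algebraMap ℚ Qb := Subsingleton.elim _ _
  rw [this]
  exact hpx

section Unif

variable {q : ℕ} {A : ValuationSubring Qb}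

theorem exists_zpow_red (hq : q.Prime) (hA : A.LiesOverPrime q) {N : ℕ}
    {z : LaurentSeries (K0 A)} (hz : z ∈ modularFunctionFieldFullC (K0 A) N) (hz0 : z ≠ 0) :
    ∃ n : ℤ, ∃ u, u ≠ 0 ∧ Red A (HahnSeries.C ((q : Qb) ^ n) * cEmb (K0 A) Qb z) u := by
  obtain ⟨c, hc, u, hu, hred⟩ := Q.exists_red hq (liesOver_A0 (K0 := K0 A) hA)
    (full_le_FL (A := A0 A (K0 A)) N hz) hz0
  obtain ⟨n, hn⟩ := exists_K0_zpow hq hA hc
  have h1 := red_emb A (K0 A) hred
  rw [map_mul, cEmb_C] at h1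
  have hu' : coeffMap (resMap A (K0 A)) u ≠ 0 := (map_ne_zero _).mpr hu
  have hq0 : (q : Qb) ≠ 0 := by exact_mod_cast hq.ne_zero
  have hc0 : (c : Qb) ≠ 0 := fun h => hc (Subtype.ext h)
  have hv : A.valuation ((q : Qb) ^ n / c) = 1 := by
    rw [map_div₀, map_zpow₀, hn]
    exact div_self (zpow_ne_zero _ ((map_ne_zero _).mpr hq0))
  have hvA : (q : Qb) ^ n / c ∈ A := by
    rw [← A.valuation_le_one_iff, hv]
  have h2 := (Red.C hvA).mul h1
  have h3 : HahnSeries.C ((q : Qb) ^ n / c) * (HahnSeries.C (c : Qb) * cEmb (K0 A) Qb z) =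
      HahnSeries.C ((q : Qb) ^ n) * cEmb (K0 A) Qb z := by
    rw [← mul_assoc, ← map_mul, div_mul_cancel₀ _ hc0]
  rw [h3] at h2
  refine ⟨n, _, mul_ne_zero ?_ hu', h2⟩
  rw [ne_eq, redC_eq_zero_iff, hv]
  exact lt_irrefl _

theorem mem_full_of_LF {K0 : IntermediateField ℚ Qb} {N : ℕ} (z : LF K0 N) :
    (z : LaurentSeries K0) ∈ modularFunctionFieldFullC K0 N := by
  rw [← H05.laurentBaseChange_full]
  exact z.2

/-- criterion for `q` to be a uniformizer of a Gauss valuation. -/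
theorem isUnif_gaussV (hq : q.Prime) (hA : A.LiesOverPrime q) {F : Type*} [Field F]
    {ι : F →+* LaurentSeries Qb} {hι : ∀ z, ι z ∈ FL A}
    (h : ∀ z : F, z ≠ 0 → ∃ n : ℤ, ∃ u, u ≠ 0 ∧ Red A (HahnSeries.C ((q : Qb) ^ n) * ι z) u) :
    IsUnif (gaussV hq hA ι hι) (q : F) := by
  have hnat : ι (q : F) = HahnSeries.C (q : Qb) := by rw [map_natCast, map_natCast]
  have hq0 : (q : F) ≠ 0 := by
    intro h0
    rw [h0, map_zero] at hnat
    have : (q : Qb) ≠ 0 := by exact_mod_cast hq.ne_zero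
    exact laurentC_ne_zero this hnat.symm
  refine ⟨hq0, natCast_mem _ q, rv_gaussV_prime hq hA hnat, fun z hz => ?_⟩
  obtain ⟨n, u, hu, hred⟩ := h z hz
  refine ⟨n, (rv_ne_zero_iff_red hq hA (u := u) ?_).mpr hu⟩
  rw [map_mul, map_zpow₀, hnat, ← map_zpow₀, mul_comm]
  exact hred

variable {M : ℕ} [hqp : Fact q.Prime] [NeZero M] (hqM : Nat.Coprime q M) (hA : A.LiesOverPrime q)

theorem isUnif_W (i : Fin 2) : IsUnif (W hqM (K0 A) hA i) (q : LF (K0 A) (M * q)) := by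
  refine isUnif_gaussV hqp.out hA fun z hz => ?_
  have hz0 : (z : LaurentSeries (K0 A)) ≠ 0 := fun h => hz (Subtype.ext h)
  fin_cases i
  · exact exists_zpow_red hqp.out hA (mem_full_of_LF z) hz0
  · -- the Atkin-Lehner conjugate
    obtain ⟨y, hy⟩ : ∃ y : modularFunctionFieldFullC (K0 A) (M * q), y =
      wQ (K0 A) hqM ⟨(z : LaurentSeries (K0 A)), mem_full_of_LF z⟩ := ⟨_, rfl⟩
    have hy0 : (y : LaurentSeries (K0 A)) ≠ 0 := by
      intro h
      have h1 : y = 0 := Subtype.ext h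
      rw [hy, map_eq_zero_iff _ (wQ (K0 A) hqM).injective] at h1
      exact hz0 (congrArg Subtype.val h1)
    obtain ⟨n, u, hu, hred⟩ := exists_zpow_red hqp.out hA y.2 hy0
    refine ⟨n, u, hu, ?_⟩
    have h2 : cEmb (K0 A) Qb (y : LaurentSeries (K0 A)) = ie hqM (K0 A) 1 z := by
      rw [hy, ie1]
      exact congrArg Subtype.val (coeffMap_wQ_gen (algebraMap (K0 A) Qb) hqM
        ⟨(z : LaurentSeries (K0 A)), mem_full_of_LF z⟩)
    rw [h2] at hred
    exact hred

theorem isUnif_V0 : IsUnif (V hqM (K0 A) hA 0) (q : LF (K0 A) (M * q * q)) := by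
  refine isUnif_gaussV hqp.out hA fun z hz => ?_
  have hz0 : (z : LaurentSeries (K0 A)) ≠ 0 := fun h => hz (Subtype.ext h)
  exact exists_zpow_red hqp.out hA (mem_full_of_LF z) hz0

end Unif

end Fermat.Agent.H26.RV
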