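import Mathlib
import Fermat.Agent.RV.Unif2
import Fermat.Agent.RV.ChartV
import Fermat.Agent.Igusa.RTC
import Fermat.Agent.H23.R.FromFund

/-!
# Degree of `F` over `K0(j)`, reductions of `j`, `j'`, `j''`
-/

set_option autoImplicit false
set_option linter.unusedSectionVars false

noncomputable section

open scoped IntermediateField

namespace Fermat.Agent.H26.RV

open ModularCurve HahnSeries Fermat.Agent.Igusa Fermat.Agent.Q Fermat.Agent.H23.R
open Fermat.Agent.Q (Red VL FL)

local notation "kk" => IsLocalRing.ResidueField
local notation "Qb" => AlgebraicClosure ℚ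

section Deg

variable {K : IntermediateField ℚ Qb} {N : ℕ} [NeZero N] {x : LF K N}

theorem rank_adjoin_j (hx : (x : LaurentSeries K) = jqModC K) :
    Module.rank (IntermediateField.adjoin K {x}) (LF K N) = (dedekindPsi N : Cardinal) := by
  have h1 : (IntermediateField.adjoin K {x}).map (LF K N).val = modularFunctionFieldFullC K 1 := by
    rw [IntermediateField.adjoin_map, Set.image_singleton, full_one_eq]
    exact congrArg (fun y => IntermediateField.adjoin K {y}) hx
  have h2 : (⊤ : IntermediateField K (LF K N)).map (LF K N).val =
      modularFunctionFieldFullC K N := by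
    rw [← AlgHom.fieldRange_eq_map, IntermediateField.fieldRange_val]
    exact H05.laurentBaseChange_full K N
  rw [← IntermediateField.relrank_top_right, ← IntermediateField.relrank_map_map _ _ (LF K N).val,
    h1, h2]
  exact relrank_full (k := K) N (by exact_mod_cast NeZero.ne N)

theorem finrank_adjoin_j (hx : (x : LaurentSeries K) = jqModC K) :
    Module.finrank (IntermediateField.adjoin K {x}) (LF K N) = dedekindPsi N := by
  rw [Module.finrank, rank_adjoin_j hx]
  exact Cardinal.toNat_natCast _

theorem finite_adjoin_j (hx : (x : LaurentSeries K) = jqModC K) :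
    FiniteDimensional (IntermediateField.adjoin K {x}) (LF K N) := by
  apply FiniteDimensional.of_finrank_pos
  rw [finrank_adjoin_j hx]
  exact dedekindPsi_pos (NeZero.ne N)

theorem adjoin_inv {E F : Type*} [Field E] [Field F] [Algebra E F] (x : F) :
    IntermediateField.adjoin E {x⁻¹} = IntermediateField.adjoin E {x} := by
  apply le_antisymm
  · rw [IntermediateField.adjoin_simple_le_iff]
    exact inv_mem (IntermediateField.mem_adjoin_simple_self E x)
  · rw [IntermediateField.adjoin_simple_le_iff]
    have := inv_mem (IntermediateField.mem_adjoin_simple_self E x⁻¹)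
    rwa [inv_inv] at this

theorem finite_adjoin_j_inv (hx : (x : LaurentSeries K) = jqModC K) :
    FiniteDimensional (IntermediateField.adjoin K {x⁻¹}) (LF K N) := by
  rw [adjoin_inv]
  exact finite_adjoin_j hx

theorem tr_j (hx : (x : LaurentSeries K) = jqModC K) : Transcendental K x := by
  rw [← transcendental_algebraMap_iff (A := LaurentSeries K) (algebraMap (LF K N) _).injective]
  change Transcendental K (x : LaurentSeries K)
  rw [hx]
  exact H05.transcendental_j K

theorem tr_j_inv (hx : (x : LaurentSeries K) = jqModC K) : Transcendental K x⁻¹ := by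
  intro h
  exact tr_j hx (IsAlgebraic.inv_iff.mp h)

end Deg

end Fermat.Agent.H26.RV
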