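import Mathlib
import Fermat.Agent.RV.FundF1

/-!
# Reductions of `j`, `j'`, `j''`, the separators
-/

set_option autoImplicit false
set_option linter.unusedSectionVars false

noncomputable section

open scoped IntermediateField

namespace Fermat.Agent.H26.RV

open ModularCurve HahnSeries Fermat.Agent.Igusa Fermat.Agent.Q Fermat.Agent.H23.R
open Fermat.Agent.Q (Red VL FL)

local notation "kk" => IsLocalRing.ResidueField
local notation "Qb" => AlgebraicClosure ℚ

section RedJ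

variable {q M : ℕ} [hq : Fact q.Prime] [NeZero M] (hqM : Nat.Coprime q M)
  (K0 : IntermediateField ℚ Qb) {A : ValuationSubring Qb} (hA : A.LiesOverPrime q)

/-- `j(t^d)` as an element. -/
def jF {N : ℕ} (d : ℕ) [NeZero d] (hd : d ∣ N) : LF K0 N :=
  ⟨jd K0 d, by
    change jd K0 d ∈ laurentBaseChange K0 (modularFunctionFieldFull N)
    rw [H05.laurentBaseChange_full]; exact jd_mem_full hd⟩

variable {K0}

theorem coe_jF {N : ℕ} (d : ℕ) [NeZero d] (hd : d ∣ N) :
    ((jF K0 d hd : LF K0 N) : LaurentSeries K0) = jd K0 d := rfl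

theorem bar_jF {N : ℕ} (d : ℕ) [NeZero d] (hd : d ∣ N) :
    bar K0 N (jF K0 d hd) = ⟨jd Qb d, jd_mem_full hd⟩ := by
  apply Subtype.ext
  rw [coe_bar]
  exact coeffMap_jd _ _

theorem one_dvd3 : 1 ∣ M * q * q := one_dvd _
theorem q_dvd3 : q ∣ M * q * q := dvd_mul_left q _
theorem qq_dvd3 : q * q ∣ M * q * q := by rw [mul_assoc]; exact dvd_mul_left _ _

/-! the values -/

theorem io0_jF (d : ℕ) [NeZero d] (hd : d ∣ M * q * q) : io hqM K0 0 (jF K0 d hd) = jd Qb d := by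
  rw [io0]; exact coeffMap_jd _ _

theorem io1_x0 : io hqM K0 1 (jF K0 1 one_dvd3) = jd Qb 1 := by
  rw [io1, bar_jF, kap_jd Qb hqM (one_dvd _)]

theorem io1_x1 : io hqM K0 1 (jF K0 q q_dvd3) = jd Qb q := by
  rw [io1, bar_jF, kap_jd Qb hqM (dvd_mul_left q M)]

theorem io1_x2 : io hqM K0 1 (jF K0 (q * q) qq_dvd3) = twist (zt Qb hqM) (jd Qb 1) := by
  rw [io1, bar_jF, kap_jd' Qb hqM (d := 1) (one_dvd M) (mul_one _)]

theorem io2_x0 : io hqM K0 2 (jF K0 1 one_dvd3) = jd Qb (q * q) := by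
  rw [io2, bar_jF, w2_jd Qb hqM (d₁ := 1) (d₂ := 1) (e := q * q) (one_dvd _) (one_dvd _)
    (mul_one 1) (by rw [Nat.div_one, mul_one])]

theorem io2_x1 : io hqM K0 2 (jF K0 q q_dvd3) = jd Qb q := by
  rw [io2, bar_jF, w2_jd Qb hqM (d₁ := q) (d₂ := 1) (e := q) (dvd_mul_right _ _) (one_dvd _)
    (mul_one q) (by rw [Nat.mul_div_cancel_left _ hq.out.pos, mul_one])]

theorem io2_x2 : io hqM K0 2 (jF K0 (q * q) qq_dvd3) = jd Qb 1 := by
  rw [io2, bar_jF, w2_jd Qb hqM (d₁ := q * q) (d₂ := 1) (e := 1) (dvd_refl _) (one_dvd _)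
    (mul_one _) (by rw [Nat.div_self (Nat.mul_pos hq.out.pos hq.out.pos), mul_one])]

/-! the reductions -/

theorem red0_jF (d : ℕ) [NeZero d] (hd : d ∣ M * q * q) :
    Red A (io hqM K0 0 (jF K0 d hd)) (jd (kk A) d) := by
  rw [io0_jF]; exact red_jd d

theorem red1_x0 : Red A (io hqM K0 1 (jF K0 1 one_dvd3)) (jd (kk A) 1) := by
  rw [io1_x0]; exact red_jd 1

theorem red1_x1 : Red A (io hqM K0 1 (jF K0 q q_dvd3)) (jd (kk A) q) := by
  rw [io1_x1]; exact red_jd q

include hA in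
theorem red1_x2 : Red A (io hqM K0 1 (jF K0 (q * q) qq_dvd3)) (jd (kk A) 1) := by
  rw [io1_x2]; exact red_twist hq.out hA (zt_pow Qb hqM) (red_jd 1)

theorem red2_x0 : Red A (io hqM K0 2 (jF K0 1 one_dvd3)) (jd (kk A) (q * q)) := by
  rw [io2_x0]; exact red_jd _

theorem red2_x1 : Red A (io hqM K0 2 (jF K0 q q_dvd3)) (jd (kk A) q) := by
  rw [io2_x1]; exact red_jd q

theorem red2_x2 : Red A (io hqM K0 2 (jF K0 (q * q) qq_dvd3)) (jd (kk A) 1) := by
  rw [io2_x2]; exact red_jd 1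

variable (A q) in
/-- `ξ = j - j^{q²}` -/
def xi : LaurentSeries (kk A) := jd (kk A) 1 - jd (kk A) (q * q)

theorem xi_ne : xi q A ≠ 0 := by
  intro h
  have h1 := jd_injective (sub_eq_zero.mp h)
  have h2 := hq.out.one_lt
  nlinarith

include hA in
theorem jq_pow : jd (kk A) q ^ q = jd (kk A) (q * q) := by
  haveI := charP_residue hq.out hA
  rw [jd_pow_char q q, qExpand_jd]

variable (K0) (q) (M) in
/-- `π = j - j''` -/
def piF : LF K0 (M * q * q) := jF K0 1 one_dvd3 - jF K0 (q * q) qq_dvd3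

variable (K0) (q) (M) in
/-- `c = j'' - j'^q` -/
def cF : LF K0 (M * q * q) := jF K0 (q * q) qq_dvd3 - jF K0 q q_dvd3 ^ q

variable (K0) (q) (M) in
/-- `c~ = j - j'^q` -/
def dF : LF K0 (M * q * q) := jF K0 1 one_dvd3 - jF K0 q q_dvd3 ^ q

theorem red0_pi : Red A (io hqM K0 0 (piF q M K0)) (xi q A) := by
  rw [piF, map_sub]
  exact (red0_jF hqM 1 _).sub (red0_jF hqM (q * q) _)

include hA in
theorem red1_pi : Red A (io hqM K0 1 (piF q M K0)) 0 := by
  rw [piF, map_sub]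
  have := (red1_x0 (A := A) (K0 := K0) hqM).sub (red1_x2 (K0 := K0) hqM hA)
  rwa [sub_self] at this

theorem red2_pi : Red A (io hqM K0 2 (piF q M K0)) (-xi q A) := by
  rw [piF, map_sub, xi, neg_sub]
  exact (red2_x0 (A := A) (K0 := K0) hqM).sub (red2_x2 (K0 := K0) hqM)

include hA in
theorem red0_c : Red A (io hqM K0 0 (cF q M K0)) 0 := by
  rw [cF, map_sub, map_pow]
  have := (red0_jF (A := A) (K0 := K0) hqM (q * q) qq_dvd3).sub ((red0_jF (K0 := K0) hqM q q_dvd3).pow q)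
  rwa [jq_pow hA, sub_self] at this

include hA in
theorem red1_c : Red A (io hqM K0 1 (cF q M K0)) (xi q A) := by
  rw [cF, map_sub, map_pow]
  have := (red1_x2 (K0 := K0) hqM hA).sub ((red1_x1 (K0 := K0) hqM).pow q)
  rwa [jq_pow hA] at this

include hA in
theorem red2_c : Red A (io hqM K0 2 (cF q M K0)) (xi q A) := by
  rw [cF, map_sub, map_pow]
  have := (red2_x2 (A := A) (K0 := K0) hqM).sub ((red2_x1 (K0 := K0) hqM).pow q)
  rwa [jq_pow hA] at this

include hA in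
theorem red0_d : Red A (io hqM K0 0 (dF q M K0)) (xi q A) := by
  rw [dF, map_sub, map_pow]
  have := (red0_jF (A := A) (K0 := K0) hqM 1 one_dvd3).sub ((red0_jF (K0 := K0) hqM q q_dvd3).pow q)
  rwa [jq_pow hA] at this

include hA in
theorem red1_d : Red A (io hqM K0 1 (dF q M K0)) (xi q A) := by
  rw [dF, map_sub, map_pow]
  have := (red1_x0 (A := A) (K0 := K0) hqM).sub ((red1_x1 (K0 := K0) hqM).pow q)
  rwa [jq_pow hA] at this

include hA in
theorem red2_d : Red A (io hqM K0 2 (dF q M K0)) 0 := by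
  rw [dF, map_sub, map_pow]
  have := (red2_x0 (A := A) (K0 := K0) hqM).sub ((red2_x1 (K0 := K0) hqM).pow q)
  rwa [jq_pow hA, sub_self] at this

variable (K0) (q) (M) in
/-- the separators -/
def sF : Fin 3 → LF K0 (M * q * q) :=
  ![piF q M K0 * dF q M K0, cF q M K0 * dF q M K0, piF q M K0 * cF q M K0]

include hA in
theorem red_sF (i l : Fin 3) : ∃ u, Red A (io hqM K0 l (sF q M K0 i)) u ∧ (u ≠ 0 ↔ i = l) := by
  have hxi := xi_ne (q := q) (A := A)
  have h0p := red0_pi (A := A) (K0 := K0) hqM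
  have h1p := red1_pi (K0 := K0) hqM hA
  have h2p := red2_pi (A := A) (K0 := K0) hqM
  have h0c := red0_c (K0 := K0) hqM hA
  have h1c := red1_c (K0 := K0) hqM hA
  have h2c := red2_c (K0 := K0) hqM hA
  have h0d := red0_d (K0 := K0) hqM hA
  have h1d := red1_d (K0 := K0) hqM hA
  have h2d := red2_d (K0 := K0) hqM hA
  fin_cases i <;> fin_cases l
  · exact ⟨_, by simpa [sF] using h0p.mul h0d, by simp [hxi]⟩
  · exact ⟨_, by simpa [sF] using h1p.mul h1d, by simp⟩
  · exact ⟨_, by simpa [sF] using h2p.mul h2d, by simp⟩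
  · exact ⟨_, by simpa [sF] using h0c.mul h0d, by simp⟩
  · exact ⟨_, by simpa [sF] using h1c.mul h1d, by simp [hxi]⟩
  · exact ⟨_, by simpa [sF] using h2c.mul h2d, by simp⟩
  · exact ⟨_, by simpa [sF] using h0p.mul h0c, by simp⟩
  · exact ⟨_, by simpa [sF] using h1p.mul h1c, by simp⟩
  · exact ⟨_, by simpa [sF] using h2p.mul h2c, by simp [hxi]⟩

/-! the ramification at `1` -/

theorem theta_j_ne (k : Type*) [Field k] : theta (jqModC k) ≠ 0 := by
  intro h
  have h1 := congrArg (fun z : LaurentSeries k => z.coeff (-1)) h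
  simp only [theta_coeff, coeff_jqModC_neg_one, HahnSeries.coeff_zero] at h1
  norm_num at h1

include hA in
theorem red1_piq : Red A (io hqM K0 1 (piF q M K0 ^ (q - 1) * (q : LF K0 (M * q * q))⁻¹))
    (-(theta (jqModC (kk A))) ^ (q - 1)) := by
  haveI := charP_residue hq.out hA
  have hq0 : ((q : ℕ) : Qb) ≠ 0 := by exact_mod_cast hq.out.ne_zero
  have h := Igusa.red_twist_j (A := A) (l := q) hq0 (zt_prim Qb hqM)
  have h1 : io hqM K0 1 (piF q M K0 ^ (q - 1) * (q : LF K0 (M * q * q))⁻¹) =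
      HahnSeries.C (q : Qb)⁻¹ * (jqModC Qb - twist (zt Qb hqM) (jqModC Qb)) ^ (q - 1) := by
    rw [map_mul, map_pow, map_inv₀, piF, map_sub, io1_x0, io1_x2, jd_one, map_natCast, mul_comm,
      map_inv₀, map_natCast]
  rw [h1]
  exact h

theorem red1_piq_ne : -(theta (jqModC (kk A))) ^ (q - 1) ≠ 0 :=
  neg_ne_zero.mpr (pow_ne_zero _ (theta_j_ne _))

end RedJ

end Fermat.Agent.H26.RV
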