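import Mathlib
import Fermat.Agent.RV.FundF2

/-!
# The embeddings on `K0(j)`, lifts of functions of level `M`
-/

set_option autoImplicit false
set_option linter.unusedSectionVars false

noncomputable section

open scoped IntermediateField

namespace Fermat.Agent.H26.RV

open ModularCurve HahnSeries Fermat.Agent.Igusa Fermat.Agent.Q Fermat.Agent.H23.R
open Fermat.Agent.Q (Red VL FL)

local notation "kk" => IsLocalRing.ResidueField
local notation "Qb" => AlgebraicClosure ℚ

/-- shortcut -/
local instance (priority := high) instAlgLF (K0 : IntermediateField ℚ Qb) (N : ℕ) :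
    Algebra K0 (LF K0 N) := inferInstance

/-- shortcut -/
local instance (priority := high) instSMulLF (K0 : IntermediateField ℚ Qb) (N : ℕ) :
    SMul K0 (LF K0 N) := (instAlgLF K0 N).toSMul

theorem eqOn_adjoin {E F Ω : Type*} [Field E] [Field F] [Field Ω] [Algebra E F] {f g : F →+* Ω}
    {x : F} (hE : ∀ e, f (algebraMap E F e) = g (algebraMap E F e)) (hx : f x = g x) {c : F}
    (hc : c ∈ IntermediateField.adjoin E {x}) : f c = g c := by
  have hle : IntermediateField.adjoin E {x} ≤ (f.eqLocusField g).toIntermediateField hE := by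
    rw [IntermediateField.adjoin_simple_le_iff]
    exact hx
  exact hle hc

section Base

variable {q M : ℕ} [hq : Fact q.Prime] [NeZero M] (hqM : Nat.Coprime q M)
  {K0 : IntermediateField ℚ Qb} {A : ValuationSubring Qb} (hA : A.LiesOverPrime q)

local notation "x₀" => (jF K0 1 one_dvd3 : LF K0 (M * q * q))

theorem io1_base {c : LF K0 (M * q * q)} (hc : c ∈ IntermediateField.adjoin K0 {x₀}) :
    io hqM K0 1 c = io hqM K0 0 c := by
  refine eqOn_adjoin (fun e => ?_) ?_ hc
  · rw [io_algebraMap, io_algebraMap]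
  · rw [io1_x0, io0_jF]

theorem io2_base {c : LF K0 (M * q * q)} (hc : c ∈ IntermediateField.adjoin K0 {x₀}) :
    io hqM K0 2 c = qExpand Qb (q * q) (io hqM K0 0 c) := by
  refine eqOn_adjoin (g := (qExpand Qb (q * q)).comp (io hqM K0 0)) (fun e => ?_) ?_ hc
  · rw [RingHom.comp_apply, io_algebraMap, io_algebraMap, qExpand_C]
  · rw [RingHom.comp_apply, io2_x0, io0_jF, qExpand_jd]
    exact jd_congr Qb (mul_one _).symm

theorem mem_one_of_base {c : LF K0 (M * q * q)} (hc : c ∈ IntermediateField.adjoin K0 {x₀}) :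
    io hqM K0 0 c ∈ modularFunctionFieldFullC Qb 1 := by
  have h1 : (c : LaurentSeries K0) ∈ modularFunctionFieldFullC K0 1 := by
    have h2 : (IntermediateField.adjoin K0 {x₀}).map (LF K0 (M * q * q)).val =
        modularFunctionFieldFullC K0 1 := by
      rw [IntermediateField.adjoin_map, Set.image_singleton, full_one_eq]
      exact congrArg (fun y => IntermediateField.adjoin K0 {y}) (jd_one (R := K0))
    rw [← h2]
    exact ⟨c, hc, rfl⟩
  rw [io0]
  exact coeffMap_mem_full' _ h1

/-- reductions of elements of `K0(j)` -/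
theorem red_mem_one_of_base {c : LF K0 (M * q * q)}
    (hc : c ∈ IntermediateField.adjoin K0 {x₀}) {u : LaurentSeries (kk A)}
    (hu : Red A (io hqM K0 0 c) u) : u ∈ modularFunctionFieldFullC (kk A) 1 :=
  red_mem_one (mem_one_of_base hqM hc) hu

theorem mem_V1_base {c : LF K0 (M * q * q)} (hc : c ∈ IntermediateField.adjoin K0 {x₀}) :
    c ∈ V hqM K0 hA 1 ↔ c ∈ V hqM K0 hA 0 := by
  rw [mem_V, mem_V, io1_base hqM hc]

theorem mem_V2_base {c : LF K0 (M * q * q)} (hc : c ∈ IntermediateField.adjoin K0 {x₀}) :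
    c ∈ V hqM K0 hA 2 ↔ c ∈ V hqM K0 hA 0 := by
  rw [mem_V, mem_V, io2_base hqM hc, qExpand_mem_VL_iff hq.out hA (q * q) (io_mem_FL hqM K0 0 c)]

theorem mem_V_base (i : Fin 3) {c : LF K0 (M * q * q)}
    (hc : c ∈ IntermediateField.adjoin K0 {x₀}) :
    c ∈ V hqM K0 hA i ↔ c ∈ V hqM K0 hA 0 := by
  fin_cases i
  · exact Iff.rfl
  · exact mem_V1_base hqM hA hc
  · exact mem_V2_base hqM hA hc

end Base

section Lift

variable {q M : ℕ} [hq : Fact q.Prime] [NeZero M] (hqM : Nat.Coprime q M)
  {K0 : IntermediateField ℚ Qb} {A : ValuationSubring Qb} (hA : A.LiesOverPrime q)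

/-- Surjectivity onto the residue field. -/
def SurRes (K0 : IntermediateField ℚ Qb) (A : ValuationSubring Qb) : Prop :=
  ∀ a : kk A, ∃ (c : K0) (h : (c : Qb) ∈ A), IsLocalRing.residue A ⟨c, h⟩ = a

theorem surRes_K0 (hA : A.LiesOverPrime q) : SurRes (RV.K0 A) A := by
  intro a
  obtain ⟨c, hc⟩ := exists_K0_residue hq.out hA a
  exact ⟨(c : RV.K0 A), c.2, hc⟩

/-- lifts of functions of level `N`. -/
theorem exists_lift_LF (hres : SurRes K0 A) {N : ℕ} {v : LaurentSeries (kk A)}
    (hv : v ∈ modularFunctionFieldFullC (kk A) N) : ∃ z : LF K0 N, Red A (eb K0 N z) v := by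
  let S : Subfield (LaurentSeries (kk A)) :=
    { carrier := {v | ∃ z : LF K0 N, Red A (eb K0 N z) v}
      mul_mem' := by
        rintro x y ⟨z, hx⟩ ⟨w, hy⟩
        exact ⟨z * w, by rw [map_mul]; exact hx.mul hy⟩
      add_mem' := by
        rintro x y ⟨z, hx⟩ ⟨w, hy⟩
        exact ⟨z + w, by rw [map_add]; exact hx.add hy⟩
      one_mem' := ⟨1, by rw [map_one]; exact Red.one⟩
      zero_mem' := ⟨0, by rw [map_zero]; exact Red.zero⟩
      neg_mem' := by
        rintro x ⟨z, hx⟩
        exact ⟨-z, by rw [map_neg]; exact hx.neg⟩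
      inv_mem' := by
        rintro x ⟨z, hx⟩
        by_cases h0 : x = 0
        · rw [h0, inv_zero]
          exact ⟨0, by rw [map_zero]; exact Red.zero⟩
        · exact ⟨z⁻¹, by rw [map_inv₀]; exact hx.inv h0⟩ }
  have hle : modularFunctionFieldFullC (kk A) N ≤ S.toIntermediateField (fun c => by
      obtain ⟨a, ha, rfl⟩ := hres c
      rw [algebraMap_eq_C]
      exact ⟨algebraMap K0 _ a, by rw [eb_algebraMap]; exact Red.C ha⟩) := by
    rw [modularFunctionFieldFullC, IntermediateField.adjoin_le_iff]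
    rintro y ⟨d, hd, hdvd, rfl⟩
    refine ⟨jF K0 d hdvd, ?_⟩
    rw [eb_apply]
    have h1 : cEmb K0 Qb ((jF K0 d hdvd : LF K0 N) : LaurentSeries K0) = jd Qb d := coeffMap_jd _ _
    rw [h1]
    exact red_jd d
  exact hle hv

/-- the pullback to `F` of a function of level `M` -/
def aa (z : LF K0 M) : LF K0 (M * q * q) :=
  heckeAlphaBar K0 (M * q) q (heckeAlphaBar K0 M q z)

theorem io0_aa (z : LF K0 M) : io hqM K0 0 (aa z) = eb K0 M z := by
  rw [aa, io0_alpha, ie0_alpha]

theorem io1_aa (z : LF K0 M) : io hqM K0 1 (aa z) = eb K0 M z := by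
  rw [aa, io1_alpha, ie0_alpha]

theorem io2_aa (z : LF K0 M) : io hqM K0 2 (aa z) = qExpand Qb (q * q) (eb K0 M z) := by
  rw [aa, io2_alpha, ie1_alpha, qExpand_qExpand]

/-- a basis of functions of level `M` over level one -/
theorem exists_indep_one {k : Type*} [Field k] (M : ℕ) [NeZero M] (hM : (M : k) ≠ 0) :
    ∃ l : Fin (dedekindPsi M) → LaurentSeries k,
      (∀ i, l i ∈ modularFunctionFieldFullC k M) ∧
      ∀ v : Fin (dedekindPsi M) → LaurentSeries k, (∀ i, v i ∈ modularFunctionFieldFullC k 1) →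
        ∑ i, v i * l i = 0 → ∀ i, v i = 0 := by
  have hle := full_degeneracyC_le k (one_dvd M)
  have h1k := relrank_full (k := k) M hM
  rw [IntermediateField.relrank_eq_rank_of_le hle] at h1k
  have hfr : Module.finrank (modularFunctionFieldFullC k 1)
      (IntermediateField.extendScalars hle) = dedekindPsi M := Module.finrank_eq_of_rank_eq h1k
  haveI : FiniteDimensional (modularFunctionFieldFullC k 1)
      (IntermediateField.extendScalars hle) :=
    FiniteDimensional.of_finrank_pos (by rw [hfr]; exact dedekindPsi_pos (NeZero.ne M))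
  haveI : Module.Free (modularFunctionFieldFullC k 1) (IntermediateField.extendScalars hle) :=
    Module.Free.of_divisionRing _ _
  let b := Module.finBasisOfFinrankEq (modularFunctionFieldFullC k 1)
    (IntermediateField.extendScalars hle) hfr
  refine ⟨fun i => b i, fun i => (b i).2, fun v hv hsum => ?_⟩
  have hli := b.linearIndependent
  rw [Fintype.linearIndependent_iff] at hli
  have h3 := hli (fun i => ⟨v i, hv i⟩) (by
    apply Subtype.ext
    push_cast
    simpa [IntermediateField.smul_def, Algebra.smul_def] using hsum)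
  exact fun i => congrArg Subtype.val (h3 i)

end Lift

end Fermat.Agent.H26.RV
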