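import Mathlib
import Fermat.Agent.RV.FundF3

/-!
# The fundamental equality for `F` over `K0(j)`
-/

set_option autoImplicit false
set_option linter.unusedSectionVars false

noncomputable section

open scoped IntermediateField

namespace Fermat.Agent.H26.RV

open ModularCurve HahnSeries Fermat.Agent.Igusa Fermat.Agent.Q Fermat.Agent.H23.R
open Fermat.Agent.Q (Red VL FL)

local notation "kk" => IsLocalRing.ResidueField
local notation "Qb" => AlgebraicClosure ℚ

/-- shortcut -/
local instance (priority := high) instAlgLF4 (K0 : IntermediateField ℚ Qb) (N : ℕ) :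
    Algebra K0 (LF K0 N) := inferInstance

/-- shortcut -/
local instance (priority := high) instSMulLF4 (K0 : IntermediateField ℚ Qb) (N : ℕ) :
    SMul K0 (LF K0 N) := (instAlgLF4 K0 N).toSMul

section Defs

variable (q M : ℕ)

/-- ramification indices -/
def eF : Fin 3 → ℕ := ![1, q - 1, 1]

/-- residue degrees -/
def fF : Fin 3 → ℕ := ![dedekindPsi M, dedekindPsi M, dedekindPsi M * (q * q)]

variable {q M} [hq : Fact q.Prime] [NeZero M] {K0 : IntermediateField ℚ Qb}

variable (q M K0) in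
/-- uniformizers -/
def πF : Fin 3 → LF K0 (M * q * q) := ![(q : LF K0 (M * q * q)), piF q M K0, (q : LF K0 (M * q * q))]

/-- lifts of a basis of the residue fields -/
def bF (z : Fin (dedekindPsi M) → LF K0 M) : ∀ i : Fin 3, Fin (fF q M i) → LF K0 (M * q * q)
  | 0 => fun k : Fin (dedekindPsi M) => aa (z k)
  | 1 => fun k : Fin (dedekindPsi M) => aa (z k)
  | 2 => fun k : Fin (dedekindPsi M * (q * q)) =>
      aa (z (finProdFinEquiv.symm k).1) * jF K0 (q * q) qq_dvd3 ^ ((finProdFinEquiv.symm k).2 : ℕ)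

/-- reductions of `bF` -/
def bR {k : Type*} [Field k] (l : Fin (dedekindPsi M) → LaurentSeries k) :
    ∀ i : Fin 3, Fin (fF q M i) → LaurentSeries k
  | 0 => fun k : Fin (dedekindPsi M) => l k
  | 1 => fun k : Fin (dedekindPsi M) => l k
  | 2 => fun k' : Fin (dedekindPsi M * (q * q)) =>
      qExpand k (q * q) (l (finProdFinEquiv.symm k').1) *
        jd k 1 ^ ((finProdFinEquiv.symm k').2 : ℕ)

end Defs

section Main

variable {q M : ℕ} [hq : Fact q.Prime] [NeZero M] (hqM : Nat.Coprime q M)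
  {K0 : IntermediateField ℚ Qb} {A : ValuationSubring Qb} (hA : A.LiesOverPrime q)

include hA in
theorem M_ne_zero (hqM : Nat.Coprime q M) : (M : kk A) ≠ 0 := by
  haveI := charP_residue hq.out hA
  rw [ne_eq, CharP.cast_eq_zero_iff (kk A) q]
  intro h
  exact hq.out.ne_one ((Nat.Coprime.eq_one_of_dvd hqM h))

include hA in
theorem red_bF {z : Fin (dedekindPsi M) → LF K0 M} {l : Fin (dedekindPsi M) → LaurentSeries (kk A)}
    (hz : ∀ k, Red A (eb K0 M (z k)) (l k)) (i : Fin 3) (k : Fin (fF q M i)) :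
    Red A (io hqM K0 i (bF z i k)) (bR l i k) := by
  match i, k with
  | 0, k =>
    change Red A (io hqM K0 0 (aa (z k))) (l k)
    rw [io0_aa]; exact hz k
  | 1, k =>
    change Red A (io hqM K0 1 (aa (z k))) (l k)
    rw [io1_aa]; exact hz k
  | 2, k =>
    change Red A (io hqM K0 2 (aa (z (finProdFinEquiv.symm k).1) *
      jF K0 (q * q) qq_dvd3 ^ ((finProdFinEquiv.symm k).2 : ℕ))) _
    rw [map_mul, map_pow, io2_aa]
    exact ((hz _).qExpand (q * q)).mul ((red2_x2 hqM).pow _)

include hA in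
theorem bR_mem {l : Fin (dedekindPsi M) → LaurentSeries (kk A)}
    (hl : ∀ k, l k ∈ modularFunctionFieldFullC (kk A) M) (i : Fin 3) (k : Fin (fF q M i)) :
    bR l i k ∈ modularFunctionFieldFullC (kk A) M := by
  haveI := charP_residue hq.out hA
  match i, k with
  | 0, k => exact hl k
  | 1, k => exact hl k
  | 2, k =>
    change qExpand (kk A) (q * q) (l (finProdFinEquiv.symm k).1) *
        jd (kk A) 1 ^ ((finProdFinEquiv.symm k).2 : ℕ) ∈ _
    refine mul_mem ?_ (pow_mem (jd_mem_full (one_dvd M)) _)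
    rw [← qExpand_qExpand]
    exact qExpand_char_mem q M (qExpand_char_mem q M (hl _))

/-- the coefficient field of the residue field of `V i`. -/
def fr (k : Type*) [Field k] (q : ℕ) [NeZero q] : Fin 3 → (LaurentSeries k →+* LaurentSeries k) :=
  ![RingHom.id _, RingHom.id _, qExpand k (q * q)]

theorem bR_indep {k : Type*} [Field k] {l : Fin (dedekindPsi M) → LaurentSeries k}
    (hl : ∀ v : Fin (dedekindPsi M) → LaurentSeries k,
      (∀ i, v i ∈ modularFunctionFieldFullC k 1) → ∑ i, v i * l i = 0 → ∀ i, v i = 0)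
    (i : Fin 3) (v : Fin (fF q M i) → LaurentSeries k)
    (hv : ∀ j, v j ∈ modularFunctionFieldFullC k 1)
    (hsum : ∑ j, fr k q i (v j) * bR l i j = 0) : ∀ j, v j = 0 := by
  match i, v, hv, hsum with
  | 0, v, hv, hsum => exact hl v hv hsum
  | 1, v, hv, hsum => exact hl v hv hsum
  | 2, v, hv, hsum =>
    change Fin (dedekindPsi M * (q * q)) → LaurentSeries k at v
    change ∑ j : Fin (dedekindPsi M * (q * q)), qExpand k (q * q) (v j) *
      (qExpand k (q * q) (l (finProdFinEquiv.symm j).1) *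
        jd k 1 ^ ((finProdFinEquiv.symm j).2 : ℕ)) = 0 at hsum
    rw [← finProdFinEquiv.sum_comp, Fintype.sum_prod_type_right] at hsum
    have h1 : ∑ a : Fin (q * q), qExpand k (q * q)
        (∑ m : Fin (dedekindPsi M), v (finProdFinEquiv (m, a)) * l m) *
        jqModC k ^ (a : ℕ) = 0 := by
      rw [← hsum]
      refine Finset.sum_congr rfl fun a _ => ?_
      rw [map_sum, Finset.sum_mul]
      refine Finset.sum_congr rfl fun m _ => ?_
      rw [map_mul, Equiv.symm_apply_apply, ← jd_one k]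
      ring
    have h2 := qExpand_indep (q * q) _ h1
    intro j
    obtain ⟨⟨m, a⟩, rfl⟩ := finProdFinEquiv.surjective j
    exact hl (fun m => v (finProdFinEquiv (m, a))) (fun m => hv _) (h2 a) m

variable {y : LF K0 (M * q * q)}

theorem io_base (hy : IntermediateField.adjoin K0 {y} =
      IntermediateField.adjoin K0 {(jF K0 1 one_dvd3 : LF K0 (M * q * q))})
    (i : Fin 3) (c : IntermediateField.adjoin K0 {y}) {u : LaurentSeries (kk A)}
    (hu : Red A (io hqM K0 0 (c : LF K0 (M * q * q))) u) :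
    Red A (io hqM K0 i (c : LF K0 (M * q * q))) (fr (kk A) q i u) := by
  have hc : (c : LF K0 (M * q * q)) ∈ IntermediateField.adjoin K0
      {(jF K0 1 one_dvd3 : LF K0 (M * q * q))} := by rw [← hy]; exact c.2
  match i with
  | 0 => exact hu
  | 1 => rw [io1_base hqM hc]; exact hu
  | 2 => rw [io2_base hqM hc]; exact hu.qExpand (q * q)

/-- the Gauss valuation of `K0(j)`. -/
abbrev WB (y : LF K0 (M * q * q)) : ValuationSubring (IntermediateField.adjoin K0 {y}) :=
  (V hqM K0 hA 0).comap (algebraMap (IntermediateField.adjoin K0 {y}) (LF K0 (M * q * q)))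

theorem fund (hres : SurRes K0 A) (hU0 : IsUnif (V hqM K0 hA 0) (q : LF K0 (M * q * q)))
    (hy : IntermediateField.adjoin K0 {y} =
      IntermediateField.adjoin K0 {(jF K0 1 one_dvd3 : LF K0 (M * q * q))}) :
    ∃ b, Fund (WB hqM hA y) (q : IntermediateField.adjoin K0 {y}) (V hqM K0 hA) (eF q) (fF q M)
        (sF q M K0) (πF q M K0) b ∧
      ∀ i k, ∃ u ∈ modularFunctionFieldFullC (kk A) M, Red A (io hqM K0 i (b i k)) u := by
  obtain ⟨l, hl, hlind⟩ := exists_indep_one (k := kk A) M (M_ne_zero hA hqM)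
  choose z hz using fun i => exists_lift_LF hres (hl i)
  have hq0 : ((q : ℕ) : LF K0 (M * q * q)) ≠ 0 := hU0.ne_zero
  have hlies : ∀ i (c : IntermediateField.adjoin K0 {y}),
      algebraMap (IntermediateField.adjoin K0 {y}) (LF K0 (M * q * q)) c ∈ V hqM K0 hA i ↔
        c ∈ WB hqM hA y := fun i c => by
    have hc : (c : LF K0 (M * q * q)) ∈ IntermediateField.adjoin K0
      {(jF K0 1 one_dvd3 : LF K0 (M * q * q))} := by rw [← hy]; exact c.2
    exact mem_V_base hqM hA i hc
  refine ⟨bF z, ⟨?_, hlies, archV hqM hA, ?_, ?_, ?_, ?_, ?_, ?_, ?_, ?_⟩, fun i k => ?_⟩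
  · -- unif
    refine ⟨?_, ?_, ?_, ?_⟩
    · intro h0
      apply hq0
      have := congrArg (algebraMap (IntermediateField.adjoin K0 {y}) (LF K0 (M * q * q))) h0
      rwa [map_natCast, map_zero] at this
    · exact natCast_mem _ q
    · rw [← rv_map_eq_zero_iff (φ := algebraMap (IntermediateField.adjoin K0 {y})
        (LF K0 (M * q * q))) (hlies 0), map_natCast]
      exact rv_q_V hqM hA 0
    · intro c hc
      obtain ⟨n, hn⟩ := hU0.exists_zpow (algebraMap _ (LF K0 (M * q * q)) c)
        ((map_ne_zero _).mpr hc)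
      refine ⟨n, ?_⟩
      rw [ne_eq, ← rv_map_eq_zero_iff (φ := algebraMap (IntermediateField.adjoin K0 {y})
        (LF K0 (M * q * q))) (hlies 0), map_mul, map_zpow₀, map_natCast]
      exact hn
  · -- s_mem
    intro i l
    obtain ⟨u, hu, -⟩ := red_sF (K0 := K0) hqM hA i l
    exact mem_V_of_red hqM hA hu
  · intro i
    obtain ⟨u, hu, hu'⟩ := red_sF (K0 := K0) hqM hA i i
    exact (rvV_ne_zero_iff hqM hA hu).mpr (hu'.mpr rfl)
  · intro i l hli
    obtain ⟨u, hu, hu'⟩ := red_sF (K0 := K0) hqM hA i l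
    rw [rvV_eq_zero_iff hqM hA hu]
    by_contra hne
    exact hli (hu'.mp hne).symm
  · -- e_pos
    intro i
    have := hq.out.two_le
    fin_cases i
    · exact Nat.one_pos
    · change 0 < q - 1
      omega
    · exact Nat.one_pos
  · -- ram
    intro i
    rw [map_natCast]
    fin_cases i
    · change rv (V hqM K0 hA 0) ((q : LF K0 (M * q * q)) ^ 1 * (q : LF K0 (M * q * q))⁻¹) ≠ 0
      rw [pow_one, mul_inv_cancel₀ hq0, rv_one]
      exact one_ne_zero
    · change rv (V hqM K0 hA 1) (piF q M K0 ^ (q - 1) * (q : LF K0 (M * q * q))⁻¹) ≠ 0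
      exact (rvV_ne_zero_iff hqM hA (red1_piq hqM hA)).mpr (red1_piq_ne)
    · change rv (V hqM K0 hA 2) ((q : LF K0 (M * q * q)) ^ 1 * (q : LF K0 (M * q * q))⁻¹) ≠ 0
      rw [pow_one, mul_inv_cancel₀ hq0, rv_one]
      exact one_ne_zero
  · intro i k
    exact mem_V_of_red hqM hA (red_bF hqM hA hz i k)
  · -- indep
    intro i c hc hsum
    choose γ hγ using fun k => (mem_V hqM hA).mp (hc k)
    have hγ1 : ∀ k, γ k ∈ modularFunctionFieldFullC (kk A) 1 := fun k =>
      red_mem_one_of_base hqM (by rw [← hy]; exact (c k).2) (hγ k)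
    have h1 : Red A (io hqM K0 i (∑ k, algebraMap (IntermediateField.adjoin K0 {y})
        (LF K0 (M * q * q)) (c k) * bF z i k)) (∑ k, fr (kk A) q i (γ k) * bR l i k) := by
      rw [map_sum]
      refine Red.sum _ fun k _ => ?_
      rw [map_mul]
      exact (io_base hqM hy i (c k) (hγ k)).mul (red_bF hqM hA hz i k)
    rw [rvV_eq_zero_iff hqM hA h1] at hsum
    have h2 := bR_indep hlind i γ hγ1 hsum
    intro k
    rw [← rv_map_eq_zero_iff (φ := algebraMap (IntermediateField.adjoin K0 {y})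
        (LF K0 (M * q * q))) (hlies 0), rvV_eq_zero_iff hqM hA (hγ k)]
    exact h2 k
  · -- card
    rw [hy, finrank_adjoin_j (jd_one (R := K0)), Fin.sum_univ_three]
    change dedekindPsi (M * q * q) ≤ 1 * dedekindPsi M + (q - 1) * dedekindPsi M +
      1 * (dedekindPsi M * (q * q))
    have hM0 : M ≠ 0 := NeZero.ne M
    have hqM' : ¬ q ∣ M := fun h => hq.out.ne_one (Nat.Coprime.eq_one_of_dvd hqM h)
    rw [dedekindPsi_mul_prime hq.out (Nat.mul_ne_zero hM0 hq.out.ne_zero),
      if_pos (dvd_mul_left q M), dedekindPsi_mul_prime hq.out hM0, if_neg hqM']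
    obtain ⟨n, hn⟩ : ∃ n, q = n + 1 := ⟨q - 1, by have := hq.out.pos; omega⟩
    rw [hn, Nat.add_sub_cancel]
    apply le_of_eq
    ring
  · exact ⟨_, bR_mem hA hl i k, red_bF hqM hA hz i k⟩

end Main

end Fermat.Agent.H26.RV
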