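import Mathlib
import Fermat.Agent.RV.FundF4

/-!
# `Adapted` for `j` and `1/j`
-/

set_option autoImplicit false
set_option linter.unusedSectionVars false

noncomputable section

open Polynomial
open scoped IntermediateField

namespace Fermat.Agent.H26.RV

open ModularCurve Fermat.Agent.Igusa Fermat.Agent.Q Fermat.Agent.H23.R
open Fermat.Agent.Q (Red VL FL)

local notation "kk" => IsLocalRing.ResidueField
local notation "Qb" => AlgebraicClosure ℚ

/-- shortcut -/
local instance (priority := high) instAlgLF5 (K0 : IntermediateField ℚ Qb) (N : ℕ) :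
    Algebra K0 (LF K0 N) := inferInstance

/-- shortcut -/
local instance (priority := high) instSMulLF5 (K0 : IntermediateField ℚ Qb) (N : ℕ) :
    SMul K0 (LF K0 N) := (instAlgLF5 K0 N).toSMul

section Abstract

variable {A0 K0 F : Type*} [CommRing A0] [IsDomain A0] [IsDiscreteValuationRing A0] [Field K0]
  [Algebra A0 K0] [IsFractionRing A0 K0] [Field F] [Algebra K0 F] [Algebra A0 F]
  [IsScalarTower A0 K0 F] {x : F}

theorem aeval_mem_V {V0 : ValuationSubring F} (hmem : ∀ a : A0, algebraMap A0 F a ∈ V0)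
    (hx : x ∈ V0) (d : A0[X]) : aeval x d ∈ V0 := by
  rw [aeval_eq_sum_range]
  refine sum_mem fun i _ => ?_
  rw [Algebra.smul_def]
  exact mul_mem (hmem _) (pow_mem hx _)

theorem hW_of_prim {ϖ : A0} (hϖ : Irreducible ϖ) {V0 : ValuationSubring F}
    (hmem : ∀ a : A0, algebraMap A0 F a ∈ V0) (hx : x ∈ V0)
    (hprim : ∀ d : A0[X], ¬ C ϖ ∣ d → rv V0 (aeval x d) ≠ 0)
    (hϖ0 : rv V0 (algebraMap A0 F ϖ) = 0) (w : K0⟮x⟯) (hw : (w : F) ∈ V0) :
    ∃ a d : A0[X], ¬ C ϖ ∣ d ∧ aeval x d * (w : F) = aeval x a := by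
  classical
  have hprime : Prime (C ϖ : A0[X]) := Polynomial.prime_C_iff.mpr hϖ.prime
  obtain ⟨w, hwm⟩ := w
  change w ∈ V0 at hw
  change ∃ a d : A0[X], ¬ C ϖ ∣ d ∧ aeval x d * w = aeval x a
  by_cases hw0 : w = 0
  · refine ⟨0, 1, hprime.not_dvd_one, ?_⟩
    rw [hw0, mul_zero, map_zero]
  obtain ⟨r, s, hrs⟩ := (IntermediateField.mem_adjoin_simple_iff K0 w).mp hwm
  have hr0 : aeval x r ≠ 0 := by
    intro h; rw [h, zero_div] at hrs; exact hw0 hrs
  have hs0 : aeval x s ≠ 0 := by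
    intro h; rw [h, div_zero] at hrs; exact hw0 hrs
  obtain ⟨b, r', hb, hr'⟩ := exists_clear_poly (A0 := A0) r
  obtain ⟨c, s', hc, hs'⟩ := exists_clear_poly (A0 := A0) s
  have hinj : Function.Injective (algebraMap A0 F) := by
    rw [IsScalarTower.algebraMap_eq A0 K0 F]
    exact (algebraMap K0 F).injective.comp (IsFractionRing.injective A0 K0)
  have hkey : ∀ (p' : A0[X]) (p : K0[X]) (m : A0), p'.map (algebraMap A0 K0) =
      C (algebraMap A0 K0 m) * p → aeval x p' = algebraMap A0 F m * aeval x p := by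
    intro p' p m h
    have h1 : aeval x (p'.map (algebraMap A0 K0)) = aeval x p' := aeval_map_algebraMap K0 x p'
    rw [← h1, h, map_mul, aeval_C, ← IsScalarTower.algebraMap_apply]
  have hb' : algebraMap A0 F b ≠ 0 := fun h => hb (hinj (h.trans (map_zero _).symm))
  have hc' : algebraMap A0 F c ≠ 0 := fun h => hc (hinj (h.trans (map_zero _).symm))
  -- w * aeval Q' = aeval P'
  have h1 : w * aeval x (C b * s') = aeval x (C c * r') := by
    rw [map_mul, map_mul, hkey r' r b hr', hkey s' s c hs', aeval_C, aeval_C, hrs]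
    field_simp
  have hQ0 : C b * s' ≠ 0 := by
    intro h
    have h2 := congrArg (aeval x) h
    rw [map_mul, hkey s' s c hs', aeval_C, map_zero] at h2
    exact mul_ne_zero hb' (mul_ne_zero hc' hs0) h2
  have hP0 : C c * r' ≠ 0 := by
    intro h
    have h2 := congrArg (aeval x) h
    rw [map_mul, hkey r' r b hr', aeval_C, map_zero] at h2
    exact mul_ne_zero hc' (mul_ne_zero hb' hr0) h2
  obtain ⟨n, Q0, hQ0', hQ⟩ := WfDvdMonoid.max_power_factor hQ0 hprime.irreducible
  obtain ⟨m, P0, hP0', hP⟩ := WfDvdMonoid.max_power_factor hP0 hprime.irreducible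
  rw [hQ, hP, map_mul, map_mul, map_pow, map_pow, aeval_C] at h1
  have hϖF : algebraMap A0 F ϖ ≠ 0 := fun h => hϖ.ne_zero (hinj (h.trans (map_zero _).symm))
  rcases le_or_gt n m with hnm | hnm
  · obtain ⟨k, rfl⟩ := Nat.exists_eq_add_of_le hnm
    refine ⟨C ϖ ^ k * P0, Q0, hQ0', ?_⟩
    rw [map_mul, map_pow, aeval_C]
    apply mul_left_cancel₀ (pow_ne_zero n hϖF)
    rw [pow_add] at h1
    linear_combination h1
  · exfalso
    obtain ⟨k, rfl⟩ := Nat.exists_eq_add_of_lt hnm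
    apply hprim P0 hP0'
    have h2 : aeval x P0 = algebraMap A0 F ϖ * (algebraMap A0 F ϖ ^ k * (w * aeval x Q0)) := by
      apply mul_left_cancel₀ (pow_ne_zero m hϖF)
      rw [← h1]
      ring
    rw [h2, rv_mul (hmem _) (mul_mem (pow_mem (hmem _) _) (mul_mem hw (aeval_mem_V hmem hx _))),
      hϖ0, zero_mul]

end Abstract

section Red

variable {q M : ℕ} [hq : Fact q.Prime] [NeZero M] (hqM : Nat.Coprime q M)
  {K0 : IntermediateField ℚ Qb} {A : ValuationSubring Qb} (hA : A.LiesOverPrime q)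
  [Algebra (A0 A K0) (LF K0 (M * q * q))] [IsScalarTower (A0 A K0) K0 (LF K0 (M * q * q))]

/-- residue map -/
def resA0 (A : ValuationSubring Qb) (K0 : IntermediateField ℚ Qb) : A0 A K0 →+* kk A :=
  (IsLocalRing.residue A).comp (a0ToA A K0)

theorem io_algebraMap_A0 (i : Fin 3) (a : A0 A K0) :
    io hqM K0 i (algebraMap (A0 A K0) (LF K0 (M * q * q)) a) = HahnSeries.C ((a : K0) : Qb) := by
  rw [IsScalarTower.algebraMap_apply (A0 A K0) K0 (LF K0 (M * q * q)), io_algebraMap]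
  rfl

theorem red_algebraMap_A0 (i : Fin 3) (a : A0 A K0) :
    Red A (io hqM K0 i (algebraMap (A0 A K0) (LF K0 (M * q * q)) a))
      (HahnSeries.C (resA0 A K0 a)) := by
  rw [io_algebraMap_A0]
  exact Red.C (show ((a : K0) : Qb) ∈ A from a.2)

theorem algebraMap_A0_mem (i : Fin 3) (a : A0 A K0) :
    algebraMap (A0 A K0) (LF K0 (M * q * q)) a ∈ V hqM K0 hA i :=
  mem_V_of_red hqM hA (red_algebraMap_A0 hqM i a)

theorem red_aeval (i : Fin 3) {x : LF K0 (M * q * q)} {v : LaurentSeries (kk A)}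
    (hx : Red A (io hqM K0 i x) v) (d : (A0 A K0)[X]) :
    Red A (io hqM K0 i (aeval x d)) (aeval v (d.map (resA0 A K0))) := by
  induction d using Polynomial.induction_on' with
  | add p r hp hr =>
    rw [map_add, map_add, Polynomial.map_add, map_add]
    exact hp.add hr
  | monomial n a =>
    rw [aeval_monomial, Polynomial.map_monomial, aeval_monomial, map_mul, map_pow,
      algebraMap_eq_C]
    exact (red_algebraMap_A0 hqM i a).mul (hx.pow n)

theorem map_resA0_ne {d : (A0 A K0)[X]} [IsDiscreteValuationRing (A0 A K0)] {ϖ : A0 A K0}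
    (hϖ : Irreducible ϖ) (hd : ¬ C ϖ ∣ d) : d.map (resA0 A K0) ≠ 0 := by
  intro h0
  apply hd
  rw [C_dvd_iff_dvd_coeff]
  intro n
  have h1 : resA0 A K0 (d.coeff n) = 0 := by
    rw [← coeff_map, h0, coeff_zero]
  have h2 : d.coeff n ∈ IsLocalRing.maximalIdeal (A0 A K0) := by
    rw [IsLocalRing.mem_maximalIdeal, mem_nonunits_iff]
    intro hu
    exact (hu.map (resA0 A K0)).ne_zero h1
  rw [hϖ.maximalIdeal_eq, Ideal.mem_span_singleton] at h2
  exact h2

theorem rv_aeval_ne (i : Fin 3) {x : LF K0 (M * q * q)} {v : LaurentSeries (kk A)}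
    (hx : Red A (io hqM K0 i x) v) (hv : Transcendental (kk A) v)
    [IsDiscreteValuationRing (A0 A K0)] {ϖ : A0 A K0}
    (hϖ : Irreducible ϖ) {d : (A0 A K0)[X]} (hd : ¬ C ϖ ∣ d) :
    rv (V hqM K0 hA i) (aeval x d) ≠ 0 := by
  rw [rvV_ne_zero_iff hqM hA (red_aeval hqM i hx d)]
  intro h0
  exact map_resA0_ne hϖ hd
    ((injective_iff_map_eq_zero _).mp (transcendental_iff_injective.mp hv) _ h0)

end Red

section Adapt

variable {q M : ℕ} [hq : Fact q.Prime] [NeZero M] (hqM : Nat.Coprime q M)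
  {K0 : IntermediateField ℚ Qb} {A : ValuationSubring Qb} (hA : A.LiesOverPrime q)
  [Algebra (A0 A K0) (LF K0 (M * q * q))] [IsScalarTower (A0 A K0) K0 (LF K0 (M * q * q))]
  [IsDiscreteValuationRing (A0 A K0)] [IsFractionRing (A0 A K0) K0]

/-- the general adaptedness. -/
theorem adapted_of (hres : SurRes K0 A) (hU0 : IsUnif (V hqM K0 hA 0) (q : LF K0 (M * q * q)))
    {y : LF K0 (M * q * q)}
    (hy : IntermediateField.adjoin K0 {y} =
      IntermediateField.adjoin K0 {(jF K0 1 one_dvd3 : LF K0 (M * q * q))})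
    {v : Fin 3 → LaurentSeries (kk A)} (hv : ∀ i, Red A (io hqM K0 i y) (v i))
    (hvt : ∀ i, Transcendental (kk A) (v i)) (hyt : Transcendental K0 y)
    {ϖ : A0 A K0} (hϖ : Irreducible ϖ) (hϖq : ϖ = (q : A0 A K0)) :
    Adapted (A0 A K0) K0 (V hqM K0 hA) ϖ y := by
  haveI : FiniteDimensional (IntermediateField.adjoin K0 {y}) (LF K0 (M * q * q)) := by
    rw [hy]; exact finite_adjoin_j (jd_one (R := K0))
  obtain ⟨b, hF, -⟩ := fund hqM hA hres hU0 hy
  refine ⟨hyt, fun i a => algebraMap_A0_mem hqM hA i a, fun i => mem_V_of_red hqM hA (hv i),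
    fun i d hd => rv_aeval_ne hqM hA i (hv i) (hvt i) hϖ hd, fun z hz => ?_⟩
  refine int_of_isIntegral (V := V hqM K0 hA) hϖ (WB hqM hA y) (fun w hw => ?_)
    (fun z hz => hF.isIntegral hz) hz
  refine hW_of_prim hϖ (V0 := V hqM K0 hA 0) (fun a => algebraMap_A0_mem hqM hA 0 a)
    (mem_V_of_red hqM hA (hv 0)) (fun d hd => rv_aeval_ne hqM hA 0 (hv 0) (hvt 0) hϖ hd) ?_ w hw
  rw [hϖq, map_natCast]
  exact rv_q_V hqM hA 0

theorem tr_jd (k : Type*) [Field k] (d : ℕ) [NeZero d] : Transcendental k (jd k d) := by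
  intro h
  have h1 : IsAlgebraic k (qExpandAlgHomC k d (jqModC k)) := h
  exact H05.transcendental_j k
    ((isAlgebraic_algHom_iff (qExpandAlgHomC k d) (qExpandAlgHomC k d).toRingHom.injective).mp h1)

/-- reductions of `j` -/
def vj (q : ℕ) [NeZero q] (k : Type*) [Field k] : Fin 3 → LaurentSeries k :=
  ![jd k 1, jd k 1, jd k (q * q)]

theorem red_x0 (i : Fin 3) : Red A (io hqM K0 i (jF K0 1 one_dvd3)) (vj q (kk A) i) := by
  fin_cases i
  · exact red0_jF hqM 1 _
  · exact red1_x0 hqM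
  · exact red2_x0 hqM

theorem vj_ne (k : Type*) [Field k] (i : Fin 3) : vj q k i ≠ 0 := by
  fin_cases i
  · change jd k 1 ≠ 0
    exact jd_ne_zero 1
  · change jd k 1 ≠ 0
    exact jd_ne_zero 1
  · change jd k (q * q) ≠ 0
    exact jd_ne_zero (q * q)

theorem vj_tr (k : Type*) [Field k] (i : Fin 3) : Transcendental k (vj q k i) := by
  fin_cases i
  · exact tr_jd k 1
  · exact tr_jd k 1
  · exact tr_jd k (q * q)

theorem adapted_j (hres : SurRes K0 A) (hU0 : IsUnif (V hqM K0 hA 0) (q : LF K0 (M * q * q)))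
    {x : LF K0 (M * q * q)} (hx : (x : LaurentSeries K0) = jqModC K0)
    (hϖ : Irreducible (q : A0 A K0)) :
    Adapted (A0 A K0) K0 (V hqM K0 hA) (q : A0 A K0) x := by
  have hx' : x = jF K0 1 one_dvd3 := Subtype.ext (hx.trans (jd_one (R := K0)).symm)
  exact adapted_of hqM hA hres hU0 (by rw [hx']) (v := vj q (kk A))
    (fun i => by rw [hx']; exact red_x0 hqM i) (fun i => vj_tr _ i) (tr_j hx) hϖ rfl

theorem adapted_jinv (hres : SurRes K0 A)
    (hU0 : IsUnif (V hqM K0 hA 0) (q : LF K0 (M * q * q)))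
    {x : LF K0 (M * q * q)} (hx : (x : LaurentSeries K0) = jqModC K0)
    (hϖ : Irreducible (q : A0 A K0)) :
    Adapted (A0 A K0) K0 (V hqM K0 hA) (q : A0 A K0) x⁻¹ := by
  have hx' : x = jF K0 1 one_dvd3 := Subtype.ext (hx.trans (jd_one (R := K0)).symm)
  refine adapted_of hqM hA hres hU0 (by rw [adjoin_inv, hx']) (v := fun i => (vj q (kk A) i)⁻¹)
    (fun i => ?_) (fun i => ?_) (tr_j_inv hx) hϖ rfl
  · rw [map_inv₀, hx']
    exact (red_x0 hqM i).inv (vj_ne _ i)
  · intro h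
    exact vj_tr (kk A) i (IsAlgebraic.inv_iff.mp h)

end Adapt

end Fermat.Agent.H26.RV
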