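import Mathlib
import Fermat.Agent.RV.FundF5

/-!
# Consequences of the fundamental equality
-/

set_option autoImplicit false
set_option linter.unusedSectionVars false

noncomputable section

open Polynomial
open scoped IntermediateField

namespace Fermat.Agent.H26.RV

open ModularCurve Fermat.Agent.Igusa Fermat.Agent.Q Fermat.Agent.H23.R
open Fermat.Agent.Q (Red VL FL)

local notation "kk" => IsLocalRing.ResidueField
local notation "Qb" => AlgebraicClosure ℚ

/-- shortcut -/
local instance (priority := high) instAlgLF6 (K0 : IntermediateField ℚ Qb) (N : ℕ) :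
    Algebra K0 (LF K0 N) := inferInstance

/-- shortcut -/
local instance (priority := high) instSMulLF6 (K0 : IntermediateField ℚ Qb) (N : ℕ) :
    SMul K0 (LF K0 N) := (instAlgLF6 K0 N).toSMul

section Cons

variable {q M : ℕ} [hq : Fact q.Prime] [NeZero M] (hqM : Nat.Coprime q M)
  {K0 : IntermediateField ℚ Qb} {A : ValuationSubring Qb} (hA : A.LiesOverPrime q)
  (hres : SurRes K0 A) (hU0 : IsUnif (V hqM K0 hA 0) (q : LF K0 (M * q * q)))

/-- the base `K0(j)` -/
abbrev Bj (q M : ℕ) [Fact q.Prime] [NeZero M] (K0 : IntermediateField ℚ Qb) :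
    IntermediateField K0 (LF K0 (M * q * q)) :=
  IntermediateField.adjoin K0 {(jF K0 1 one_dvd3 : LF K0 (M * q * q))}

instance finBj : FiniteDimensional (Bj q M K0) (LF K0 (M * q * q)) :=
  finite_adjoin_j (jd_one (R := K0))

/-- the Gauss valuation of `K0(j)` -/
abbrev Wj : ValuationSubring (Bj q M K0) := WB hqM hA (jF K0 1 one_dvd3)

include hres hU0

theorem fundj : ∃ b, Fund (Wj hqM hA) (q : Bj q M K0) (V hqM K0 hA) (eF q) (fF q M)
        (sF q M K0) (πF q M K0) b ∧
      ∀ i k, ∃ u ∈ modularFunctionFieldFullC (kk A) M, Red A (io hqM K0 i (b i k)) u :=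
  fund hqM hA hres hU0 rfl

/-- the residue fields of the `V i` are contained in the function field of level `M`. -/
theorem red_mem_L {i : Fin 3} {z : LF K0 (M * q * q)} {u : LaurentSeries (kk A)}
    (hu : Red A (io hqM K0 i z) u) : u ∈ modularFunctionFieldFullC (kk A) M := by
  obtain ⟨b, hF, hb⟩ := fundj hqM hA hres hU0
  choose ub hub hbr using fun k => hb i k
  obtain ⟨c, hc, hcz⟩ := hF.exists_residue i (mem_V_of_red hqM hA hu)
  choose γ hγ using fun k => (mem_V hqM hA).mp (hc k)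
  have hγ1 : ∀ k, γ k ∈ modularFunctionFieldFullC (kk A) 1 := fun k =>
    red_mem_one_of_base hqM (c k).2 (hγ k)
  have h1 : Red A (io hqM K0 i (∑ k, algebraMap (Bj q M K0)
      (LF K0 (M * q * q)) (c k) * b i k)) (∑ k, fr (kk A) q i (γ k) * ub k) := by
    rw [map_sum]
    refine Red.sum _ fun k _ => ?_
    rw [map_mul]
    exact (io_base hqM rfl i (c k) (hγ k)).mul (hbr k)
  have h2 := hu.sub h1
  rw [← map_sub] at h2
  have h3 := (rvV_eq_zero_iff hqM hA h2).mp
    ((rv_eq_zero_iff_val (mem_V_of_red hqM hA h2)).mpr hcz)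
  rw [sub_eq_zero.mp h3]
  refine sum_mem fun k _ => mul_mem ?_ (hub k)
  have h4 : γ k ∈ modularFunctionFieldFullC (kk A) M :=
    full_degeneracyC_le (kk A) (one_dvd M) (hγ1 k)
  haveI := charP_residue hq.out hA
  clear hF hb hbr hc hγ h1 h2 h3 hcz hu hub c
  fin_cases i
  · exact h4
  · exact h4
  · change qExpand (kk A) (q * q) (γ k) ∈ _
    rw [← qExpand_qExpand]
    exact qExpand_char_mem q M (qExpand_char_mem q M h4)

theorem isUnif_V2 : IsUnif (V hqM K0 hA 2) (q : LF K0 (M * q * q)) := by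
  obtain ⟨b, hF, -⟩ := fundj hqM hA hres hU0
  have := Fund_isUnif hF 2 rfl
  rwa [map_natCast] at this

/-- elements of positive valuation at `V 1` are divisible by every element `π'` with
`π'^(q-1)/q` a unit. -/
theorem unif_V1 {π' : LF K0 (M * q * q)}
    (hπ' : rv (V hqM K0 hA 1) (π' ^ (q - 1) * (q : LF K0 (M * q * q))⁻¹) ≠ 0)
    {z : LF K0 (M * q * q)} (hz : z ∈ V hqM K0 hA 1) (hz0 : rv (V hqM K0 hA 1) z = 0) :
    z * π'⁻¹ ∈ V hqM K0 hA 1 := by
  obtain ⟨b, hF, -⟩ := fundj hqM hA hres hU0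
  have h0 := hF.val_le_π 1 ((rv_eq_zero_iff_val hz).mp hz0)
  have hq1 : q - 1 ≠ 0 := by have := hq.out.two_le; omega
  have hπ0 : π' ≠ 0 := by
    rintro rfl
    rw [zero_pow hq1, zero_mul] at hπ'
    exact hπ' rv_zero
  have h1 := hF.π_pow 1
  rw [map_natCast] at h1
  have h2 := rv_ne_zero_iff_val.mp hπ'
  have hq0 : (V hqM K0 hA 1).valuation (q : LF K0 (M * q * q)) ≠ 0 :=
    (Valuation.ne_zero_iff _).mpr hU0.ne_zero
  rw [map_mul, map_inv₀, mul_inv_eq_one₀ hq0, map_pow] at h2
  have h3 : (V hqM K0 hA 1).valuation π' = (V hqM K0 hA 1).valuation (πF q M K0 1) := by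
    apply (pow_left_inj₀ zero_le' zero_le' hq1).mp
    rw [h2]
    exact h1.symm
  rw [mul_inv_mem_iff hπ0, h3]
  exact h0

end Cons

end Fermat.Agent.H26.RV
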