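import Mathlib

/-!
# `X ^ p ^ n - a` is irreducible in characteristic `p` if `a` is not a `p`-th power
-/

set_option autoImplicit false

noncomputable section

open Polynomial

namespace Fermat.Agent.H26.RV

theorem irreducible_X_pow_sub_C {K : Type*} [Field K] (p : ℕ) [hp : Fact p.Prime] [CharP K p]
    (n : ℕ) {a : K} (ha : ∀ b : K, b ^ p ≠ a) : Irreducible (X ^ p ^ n - C a : K[X]) := by
  haveI : ExpChar K p := ExpChar.prime hp.out
  haveI : ExpChar (AlgebraicClosure K) p := expChar_of_injective_algebraMap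
    (algebraMap K (AlgebraicClosure K)).injective p
  obtain ⟨b, hb⟩ := IsAlgClosed.exists_pow_nat_eq (algebraMap K (AlgebraicClosure K) a)
    (pow_pos hp.out.pos n)
  have hint : IsIntegral K b := Algebra.IsIntegral.isIntegral b
  have h1 : (minpoly K b).natSepDegree = 1 := by
    rw [minpoly.natSepDegree_eq_one_iff_pow_mem p]
    exact ⟨n, a, hb.symm⟩
  rw [minpoly.natSepDegree_eq_one_iff_eq_X_pow_sub_C p] at h1
  obtain ⟨r, y, hry⟩ := h1
  have hby : b ^ p ^ r = algebraMap K _ y := by
    have := minpoly.aeval K b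
    rw [hry, map_sub, map_pow, aeval_X, aeval_C, sub_eq_zero] at this
    exact this
  have hdvd : minpoly K b ∣ (X ^ p ^ n - C a : K[X]) := by
    apply minpoly.dvd
    rw [map_sub, map_pow, aeval_X, aeval_C, hb, sub_self]
  have hrn : r ≤ n := by
    have h2 := natDegree_le_of_dvd hdvd (X_pow_sub_C_ne_zero (pow_pos hp.out.pos n) a)
    rw [hry, natDegree_X_pow_sub_C, natDegree_X_pow_sub_C] at h2
    exact (Nat.pow_le_pow_iff_right hp.out.one_lt).mp h2
  rcases hrn.lt_or_eq with h | h
  · exfalso
    obtain ⟨k, rfl⟩ := Nat.exists_eq_add_of_lt h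
    apply ha (y ^ p ^ k)
    apply (algebraMap K (AlgebraicClosure K)).injective
    rw [map_pow, map_pow, ← hby, ← hb, ← pow_mul, ← pow_mul]
    congr 1
    ring
  · subst h
    have : y = a := by
      apply (algebraMap K (AlgebraicClosure K)).injective
      rw [← hby, hb]
    rw [← this, ← hry]
    exact minpoly.irreducible hint

end Fermat.Agent.H26.RV
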