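import Fermat.Agent.RV.Loc1Elt

/-!
# Chart 1: the local analysis
-/

set_option autoImplicit false
set_option maxSynthPendingDepth 3
set_option linter.unusedSectionVars false

noncomputable section

attribute [-instance] HahnSeries.instModule HahnSeries.instSMul HahnSeries.instDistribMulAction
  HahnSeries.instSMulZeroClass

namespace Fermat.Agent.H23.R.Loc1

open ModularCurve ModularCurve.IgusaScheme Polynomial AlgebraicCurve Fermat.Agent.H26
  Fermat.Agent.H26.RV Fermat.Agent.H23.R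
open Fermat.Agent.Q (Red)
open Fermat.Agent.Igusa (HData SSData evZ evZ_X ringHom_evZ ringHom_comp_evZ uS uV uT twist theta
  Mn)

local notation "Qb" => AlgebraicClosure ℚ
local notation "kk" => IsLocalRing.ResidueField

/-! ### the complementary polynomial -/

section Poly

variable {k : Type*} [Field k] (q : ℕ) [hq : Fact q.Prime] [CharP k q]

theorem exists_cofactor (S : Finset k) (hS : ∀ s ∈ S, s ^ q ^ 2 = s) :
    ∃ G : k[X], (X - X ^ q ^ 2 : k[X]) = (∏ s ∈ S, (X - C s)) * G ∧ ∀ s ∈ S, G.eval s ≠ 0 := by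
  classical
  have h1 : (∏ s ∈ S, (X - C s)) ∣ (X - X ^ q ^ 2 : k[X]) := by
    apply Finset.prod_dvd_of_coprime
    · intro a _ b _ hab
      exact (pairwise_coprime_X_sub_C Function.injective_id) hab
    · intro s hs
      rw [dvd_iff_isRoot, IsRoot, eval_sub, eval_X, eval_pow, eval_X, hS s hs, sub_self]
  obtain ⟨G, hG⟩ := h1
  refine ⟨G, hG, fun s hs h0 => ?_⟩
  have h2 : derivative (X - X ^ q ^ 2 : k[X]) = 1 := by
    have := Igusa.derivative_xi q (k := k)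
    rwa [Igusa.xi] at this
  rw [hG, derivative_mul] at h2
  have h3 := congrArg (eval s) h2
  have h4 : eval s (∏ s ∈ S, (X - C s)) = 0 := by
    rw [eval_prod]
    exact Finset.prod_eq_zero hs (by rw [eval_sub, eval_X, eval_C, sub_self])
  rw [eval_add, eval_mul, eval_mul, h0, h4, mul_zero, zero_mul, add_zero, eval_one] at h3
  exact zero_ne_one h3

end Poly

section Final

variable {q M : ℕ} [hq : Fact q.Prime] [NeZero M] (hqM : Nat.Coprime q M)
  {A : ValuationSubring Qb} (hA : A.LiesOverPrime q)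

/-! ### elements of `DD` -/

theorem serD_algebraMap (s : kk A) :
    serD (algebraMap (kk A) (DD A M) s) = HahnSeries.C s := by
  have h1 : serD (algebraMap (kk A) (DD A M) s) =
      algebraMap (kk A) (LaurentSeries (kk A)) s := rfl
  rw [h1, Q.algebraMap_eq_C]

theorem exists_J : ∃ J : DD A M, serD J = jqModC (kk A) := by
  refine ⟨mkD (jqModC (kk A)) (jqModC_mem_full (kk A) M) ⟨X - C X, monic_X_sub_C _, ?_⟩, rfl⟩
  rw [eval₂_sub, eval₂_X, eval₂_C]
  change jqModC (kk A) - aeval (jqModC (kk A)) X = 0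
  rw [aeval_X, sub_self]

include hA in
theorem charP_DD : CharP (DD A M) q := by
  haveI := charP_lkk (q := q) hA
  exact (serD (A := A) (M := M)).charP serD_injective q

variable {r : ℕ} [NeZero r] (D : HData r) (hrM : r ∣ M) {S : Finset (kk A)}

include hrM in
theorem exists_H (hr : ((r : ℕ) : kk A) ≠ 0) : ∃ H : DD A M, serD H = D.tq (kk A) := by
  refine ⟨mkD (D.tq (kk A)) (full_degeneracyC_le (kk A) hrM (D.tq_mem (kk A) hr)) ?_, rfl⟩
  rw [intRel_iff]
  exact Igusa.tq_isIntegral D (kk A)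

theorem exists_cinv [IsAlgClosed (kk A)] (hD : Igusa.Good D (kk A)) {H : DD A M}
    (hH : serD H = D.tq (kk A)) : IsUnit (evZ H D.c) := by
  have h1 : serD (evZ H D.c) = evZ (D.tq (kk A)) D.c := by rw [ringHom_evZ, hH]
  have hcM : Mn (evZ (D.tq (kk A)) D.c) ((D.κ : ℤ) * (-1)) :=
    HData.mn_evZ (by norm_num) (D.mn_tq (kk A)) D.hc
  have h0 := hcM.ne_zero
  have h2 : (evZ (D.tq (kk A)) D.c)⁻¹ ∈ LK A M := by
    rw [← h1]
    exact inv_mem (serD_mem _)
  have h3 : IntRel (kk A) (jqModC (kk A)) (evZ (D.tq (kk A)) D.c)⁻¹ := by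
    rw [intRel_iff]
    exact Igusa.isIntegral_c_inv D hD
  refine IsUnit.of_mul_eq_one (mkD _ h2 h3) (serD_injective ?_)
  rw [map_mul, map_one, h1, serD_mkD, mul_inv_cancel₀ h0]

end Final

section Main

theorem unif_div {E : Type*} [Field E] {W : ValuationSubring E} {ϖ : E} (h : IsUnif W ϖ) {z : E}
    (hz : z ∈ W) (hz0 : rv W z = 0) : z * ϖ⁻¹ ∈ W := by
  by_cases h0 : z = 0
  · rw [h0, zero_mul]; exact W.zero_mem
  obtain ⟨n, hn⟩ := h.exists_zpow z h0
  rcases Int.le_total 0 n with hn0 | hn0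
  · obtain ⟨m, rfl⟩ := Int.eq_ofNat_of_zero_le hn0
    rw [zpow_natCast, rv_mul hz (pow_mem h.mem m), hz0, zero_mul] at hn
    exact absurd rfl hn
  · obtain ⟨m, hm⟩ := Int.eq_ofNat_of_zero_le (neg_nonneg.mpr hn0)
    obtain rfl : n = -(m : ℤ) := by omega
    rcases m with _ | m
    · rw [Nat.cast_zero, neg_zero, zpow_zero, mul_one, hz0] at hn
      exact absurd rfl hn
    · have h1 := (Fermat.Agent.H23.R.rv_ne_zero_iff.1 hn).2.1
      have h2 : z * ϖ⁻¹ = (z * ϖ ^ (-((m + 1 : ℕ) : ℤ))) * ϖ ^ m := by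
        have := h.ne_zero
        rw [zpow_neg, zpow_natCast, pow_succ]
        field_simp
      rw [h2]
      exact W.mul_mem _ _ h1 (pow_mem h.mem m)

variable {q M : ℕ} [hq : Fact q.Prime] [NeZero M] (hqM : Nat.Coprime q M)
  {A : ValuationSubring Qb} (hA : A.LiesOverPrime q)

theorem vertV (h0 : (q : LF (K0 A) (M * q * q)) ≠ 0) :
    Vert (V hqM (K0 A) hA) (q : LF (K0 A) (M * q * q)) where
  ne_zero := h0
  mem i := natCast_mem _ q
  res i := rv_q_V hqM hA i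
  rk i z hz hz0 := by
    obtain ⟨k, hk⟩ := archV hqM hA i ((q : LF (K0 A) (M * q * q))⁻¹) z hz hz0
    exact ⟨k, by rwa [mul_comm (z ^ k)]⟩
  arch i z := by
    obtain ⟨k, hk⟩ := archV hqM hA i z (q : LF (K0 A) (M * q * q)) (natCast_mem _ q)
      (rv_q_V hqM hA i)
    exact ⟨k, by rwa [mul_comm ((q : LF (K0 A) (M * q * q)) ^ k)]⟩

variable (hL : ∀ (i : Fin 3) (z : LF (K0 A) (M * q * q)) (u : LaurentSeries (kk A)),
      Red A (io hqM (K0 A) i z) u → u ∈ LK A M)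
  (hI : ∀ z ∈ R1 hqM hA, z ∈ intSub (A0 A) (jK (K0 A) (M * q * q)))
  {r : ℕ} [NeZero r] (D : HData r) (hrM : r ∣ M) {S : Finset (kk A)}

/-- `t` -/
def tt0 : R1 hqM hA := ⟨lvl0 (tM D hrM A), intSub_A0_le hqM hA (lvl0_mem (tM_mem D hrM))⟩
/-- `t(q)` -/
def tt1 : R1 hqM hA := ⟨lvl1 (tM D hrM A), intSub_A0_le hqM hA (lvl1_mem (tM_mem D hrM))⟩
/-- `t(q²)` -/
def tt2 : R1 hqM hA := ⟨lvl2 (tM D hrM A), intSub_A0_le hqM hA (lvl2_mem (tM_mem D hrM))⟩
/-- `c` -/
def cR : R1 hqM hA := tt2 hqM hA D hrM - tt1 hqM hA D hrM ^ q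
/-- `c̃` -/
def ctR : R1 hqM hA := tt0 hqM hA D hrM - tt1 hqM hA D hrM ^ q
/-- `π` -/
def piR : R1 hqM hA := tt0 hqM hA D hrM - tt2 hqM hA D hrM
/-- the separating elements -/
def eR (i : Fin 3) : R1 hqM hA := ⟨eF q M A i, intSub_A0_le hqM hA (eF_mem i)⟩

include hA in
theorem qExpand_tq2 : qExpand (kk A) q (qExpand (kk A) q (D.tq (kk A))) =
    D.tq (kk A) ^ q ^ 2 := by
  rw [qExpand_tq hA, map_pow, qExpand_tq hA, ← pow_mul, ← sq]

section Rho

variable {H : DD A M} (hH : serD H = D.tq (kk A))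

include hH

theorem rho0_tt0 : rho hqM hA hL hI 0 (tt0 hqM hA D hrM) = H :=
  rho_eq hqM hA hL hI (by rw [hH]; exact red0_lvl0 hqM (red_eb_tM D hrM))

theorem rho1_tt0 : rho hqM hA hL hI 1 (tt0 hqM hA D hrM) = H :=
  rho_eq hqM hA hL hI (by rw [hH]; exact red1_lvl0 hqM (red_eb_tM D hrM))

theorem rho2_tt0 : rho hqM hA hL hI 2 (tt0 hqM hA D hrM) = H ^ q ^ 2 :=
  rho_eq hqM hA hL hI (by
    rw [map_pow, hH, ← qExpand_tq2 hA D]; exact red2_lvl0 hqM (red_eb_tM D hrM))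

theorem rho_tt1 (i : Fin 3) : rho hqM hA hL hI i (tt1 hqM hA D hrM) = H ^ q := by
  rcases fin3_cases i with rfl | rfl | rfl
  · exact rho_eq hqM hA hL hI (by
      rw [map_pow, hH, ← qExpand_tq hA D]; exact red0_lvl1 hqM (red_eb_tM D hrM))
  · exact rho_eq hqM hA hL hI (by
      rw [map_pow, hH, ← qExpand_tq hA D]; exact red1_lvl1 hqM hA (red_eb_tM D hrM))
  · exact rho_eq hqM hA hL hI (by
      rw [map_pow, hH, ← qExpand_tq hA D]; exact red2_lvl1 hqM (red_eb_tM D hrM))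

theorem rho0_tt2 : rho hqM hA hL hI 0 (tt2 hqM hA D hrM) = H ^ q ^ 2 :=
  rho_eq hqM hA hL hI (by
    rw [map_pow, hH, ← qExpand_tq2 hA D]; exact red0_lvl2 hqM (red_eb_tM D hrM))

theorem rho1_tt2 : rho hqM hA hL hI 1 (tt2 hqM hA D hrM) = H :=
  rho_eq hqM hA hL hI (by rw [hH]; exact red1_lvl2 hqM hA (red_eb_tM D hrM))

theorem rho2_tt2 : rho hqM hA hL hI 2 (tt2 hqM hA D hrM) = H :=
  rho_eq hqM hA hL hI (by rw [hH]; exact red2_lvl2 hqM (red_eb_tM D hrM))

theorem rho0_c : rho hqM hA hL hI 0 (cR hqM hA D hrM) = 0 := by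
  rw [cR, map_sub, map_pow, rho0_tt2 hqM hA hL hI D hrM hH, rho_tt1 hqM hA hL hI D hrM hH,
    ← pow_mul, ← sq, sub_self]

theorem rho1_c : rho hqM hA hL hI 1 (cR hqM hA D hrM) = H - H ^ q ^ 2 := by
  rw [cR, map_sub, map_pow, rho1_tt2 hqM hA hL hI D hrM hH, rho_tt1 hqM hA hL hI D hrM hH,
    ← pow_mul, ← sq]

theorem rho1_ct : rho hqM hA hL hI 1 (ctR hqM hA D hrM) = H - H ^ q ^ 2 := by
  rw [ctR, map_sub, map_pow, rho1_tt0 hqM hA hL hI D hrM hH, rho_tt1 hqM hA hL hI D hrM hH,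
    ← pow_mul, ← sq]

theorem rho2_ct : rho hqM hA hL hI 2 (ctR hqM hA D hrM) = 0 := by
  rw [ctR, map_sub, map_pow, rho2_tt0 hqM hA hL hI D hrM hH, rho_tt1 hqM hA hL hI D hrM hH,
    ← pow_mul, ← sq, sub_self]

theorem rho0_pi : rho hqM hA hL hI 0 (piR hqM hA D hrM) = H - H ^ q ^ 2 := by
  rw [piR, map_sub, rho0_tt0 hqM hA hL hI D hrM hH, rho0_tt2 hqM hA hL hI D hrM hH]

theorem rho1_pi : rho hqM hA hL hI 1 (piR hqM hA D hrM) = 0 := by
  rw [piR, map_sub, rho1_tt0 hqM hA hL hI D hrM hH, rho1_tt2 hqM hA hL hI D hrM hH, sub_self]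

end Rho

theorem xi_ne : D.tq (kk A) - D.tq (kk A) ^ q ^ 2 ≠ 0 := by
  intro h
  have h1 := D.mn_tq (kk A)
  have h2 := h1.pow (q ^ 2)
  rw [← sub_eq_zero.mp h] at h2
  have h3 := h1.order.symm.trans h2.order
  have h4 := hq.out.two_le
  have h5 : (4 : ℤ) ≤ ((q ^ 2 : ℕ) : ℤ) := by exact_mod_cast (by nlinarith : 4 ≤ q ^ 2)
  omega

theorem theta_ne (hS : SSData D q (kk A) S) : -theta (D.tq (kk A)) ^ (q - 1) ≠ 0 := by
  have hcM : Mn (evZ (D.tq (kk A)) D.c) ((D.κ : ℤ) * (-1)) :=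
    HData.mn_evZ (by norm_num) (D.mn_tq (kk A)) D.hc
  rw [neg_ne_zero]
  apply left_ne_zero_of_mul (b := (∏ s ∈ S, (D.tq (kk A) - HahnSeries.C s)) ^ 2)
  rw [hS.theta]
  exact pow_ne_zero _ hcM.ne_zero

include hA in
theorem red_pow : Red A (io hqM (K0 A) 1 ((piR hqM hA D hrM : LF (K0 A) (M * q * q)) ^ (q - 1) *
    (q : LF (K0 A) (M * q * q))⁻¹)) (-theta (D.tq (kk A)) ^ (q - 1)) := by
  haveI := charP_kk (q := q) hA
  have h1 : io hqM (K0 A) 1 (piR hqM hA D hrM : LF (K0 A) (M * q * q)) =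
      D.tq Qb - twist (zt Qb hqM) (D.tq Qb) := by
    change io hqM (K0 A) 1 (lvl0 (tM D hrM A) - lvl2 (tM D hrM A)) = _
    rw [map_sub, io1_lvl0, io1_lvl2, eb_tM]
  have h2 := Igusa.red_twist_tq (A := A) q (Nat.cast_ne_zero.mpr hq.out.ne_zero)
    (zt_prim Qb hqM) D
  have h3 : ((q : ℕ) : LaurentSeries Qb)⁻¹ = HahnSeries.C ((q : Qb)⁻¹) := by
    rw [map_inv₀, map_natCast]
  rw [map_mul, map_pow, map_inv₀, map_natCast, h1, h3, mul_comm]
  exact h2

/-- the point of `DD` below a supersingular point -/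
theorem ss_point {H J : DD A M} (hH : serD H = D.tq (kk A)) (hJ : serD J = jqModC (kk A))
    (hS : SSData D q (kk A) S) (P : Ideal (DD A M)) [hP : P.IsPrime]
    (hT : evZ J (uT q) ∈ P) : ∃ s ∈ S, H - algebraMap (kk A) (DD A M) s ∈ P := by
  have h1 : evZ J (uT q) * evZ H (D.W 1) ^ (q - 1) =
      (∏ s ∈ S, (H - algebraMap (kk A) (DD A M) s)) ^ 12 := by
    apply serD_injective
    rw [map_mul, map_pow, map_pow, map_prod, ringHom_evZ, ringHom_evZ, hH, hJ, hS.T]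
    congr 1
    refine Finset.prod_congr rfl fun s _ => ?_
    rw [map_sub, hH, serD_algebraMap]
  have h2 : (∏ s ∈ S, (H - algebraMap (kk A) (DD A M) s)) ^ 12 ∈ P := by
    rw [← h1]; exact P.mul_mem_right _ hT
  obtain ⟨s, hs, hsP⟩ := (Ideal.IsPrime.prod_mem_iff (hp := hP)).mp (hP.mem_of_pow_mem _ h2)
  exact ⟨s, hs, hsP⟩

include hA in
theorem xi_mem {H : DD A M} {s : kk A} (hs : s ^ q ^ 2 = s) (P : Ideal (DD A M))
    (hsP : H - algebraMap (kk A) (DD A M) s ∈ P) : H - H ^ q ^ 2 ∈ P := by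
  haveI := charP_DD (q := q) (M := M) hA
  have h1 : (H - algebraMap (kk A) (DD A M) s) ^ q ^ 2 =
      H ^ q ^ 2 - algebraMap (kk A) (DD A M) s := by
    rw [sub_pow_char_pow, ← map_pow, hs]
  have h2 : H - H ^ q ^ 2 = (H - algebraMap (kk A) (DD A M) s) -
      (H - algebraMap (kk A) (DD A M) s) ^ q ^ 2 := by
    rw [h1]; ring
  rw [h2]
  exact P.sub_mem hsP (Ideal.pow_mem_of_mem P hsP _ (pow_pos hq.out.pos 2))

theorem aeval_not_mem {H : DD A M} {s : kk A} (P : Ideal (DD A M)) [hP : P.IsPrime]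
    (hsP : H - algebraMap (kk A) (DD A M) s ∈ P) {G : (kk A)[X]} (hG : G.eval s ≠ 0) :
    aeval H G ∉ P := by
  intro h
  have h1 : H - algebraMap (kk A) (DD A M) s ∣ aeval H G -
      aeval (algebraMap (kk A) (DD A M) s) G := by
    have := sub_dvd_eval_sub H (algebraMap (kk A) (DD A M) s)
      (G.map (algebraMap (kk A) (DD A M)))
    rwa [eval_map_algebraMap, eval_map_algebraMap] at this
  rw [aeval_algebraMap_apply_eq_algebraMap_eval] at h1
  have h2 : aeval H G - algebraMap (kk A) (DD A M) (G.eval s) ∈ P := P.mem_of_dvd h1 hsP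
  have h3 : algebraMap (kk A) (DD A M) (G.eval s) ∈ P := by
    have := P.sub_mem h h2
    rwa [sub_sub_cancel] at this
  exact hP.ne_top (Ideal.eq_top_of_isUnit_mem _ h3 ((isUnit_iff_ne_zero.mpr hG).map _))

theorem q_mem : (q : LF (K0 A) (M * q * q)) ∈ R1 hqM hA := natCast_mem _ q

theorem q_inv_mem : (q : LF (K0 A) (M * q * q))⁻¹ ∈
    intSub (K0 A) (jK (K0 A) (M * q * q)) := by
  have h1 : algebraMap (K0 A) (LF (K0 A) (M * q * q)) ((q : K0 A)⁻¹) ∈
      intSub (K0 A) (jK (K0 A) (M * q * q)) := algebraMap_mem_intSub _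
  rwa [map_inv₀, map_natCast] at h1

theorem exists_locOne [IsAlgClosed (kk A)] (hG : GoodLvl q M) (hr : ((r : ℕ) : kk A) ≠ 0)
    (hS : SSData D q (kk A) S) (hD : Igusa.Good D (kk A))
    (hU0 : IsUnif (V hqM (K0 A) hA 0) (q : LF (K0 A) (M * q * q)))
    (hU2 : IsUnif (V hqM (K0 A) hA 2) (q : LF (K0 A) (M * q * q)))
    (hU1 : ∀ π : LF (K0 A) (M * q * q),
      rv (V hqM (K0 A) hA 1) (π ^ (q - 1) * (q : LF (K0 A) (M * q * q))⁻¹) ≠ 0 →
      ∀ z ∈ V hqM (K0 A) hA 1, rv (V hqM (K0 A) hA 1) z = 0 → z * π⁻¹ ∈ V hqM (K0 A) hA 1) :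
    ∃ m₁ m₂ u, LocOne (V hqM (K0 A) hA) (q : LF (K0 A) (M * q * q))
      (intSub (K0 A) (jK (K0 A) (M * q * q))) (DD A M) (rho hqM hA hL hI) (q - 1)
      (eR hqM hA) (cR hqM hA D hrM) (ctR hqM hA D hrM) (piR hqM hA D hrM) m₁ m₂ u := by
  classical
  have hck := charP_kk (q := q) hA
  obtain ⟨H, hH⟩ := exists_H D hrM hr
  obtain ⟨J, hJ⟩ := exists_J (A := A) (M := M)
  obtain ⟨G, hG1, hG2⟩ := exists_cofactor q S hS.frob2
  have hsurj : Function.Surjective (rho hqM hA hL hI 1) := fun y => by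
    obtain ⟨a, -, ha⟩ := lift01 hqM hA hL hI hG y
    exact ⟨a, ha⟩
  obtain ⟨m₁, hm₁⟩ := hsurj ((∏ s ∈ S, (H - algebraMap (kk A) (DD A M) s)) ^ 2)
  obtain ⟨m₂, hm₂⟩ := hsurj (-(evZ H D.c) ^ (q - 1))
  have hker := rho_eq_zero_iff hqM hA hL hI
  have hV := vertV hqM hA hU0.ne_zero
  have hrp := red_pow hqM hA D hrM
  have hprod : serD (∏ s ∈ S, (H - algebraMap (kk A) (DD A M) s)) =
      ∏ s ∈ S, (D.tq (kk A) - HahnSeries.C s) := by
    rw [map_prod]
    refine Finset.prod_congr rfl fun s _ => ?_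
    rw [map_sub, hH, serD_algebraMap]
  have hPi : (piR hqM hA D hrM : LF (K0 A) (M * q * q)) ^ (q - 1) *
      (q : LF (K0 A) (M * q * q))⁻¹ ∈ V hqM (K0 A) hA 1 := (redV hqM hA 1).mem hrp
  have hc0 : rv (V hqM (K0 A) hA 0) (cR hqM hA D hrM : LF (K0 A) (M * q * q)) = 0 :=
    (hker 0 _).mp (rho0_c hqM hA hL hI D hrM hH)
  have hct0 : rv (V hqM (K0 A) hA 2) (ctR hqM hA D hrM : LF (K0 A) (M * q * q)) = 0 :=
    (hker 2 _).mp (rho2_ct hqM hA hL hI D hrM hH)
  -- the element `u`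
  have humem : (cR hqM hA D hrM : LF (K0 A) (M * q * q)) * ctR hqM hA D hrM *
      (piR hqM hA D hrM : LF (K0 A) (M * q * q)) ^ (q - 1) *
      (q : LF (K0 A) (M * q * q))⁻¹ ∈ R1 hqM hA := by
    refine ⟨mul_mem (mul_mem (mul_mem (cR hqM hA D hrM).2.1 (ctR hqM hA D hrM).2.1)
      (pow_mem (piR hqM hA D hrM).2.1 _)) (q_inv_mem), fun i => ?_⟩
    rcases fin3_cases i with rfl | rfl | rfl
    · have h1 := unif_div hU0 ((cR hqM hA D hrM).2.2 0) hc0
      have h2 := (V hqM (K0 A) hA 0).mul_mem _ _ h1 ((V hqM (K0 A) hA 0).mul_mem _ _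
        ((ctR hqM hA D hrM).2.2 0) (pow_mem ((piR hqM hA D hrM).2.2 0) (q - 1)))
      convert h2 using 1
      ring
    · have h2 := (V hqM (K0 A) hA 1).mul_mem _ _ ((V hqM (K0 A) hA 1).mul_mem _ _
        ((cR hqM hA D hrM).2.2 1) ((ctR hqM hA D hrM).2.2 1)) hPi
      convert h2 using 1
      ring
    · have h1 := unif_div hU2 ((ctR hqM hA D hrM).2.2 2) hct0
      have h2 := (V hqM (K0 A) hA 2).mul_mem _ _ h1 ((V hqM (K0 A) hA 2).mul_mem _ _
        ((cR hqM hA D hrM).2.2 2) (pow_mem ((piR hqM hA D hrM).2.2 2) (q - 1)))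
      convert h2 using 1
      ring
  obtain ⟨u, hu⟩ : ∃ u : R1 hqM hA, (u : LF (K0 A) (M * q * q)) =
      (cR hqM hA D hrM : LF (K0 A) (M * q * q)) * ctR hqM hA D hrM *
      (piR hqM hA D hrM : LF (K0 A) (M * q * q)) ^ (q - 1) *
      (q : LF (K0 A) (M * q * q))⁻¹ := ⟨⟨_, humem⟩, rfl⟩
  have hρu : rho hqM hA hL hI 1 u = -((aeval H G) ^ 2 * (evZ H D.c) ^ (q - 1)) := by
    apply rho_eq
    have h1 := ((red_rho hqM hA hL hI 1 (cR hqM hA D hrM)).mul
      (red_rho hqM hA hL hI 1 (ctR hqM hA D hrM))).mul hrp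
    rw [← map_mul, ← map_mul, ← mul_assoc, ← hu] at h1
    convert h1 using 1
    have h2 : H - H ^ q ^ 2 = (∏ s ∈ S, (H - algebraMap (kk A) (DD A M) s)) * aeval H G := by
      have h3 := congrArg (aeval H) hG1
      rw [map_sub, map_pow, aeval_X, map_mul, map_prod] at h3
      rw [h3]
      congr 1
      refine Finset.prod_congr rfl fun s _ => ?_
      rw [map_sub, aeval_X, aeval_C]
    rw [rho1_c hqM hA hL hI D hrM hH, rho1_ct hqM hA hL hI D hrM hH, h2, map_mul, hprod, map_neg,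
      map_mul, map_pow, map_pow, ringHom_evZ, hH, ← hS.theta]
    ring
  refine ⟨m₁, m₂, u, ?_⟩
  exact
    { isVert := hV
      inv_mem := q_inv_mem
      mem := q_mem hqM hA
      arch := fun l z y hy hy0 => archV hqM hA l z y hy hy0
      ker := hker
      lift01 := lift01 hqM hA hL hI hG
      lift21 := lift21 hqM hA hL hI hG
      e_zero := fun i l hl => by
        rw [hker]
        have h := red_eF hqM hA i l
        rw [if_neg hl] at h
        exact ((redV hqM hA l).rv_eq_zero_iff h).mpr rfl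
      c_zero := rho0_c hqM hA hL hI D hrM hH
      ct_zero := rho2_ct hqM hA hL hI D hrM hH
      π_zero := rho1_pi hqM hA hL hI D hrM hH
      π_ne := by
        intro h0
        have h1 : piR hqM hA D hrM = 0 := Subtype.ext h0
        have h2 := rho0_pi hqM hA hL hI D hrM hH
        rw [h1, map_zero] at h2
        have h3 := congrArg serD h2
        rw [map_zero, map_sub, map_pow, hH] at h3
        exact xi_ne D h3.symm
      unif0 := fun z hz hz0 => unif_div hU0 hz hz0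
      unif2 := fun z hz hz0 => unif_div hU2 hz hz0
      unif1 := hU1 _ (((redV hqM hA 1).rv_ne_zero_iff hrp).mpr (theta_ne D hS))
      n_ne := by
        have := hq.out.two_le
        omega
      pow_mem_V := hPi
      pow_eq := by
        refine ((redV hqM hA 1).rv_eq_iff ((redV hqM hA 1).mul (red_rho hqM hA hL hI 1 m₁) hrp)
          (red_rho hqM hA hL hI 1 m₂)).mpr ?_
        rw [hm₁, hm₂, map_pow, hprod, map_neg, map_pow, ringHom_evZ, hH, ← hS.theta]
        ring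
      m₂_unit := by
        rw [hm₂]
        exact ((exists_cinv D hD hH).pow _).neg
      u_eq := hu
      ss := by
        intro P hP i hi
        have h1 : rho hqM hA hL hI i (eR hqM hA i) = (evZ J (uT q)) ^ eN q i := by
          apply rho_eq
          have h2 := red_eF hqM hA i i
          rw [if_pos rfl] at h2
          rw [map_pow, ringHom_evZ, hJ]
          exact h2
        rw [h1] at hi
        obtain ⟨s, hs, hsP⟩ := ss_point D hH hJ hS P (hP.mem_of_pow_mem _ hi)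
        have h2 := xi_mem hA (hS.frob2 s hs) P hsP
        refine ⟨?_, ?_, ?_⟩
        · rw [rho1_c hqM hA hL hI D hrM hH]; exact h2
        · rw [rho1_ct hqM hA hL hI D hrM hH]; exact h2
        · rw [hρu, Ideal.neg_mem_iff]
          intro h3
          rcases hP.mem_or_mem h3 with h4 | h4
          · exact aeval_not_mem P hsP (hG2 s hs) (hP.mem_of_pow_mem _ h4)
          · exact hP.ne_top (Ideal.eq_top_of_isUnit_mem _ (hP.mem_of_pow_mem _ h4)
              (exists_cinv D hD hH)) }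

end Main

end Fermat.Agent.H23.R.Loc1
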