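import Mathlib
import Fermat.Agent.RV.LocalUfd

/-!
# Chart 1: the abstract local analysis
-/

set_option autoImplicit false
set_option linter.unusedSectionVars false

noncomputable section

namespace Fermat.Agent.H26.RV

open Fermat.Agent.H23.R

/-- The data of chart 1. -/
structure LocOne {F : Type*} [Field F] (V : Fin 3 → ValuationSubring F) (ϖ : F) (S : Subring F)
    (D : Type*) [CommRing D] (ρ : Fin 3 → ((S ⊓ vert V : Subring F) →+* D)) (n : ℕ)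
    (e : Fin 3 → (S ⊓ vert V : Subring F)) (c ct π m₁ m₂ u : (S ⊓ vert V : Subring F)) : Prop where
  isVert : Vert V ϖ
  inv_mem : ϖ⁻¹ ∈ S
  mem : ϖ ∈ S ⊓ vert V
  arch : ∀ l (z y : F), y ∈ V l → rv (V l) y = 0 → ∃ k : ℕ, z * y ^ k ∈ V l
  ker : ∀ i (a : (S ⊓ vert V : Subring F)), ρ i a = 0 ↔ rv (V i) a = 0
  lift01 : ∀ y, ∃ a, ρ 0 a = y ∧ ρ 1 a = y
  lift21 : ∀ y, ∃ a, ρ 2 a = y ∧ ρ 1 a = y
  e_zero : ∀ i l, l ≠ i → ρ l (e i) = 0
  c_zero : ρ 0 c = 0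
  ct_zero : ρ 2 ct = 0
  π_zero : ρ 1 π = 0
  π_ne : (π : F) ≠ 0
  unif0 : ∀ z ∈ V 0, rv (V 0) z = 0 → z * ϖ⁻¹ ∈ V 0
  unif2 : ∀ z ∈ V 2, rv (V 2) z = 0 → z * ϖ⁻¹ ∈ V 2
  unif1 : ∀ z ∈ V 1, rv (V 1) z = 0 → z * (π : F)⁻¹ ∈ V 1
  n_ne : n ≠ 0
  pow_mem_V : (π : F) ^ n * ϖ⁻¹ ∈ V 1
  pow_eq : rv (V 1) ((m₁ : F) * ((π : F) ^ n * ϖ⁻¹)) = rv (V 1) m₂
  m₂_unit : IsUnit (ρ 1 m₂)
  u_eq : (u : F) = c * ct * (π : F) ^ n * ϖ⁻¹
  ss : ∀ (P : Ideal D) [P.IsPrime] (i : Fin 3), ρ i (e i) ∈ P →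
    ρ 1 c ∈ P ∧ ρ 1 ct ∈ P ∧ ρ 1 u ∉ P

namespace LocOne

variable {F : Type*} [Field F] {V : Fin 3 → ValuationSubring F} {ϖ : F} {S : Subring F}
  {D : Type*} [CommRing D] {ρ : Fin 3 → ((S ⊓ vert V : Subring F) →+* D)} {n : ℕ}
  {e : Fin 3 → (S ⊓ vert V : Subring F)} {c ct π m₁ m₂ u : (S ⊓ vert V : Subring F)}
  (h : LocOne V ϖ S D ρ n e c ct π m₁ m₂ u)

include h

theorem ne_zero : ϖ ≠ 0 := h.isVert.ne_zero

theorem surj (i : Fin 3) : Function.Surjective (ρ i) := by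
  intro y
  fin_cases i
  · obtain ⟨a, ha, -⟩ := h.lift01 y; exact ⟨a, ha⟩
  · obtain ⟨a, -, ha⟩ := h.lift01 y; exact ⟨a, ha⟩
  · obtain ⟨a, ha, -⟩ := h.lift21 y; exact ⟨a, ha⟩

theorem rv_c : rv (V 0) c = 0 := (h.ker 0 c).mp h.c_zero

theorem rv_ct : rv (V 2) ct = 0 := (h.ker 2 ct).mp h.ct_zero

theorem rv_π : rv (V 1) π = 0 := (h.ker 1 π).mp h.π_zero

theorem c_mem : (c : F) * ϖ⁻¹ ∈ V 0 := h.unif0 _ (c.2.2 0) h.rv_c

theorem ct_mem : (ct : F) * ϖ⁻¹ ∈ V 2 := h.unif2 _ (ct.2.2 2) h.rv_ct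

/-- the kernel of `ρ i` is in `s`: membership is detected by `ρ i`. -/
theorem mem_iff_map {s : Ideal (S ⊓ vert V : Subring F)} {i : Fin 3}
    (hker : ∀ a : (S ⊓ vert V : Subring F), rv (V i) a = 0 → a ∈ s)
    (a : (S ⊓ vert V : Subring F)) : ρ i a ∈ s.map (ρ i) ↔ a ∈ s := by
  constructor
  · intro ha
    obtain ⟨b, hb, hab⟩ := (Ideal.mem_map_iff_of_surjective (ρ i) (h.surj i)).mp ha
    have h1 : a - b ∈ s := hker _ ((h.ker i _).mp (by rw [map_sub, hab, sub_self]))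
    have : a = (a - b) + b := by ring
    rw [this]
    exact s.add_mem h1 hb
  · exact fun ha => Ideal.mem_map_of_mem _ ha

theorem map_isPrime {s : Ideal (S ⊓ vert V : Subring F)} [hs : s.IsPrime] {i : Fin 3}
    (hker : ∀ a : (S ⊓ vert V : Subring F), rv (V i) a = 0 → a ∈ s) :
    (s.map (ρ i)).IsPrime := by
  refine Ideal.map_isPrime_of_surjective (h.surj i) fun a ha => ?_
  rw [RingHom.mem_ker, h.ker] at ha
  exact hker a ha

/-- the divisibility statement for `i = 0`. -/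
theorem div0 (z : (S ⊓ vert V : Subring F)) (hz : rv (V 0) z = 0) :
    (z : F) * (ct * (π : F) ^ n) * ϖ⁻¹ ∈ S ⊓ vert V := by
  refine ⟨S.mul_mem (S.mul_mem z.2.1 (S.mul_mem ct.2.1 (pow_mem π.2.1 n))) h.inv_mem,
    fun l => ?_⟩
  fin_cases l
  · have : (z : F) * (ct * (π : F) ^ n) * ϖ⁻¹ = (z * ϖ⁻¹) * (ct * (π : F) ^ n) := by ring
    rw [this]
    exact (V 0).mul_mem _ _ (h.unif0 _ (z.2.2 0) hz)
      ((V 0).mul_mem _ _ (ct.2.2 0) (pow_mem (π.2.2 0) n))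
  · have : (z : F) * (ct * (π : F) ^ n) * ϖ⁻¹ = (z * ct) * ((π : F) ^ n * ϖ⁻¹) := by ring
    rw [this]
    exact (V 1).mul_mem _ _ ((V 1).mul_mem _ _ (z.2.2 1) (ct.2.2 1)) h.pow_mem_V
  · have : (z : F) * (ct * (π : F) ^ n) * ϖ⁻¹ = (z * (π : F) ^ n) * (ct * ϖ⁻¹) := by ring
    rw [this]
    exact (V 2).mul_mem _ _ ((V 2).mul_mem _ _ (z.2.2 2) (pow_mem (π.2.2 2) n)) h.ct_mem

/-- the divisibility statement for `i = 2`. -/
theorem div2 (z : (S ⊓ vert V : Subring F)) (hz : rv (V 2) z = 0) :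
    (z : F) * (c * (π : F) ^ n) * ϖ⁻¹ ∈ S ⊓ vert V := by
  refine ⟨S.mul_mem (S.mul_mem z.2.1 (S.mul_mem c.2.1 (pow_mem π.2.1 n))) h.inv_mem,
    fun l => ?_⟩
  fin_cases l
  · have : (z : F) * (c * (π : F) ^ n) * ϖ⁻¹ = (z * (π : F) ^ n) * (c * ϖ⁻¹) := by ring
    rw [this]
    exact (V 0).mul_mem _ _ ((V 0).mul_mem _ _ (z.2.2 0) (pow_mem (π.2.2 0) n)) h.c_mem
  · have : (z : F) * (c * (π : F) ^ n) * ϖ⁻¹ = (z * c) * ((π : F) ^ n * ϖ⁻¹) := by ring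
    rw [this]
    exact (V 1).mul_mem _ _ ((V 1).mul_mem _ _ (z.2.2 1) (c.2.2 1)) h.pow_mem_V
  · have : (z : F) * (c * (π : F) ^ n) * ϖ⁻¹ = (z * ϖ⁻¹) * (c * (π : F) ^ n) := by ring
    rw [this]
    exact (V 2).mul_mem _ _ (h.unif2 _ (z.2.2 2) hz)
      ((V 2).mul_mem _ _ (c.2.2 2) (pow_mem (π.2.2 2) n))

/-- the divisibility statement for `i = 1`. -/
theorem div1 {k : ℕ} (hk : n = k + 1) (z : (S ⊓ vert V : Subring F))
    (hz : rv (V 1) z = 0) :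
    (z : F) * (c * ct * (π : F) ^ k) * ϖ⁻¹ ∈ S ⊓ vert V := by
  refine ⟨S.mul_mem (S.mul_mem z.2.1 (S.mul_mem (S.mul_mem c.2.1 ct.2.1)
    (pow_mem π.2.1 k))) h.inv_mem, fun l => ?_⟩
  fin_cases l
  · have : (z : F) * (c * ct * (π : F) ^ k) * ϖ⁻¹ = (z * (ct * (π : F) ^ k)) * (c * ϖ⁻¹) := by
      ring
    rw [this]
    exact (V 0).mul_mem _ _ ((V 0).mul_mem _ _ (z.2.2 0)
      ((V 0).mul_mem _ _ (ct.2.2 0) (pow_mem (π.2.2 0) k))) h.c_mem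
  · have hπ := h.π_ne
    have : (z : F) * (c * ct * (π : F) ^ k) * ϖ⁻¹ =
        (z * (π : F)⁻¹) * (c * ct) * ((π : F) ^ n * ϖ⁻¹) := by
      rw [hk, pow_succ]; field_simp
    rw [this]
    exact (V 1).mul_mem _ _ ((V 1).mul_mem _ _ (h.unif1 _ (z.2.2 1) hz)
      ((V 1).mul_mem _ _ (c.2.2 1) (ct.2.2 1))) h.pow_mem_V
  · have : (z : F) * (c * ct * (π : F) ^ k) * ϖ⁻¹ = (z * (c * (π : F) ^ k)) * (ct * ϖ⁻¹) := by
      ring
    rw [this]
    exact (V 2).mul_mem _ _ ((V 2).mul_mem _ _ (z.2.2 2)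
      ((V 2).mul_mem _ _ (c.2.2 2) (pow_mem (π.2.2 2) k))) h.ct_mem

variable [IsDedekindDomain D] [IsNoetherianRing (S ⊓ vert V : Subring F)]

/-- Points lying on all the components. -/
theorem common (P : Ideal D) [hP : P.IsPrime] (hc : ρ 1 c ∈ P) (hct : ρ 1 ct ∈ P)
    (hu : ρ 1 u ∉ P) :
    (∀ l, ∀ a : (S ⊓ vert V : Subring F), rv (V l) a = 0 → a ∈ P.comap (ρ 1)) ∧
      UniqueFactorizationMonoid (locSub _ (P.comap (ρ 1))) := by
  have hu' : u ∉ P.comap (ρ 1) := hu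
  have hϖ := h.ne_zero
  obtain ⟨k, hk⟩ := Nat.exists_eq_succ_of_ne_zero h.n_ne
  have h0 := ufd_common (s := P.comap (ρ 1)) (i := 0) (ρ 0) (h.surj 0) (h.ker 0)
    (c := (c : F)) (c' := ct * (π : F) ^ n) c.2 (by exact hc) h.rv_c hu'
    (by rw [h.u_eq]; field_simp) hϖ h.div0
  have h2 := ufd_common (s := P.comap (ρ 1)) (i := 2) (ρ 2) (h.surj 2) (h.ker 2)
    (c := (ct : F)) (c' := c * (π : F) ^ n) ct.2 (by exact hct) h.rv_ct hu'
    (by rw [h.u_eq]; field_simp) hϖ h.div2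
  have h1 := ufd_common (s := P.comap (ρ 1)) (i := 1) (ρ 1) (h.surj 1) (h.ker 1)
    (c := (π : F)) (c' := c * ct * (π : F) ^ k) π.2 (by
      change ρ 1 π ∈ P
      rw [h.π_zero]; exact P.zero_mem) h.rv_π hu'
    (by rw [h.u_eq, hk, pow_succ]; field_simp) hϖ (h.div1 hk)
  refine ⟨fun l => ?_, h0.2⟩
  fin_cases l
  · exact h0.1
  · exact h1.1
  · exact h2.1

/-- all the preimages of a supersingular point agree. -/
theorem comap_eq (P : Ideal D) [hP : P.IsPrime] (hc : ρ 1 c ∈ P) (hct : ρ 1 ct ∈ P)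
    (hu : ρ 1 u ∉ P) (i : Fin 3) : P.comap (ρ i) = P.comap (ρ 1) := by
  have key := (h.common P hc hct hu).1
  fin_cases i
  · ext z
    change ρ 0 z ∈ P ↔ ρ 1 z ∈ P
    obtain ⟨a, ha0, ha1⟩ := h.lift01 (ρ 0 z)
    have h1 : z - a ∈ P.comap (ρ 1) := key 0 _ ((h.ker 0 _).mp (by rw [map_sub, ha0, sub_self]))
    rw [Ideal.mem_comap, map_sub, ha1] at h1
    constructor
    · intro h2
      have := P.add_mem h1 h2
      rwa [sub_add_cancel] at this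
    · intro h2
      have := P.sub_mem h2 h1
      rwa [sub_sub_cancel] at this
  · rfl
  · ext z
    change ρ 2 z ∈ P ↔ ρ 1 z ∈ P
    obtain ⟨a, ha0, ha1⟩ := h.lift21 (ρ 2 z)
    have h1 : z - a ∈ P.comap (ρ 1) := key 2 _ ((h.ker 2 _).mp (by rw [map_sub, ha0, sub_self]))
    rw [Ideal.mem_comap, map_sub, ha1] at h1
    constructor
    · intro h2
      have := P.add_mem h1 h2
      rwa [sub_add_cancel] at this
    · intro h2
      have := P.sub_mem h2 h1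
      rwa [sub_sub_cancel] at this

/-- the case `e i ∈ s`. -/
theorem of_mem {s : Ideal (S ⊓ vert V : Subring F)} [hs : s.IsPrime] {i : Fin 3}
    (hker : ∀ a : (S ⊓ vert V : Subring F), rv (V i) a = 0 → a ∈ s) (he : e i ∈ s) :
    (∀ l, ∀ a : (S ⊓ vert V : Subring F), rv (V l) a = 0 → a ∈ s) ∧
      UniqueFactorizationMonoid (locSub _ s) := by
  haveI := h.map_isPrime hker
  obtain ⟨hc, hct, hu⟩ := h.ss (s.map (ρ i)) i (Ideal.mem_map_of_mem _ he)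
  have h1 : s = (s.map (ρ i)).comap (ρ 1) := by
    rw [← h.comap_eq _ hc hct hu i]
    ext z
    rw [Ideal.mem_comap, h.mem_iff_map hker]
  have h2 := h.common _ hc hct hu
  obtain ⟨t, ht⟩ : ∃ t, t = (s.map (ρ i)).comap (ρ 1) := ⟨_, rfl⟩
  have h3 : s = t := h1.trans ht.symm
  haveI : t.IsPrime := h3 ▸ hs
  have h4 : (∀ l, ∀ a : (S ⊓ vert V : Subring F), rv (V l) a = 0 → a ∈ t) ∧
      UniqueFactorizationMonoid (locSub _ t) := by
    subst ht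
    exact h2
  subst h3
  exact h4

/-- the case `e i ∉ s`. -/
theorem of_not_mem {s : Ideal (S ⊓ vert V : Subring F)} [hs : s.IsPrime] {i : Fin 3}
    (hker : ∀ a : (S ⊓ vert V : Subring F), rv (V i) a = 0 → a ∈ s) (he : e i ∉ s) :
    UniqueFactorizationMonoid (locSub _ s) := by
  have hϖ := h.ne_zero
  have hsep : Sep V S s i := fun l hl => ⟨e i, (h.ker l _).mp (h.e_zero i l hl), he⟩
  have h1s : (1 : (S ⊓ vert V : Subring F)) ∉ s :=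
    fun h => hs.ne_top ((Ideal.eq_top_iff_one s).mpr h)
  have hunr : ∀ i : Fin 3, Sep V S s i →
      (∀ a : (S ⊓ vert V : Subring F), rv (V i) a = 0 → a ∈ s) →
      (∀ z ∈ V i, rv (V i) z = 0 → z * ϖ⁻¹ ∈ V i) →
      UniqueFactorizationMonoid (locSub _ s) := by
    intro i hsep hker hunif
    refine hsep.ufd h.inv_mem h.arch hker (ρ i) (h.surj i) (h.ker i) (t := ϖ) (e := 1)
      one_ne_zero (le_locSub _ s h.mem) hϖ ?_ hunif hϖ ?_ ?_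
    · exact h.isVert.res i
    · rw [pow_one, mul_inv_cancel₀ hϖ]; exact (V i).one_mem
    · rw [pow_one, mul_inv_cancel₀ hϖ]; exact Subring.one_mem _
  have hi : i = 0 ∨ i = 1 ∨ i = 2 := by fin_cases i <;> simp
  rcases hi with rfl | rfl | rfl
  · exact hunr 0 hsep hker h.unif0
  · -- the ramified component
    have hπ := h.π_ne
    refine hsep.ufd h.inv_mem h.arch hker (ρ 1) (h.surj 1) (h.ker 1) (t := (π : F)) (e := n)
      h.n_ne (le_locSub _ s π.2) hπ h.rv_π h.unif1 hϖ h.pow_mem_V ?_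
    have h1 : (π : F) ^ n * ϖ⁻¹ ∈ locSub _ s := by
      refine hsep.mem_locSub h.arch h1s ?_ h.pow_mem_V
      change (1 : F) * _ ∈ S
      rw [one_mul]
      exact S.mul_mem (pow_mem π.2.1 n) h.inv_mem
    obtain ⟨d, hd, hdp⟩ := h1
    have h2 : ρ 1 (m₁ * ⟨_, hdp⟩) = ρ 1 (d * m₂) := by
      rw [← sub_eq_zero, ← map_sub, h.ker]
      change rv (V 1) ((m₁ : F) * ((d : F) * ((π : F) ^ n * ϖ⁻¹)) - (d : F) * m₂) = 0
      have h3 : (m₁ : F) * ((d : F) * ((π : F) ^ n * ϖ⁻¹)) =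
          (d : F) * ((m₁ : F) * ((π : F) ^ n * ϖ⁻¹)) := by ring
      have h4 : (m₁ : F) * ((π : F) ^ n * ϖ⁻¹) ∈ V 1 := (V 1).mul_mem _ _ (m₁.2.2 1) h.pow_mem_V
      rw [h3, rv_sub ((V 1).mul_mem _ _ (d.2.2 1) h4) ((V 1).mul_mem _ _ (d.2.2 1) (m₂.2.2 1)),
        rv_mul (d.2.2 1) h4, rv_mul (d.2.2 1) (m₂.2.2 1), h.pow_eq, sub_self]
    haveI := h.map_isPrime hker
    have hr : (⟨_, hdp⟩ : (S ⊓ vert V : Subring F)) ∉ s := by
      intro hr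
      have h3 : d * m₂ ∈ s := by
        rw [← h.mem_iff_map hker, ← h2, h.mem_iff_map hker]
        exact s.mul_mem_left _ hr
      rcases hs.mem_or_mem h3 with h4 | h4
      · exact hd h4
      · have h5 : ρ 1 m₂ ∈ s.map (ρ 1) := Ideal.mem_map_of_mem _ h4
        exact (inferInstance : (s.map (ρ 1)).IsPrime).ne_top
          (Ideal.eq_top_of_isUnit_mem _ h5 h.m₂_unit)
    refine ⟨⟨_, hdp⟩, hr, ?_⟩
    have h6 : (d : F) * ((π : F) ^ n * ϖ⁻¹) * (ϖ * ((π : F) ^ n)⁻¹) = d := by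
      field_simp
    change (d : F) * ((π : F) ^ n * ϖ⁻¹) * (ϖ * ((π : F) ^ n)⁻¹) ∈ _
    rw [h6]
    exact d.2
  · exact hunr 2 hsep hker h.unif2

/-- **(I)** local factoriality. -/
theorem ufd (s : Ideal (S ⊓ vert V : Subring F)) [hs : s.IsPrime]
    (hϖ : ∀ a : (S ⊓ vert V : Subring F), (a : F) = ϖ → a ∈ s) :
    UniqueFactorizationMonoid (locSub _ s) := by
  obtain ⟨i, hi⟩ := exists_ker_le h.isVert h.inv_mem s hϖ h.mem
  by_cases he : e i ∈ s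
  · exact (h.of_mem hi he).2
  · exact h.of_not_mem hi he

/-- **(II)** the intersection points lie on all the components. -/
theorem all_ker (s : Ideal (S ⊓ vert V : Subring F)) [hs : s.IsPrime] {i j : Fin 3}
    (hij : i ≠ j)
    (hi : ∀ a : (S ⊓ vert V : Subring F), rv (V i) a = 0 → a ∈ s)
    (hj : ∀ a : (S ⊓ vert V : Subring F), rv (V j) a = 0 → a ∈ s) (l : Fin 3)
    (a : (S ⊓ vert V : Subring F)) (ha : rv (V l) a = 0) : a ∈ s := by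
  have he : e i ∈ s := hj _ ((h.ker j _).mp (h.e_zero i j hij.symm))
  exact (h.of_mem hi he).1 l a ha

end LocOne

end Fermat.Agent.H26.RV
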