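import Fermat.Agent.Igusa.RTC

/-!
# Chart 1: the unit `Δ(q)/Δ(q^r)` over fields of characteristic zero
-/

set_option autoImplicit false
set_option linter.unusedSectionVars false

noncomputable section

open ModularCurve Polynomial

namespace Fermat.Agent.Igusa

section Unit

variable (r : ℕ) [hr : Fact r.Prime]

theorem lag_int : (lagN (modPoly r) (uG r)).eval₂ (evZ (jqModC ℤ)) (qExpand ℤ r (jqModC ℤ)) =
      uS r ℤ * (lagD (modPoly r)).eval₂ (evZ (jqModC ℤ)) (qExpand ℤ r (jqModC ℤ)) ∧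
    (lagD (modPoly r)).eval₂ (evZ (jqModC ℤ)) (qExpand ℤ r (jqModC ℤ)) ≠ 0 := by
  have hζ : IsPrimitiveRoot (zr r) r := by
    rw [← IsPrimitiveRoot.coe_units_iff]; exact zr_isPrimitiveRoot r
  obtain ⟨h1, h2⟩ := lag_inf r (K := ℂ) hζ
  have key : ∀ p : ℤ[X][X], coeffMap (Int.castRingHom ℂ)
      (p.eval₂ (evZ (jqModC ℤ)) (qExpand ℤ r (jqModC ℤ))) =
      p.eval₂ (evZ (jqModC ℂ)) (qExpand ℂ r (jqModC ℂ)) := by
    intro p
    rw [hom_eval₂, ringHom_comp_evZ, coeffMap_qExpand, coeffMap_jqModC]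
  refine ⟨?_, fun h => h2 ?_⟩
  · apply coeffMap_injective (Int.castRingHom ℂ) Int.cast_injective
    rw [map_mul, key, key, coeffMap_uS]
    exact h1
  · rw [← key, h, map_zero]

variable (K : Type*) [Field K] [CharZero K]

theorem lag_char0 : (lagN (modPoly r) (uG r)).eval₂ (evZ (jqModC K)) (qExpand K r (jqModC K)) =
      uS r K * (lagD (modPoly r)).eval₂ (evZ (jqModC K)) (qExpand K r (jqModC K)) ∧
    (lagD (modPoly r)).eval₂ (evZ (jqModC K)) (qExpand K r (jqModC K)) ≠ 0 := by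
  obtain ⟨h1, h2⟩ := lag_int r
  have key : ∀ p : ℤ[X][X], coeffMap (Int.castRingHom K)
      (p.eval₂ (evZ (jqModC ℤ)) (qExpand ℤ r (jqModC ℤ))) =
      p.eval₂ (evZ (jqModC K)) (qExpand K r (jqModC K)) := by
    intro p
    rw [hom_eval₂, ringHom_comp_evZ, coeffMap_qExpand, coeffMap_jqModC]
  refine ⟨?_, fun h => h2 ?_⟩
  · have h3 := congrArg (coeffMap (Int.castRingHom K)) h1
    rwa [map_mul, key, key, coeffMap_uS] at h3
  · apply coeffMap_injective (Int.castRingHom K) Int.cast_injective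
    rw [key, h, map_zero]

/-- `Δ(q)/Δ(q^r)` is a modular function of level `r` -/
theorem uS_mem_char0 (N : ℕ) (hN : r ∣ N) : uS r K ∈ modularFunctionFieldFullC K N := by
  obtain ⟨h1, h2⟩ := lag_char0 r K
  have hj := jqModC_mem_full K N
  have hj' : qExpand K r (jqModC K) ∈ modularFunctionFieldFullC K N := jqModCd_mem_full K N hN
  have h3 : uS r K = (lagN (modPoly r) (uG r)).eval₂ (evZ (jqModC K)) (qExpand K r (jqModC K)) /
      (lagD (modPoly r)).eval₂ (evZ (jqModC K)) (qExpand K r (jqModC K)) := by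
    rw [h1, mul_div_cancel_right₀ _ h2]
  rw [h3]
  exact div_mem (eval₂_evZ_mem _ hj hj' _) (eval₂_evZ_mem _ hj hj' _)

end Unit

section Integral

variable {r : ℕ} [hr : Fact r.Prime] {fi : UpperHalfPlane → ℂ}
  {f : ZMod r → UpperHalfPlane → ℂ} {Fi F0 : LaurentSeries ℤ}

/-- the members of a family are integral over `ℤ[j(q^r)]` -/
theorem IsFam.exists_monic_zero (hf : IsFam r fi f Fi F0) : ∃ p : ℤ[X][X], p.Monic ∧
    ∀ (R : Type) [CommRing R], p.eval₂ (evZ (qExpand R r (jqModC R)))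
      (coeffMap (Int.castRingHom R) F0) = 0 := by
  have h1 : (∏ i, (X - C (famC (r := r) Fi F0 (zr r) i))) ∈
      Polynomial.lifts (evZ (qExpand ℂ r (jqModC ℂ))) :=
    (Polynomial.lifts_iff_coeff_lifts _).mpr fun k => hf.coeff_mem k
  obtain ⟨p, h2, -, h4⟩ := Polynomial.lifts_and_natDegree_eq_and_monic h1
    (monic_prod_of_monic _ _ fun i _ => monic_X_sub_C _)
  refine ⟨p, h4, ?_⟩
  have h5 : p.eval₂ (evZ (qExpand ℂ r (jqModC ℂ))) (famC (r := r) Fi F0 (zr r) (some 0)) = 0 := by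
    rw [eval₂_eq_eval_map, h2, eval_prod]
    apply Finset.prod_eq_zero (Finset.mem_univ (some 0))
    rw [eval_sub, eval_X, eval_C, sub_self]
  have h6 : p.eval₂ (evZ (qExpand ℂ r (jqModC ℂ))) (coeffMap (Int.castRingHom ℂ) F0) = 0 := by
    have h7 : famC (r := r) Fi F0 (zr r) (some 0) = coeffMap (Int.castRingHom ℂ) F0 := by
      rw [famC, ZMod.val_zero, pow_zero, twist_one']
    rwa [h7] at h5
  have h7 : p.eval₂ (evZ (qExpand ℤ r (jqModC ℤ))) F0 = 0 := by
    apply coeffMap_injective (Int.castRingHom ℂ) Int.cast_injective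
    rw [map_zero, hom_eval₂, ringHom_comp_evZ, coeffMap_qExpand, coeffMap_jqModC]
    exact h6
  intro R _
  have h8 := congrArg (coeffMap (Int.castRingHom R)) h7
  rwa [map_zero, hom_eval₂, ringHom_comp_evZ, coeffMap_qExpand, coeffMap_jqModC] at h8

/-- `w u` is integral over `ℤ[j(q^r)]` -/
theorem exists_vPoly (r : ℕ) [hr : Fact r.Prime] : ∃ p : ℤ[X][X], p.Monic ∧
    ∀ (R : Type) [CommRing R], p.eval₂ (evZ (qExpand R r (jqModC R))) (uV r R) = 0 := by
  obtain ⟨p, hp, h⟩ := (uFam' r).exists_monic_zero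
  refine ⟨p, hp, fun R _ => ?_⟩
  have := h R
  rwa [coeffMap_uV] at this

end Integral

end Fermat.Agent.Igusa
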