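import Fermat.Agent.RV.Loc1Rho
import Fermat.Agent.RV.Loc1U

/-!
# Chart 1: the elements
-/

set_option autoImplicit false
set_option maxSynthPendingDepth 3
set_option linter.unusedSectionVars false

noncomputable section

attribute [-instance] HahnSeries.instModule HahnSeries.instSMul HahnSeries.instDistribMulAction
  HahnSeries.instSMulZeroClass

namespace Fermat.Agent.H23.R.Loc1

open ModularCurve ModularCurve.IgusaScheme Polynomial AlgebraicCurve Fermat.Agent.H26
  Fermat.Agent.H26.RV Fermat.Agent.H23.R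
open Fermat.Agent.Q (Red)
open Fermat.Agent.Igusa (HData SSData evZ evZ_X ringHom_evZ ringHom_comp_evZ uS uV uT)

local notation "Qb" => AlgebraicClosure ℚ
local notation "kk" => IsLocalRing.ResidueField

section Gen

theorem mem_intSub_of_poly {R F : Type*} [CommRing R] [Field F] [Algebra R F] {x y : F}
    {p : ℤ[X][X]} (hp : p.Monic) (h : p.eval₂ (evZ x) y = 0) : y ∈ intSub R x := by
  have hx : x ∈ Algebra.adjoin R {x} := Algebra.subset_adjoin rfl
  refine ⟨p.map (evZ (⟨x, hx⟩ : Algebra.adjoin R {x})), hp.map _, ?_⟩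
  rw [eval₂_map, ringHom_comp_evZ]
  exact h

/-- the hauptmodul is integral over `ℤ[j]`. -/
theorem exists_tPoly {r : ℕ} (D : HData r) : ∃ p : ℤ[X][X], p.Monic ∧
    ∀ (R : Type) [CommRing R], p.eval₂ (evZ (jqModC R)) (D.tq R) = 0 := by
  have h1 := D.hlt 1 (one_dvd r)
  have hU := D.hU 1 (one_dvd r)
  have hW := D.hW 1 (one_dvd r)
  refine ⟨(D.U 1).map (Int.castRingHom _) - C X * (D.W 1).map (Int.castRingHom _), ?_, ?_⟩
  · apply Monic.sub_of_left (hU.1.map _)
    refine lt_of_le_of_lt ((degree_mul_le _ _).trans (add_le_add_left degree_C_le _)) ?_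
    rw [zero_add, degree_eq_natDegree (hW.1.map _).ne_zero, degree_eq_natDegree (hU.1.map _).ne_zero,
      hW.1.natDegree_map, hU.1.natDegree_map, hU.2, hW.2]
    exact_mod_cast h1
  · intro R _
    rw [eval₂_sub, eval₂_mul, eval₂_C, eval₂_map, eval₂_map, evZ_X]
    have h2 : ∀ p : ℤ[X], p.eval₂ ((evZ (jqModC R)).comp (Int.castRingHom _)) (D.tq R) =
        evZ (D.tq R) p := by
      intro p
      rw [Igusa.evZ_apply]
      congr 1
      exact RingHom.ext_int _ _
    rw [h2, h2, D.j_tq, D.U_one, map_pow, sub_self]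

end Gen

section LvlE

variable (q M : ℕ) [hq : Fact q.Prime] [NeZero M] (A : ValuationSubring Qb)

/-- `Δ(q)/Δ(q^q)` at level `M q` -/
def uE : LF (K0 A) (M * q) := ⟨uS q (K0 A), by
  change _ ∈ laurentBaseChange (K0 A) (modularFunctionFieldFull (M * q))
  rw [H05.laurentBaseChange_full]
  exact Igusa.uS_mem_char0 q (K0 A) (M * q) (dvd_mul_left q M)⟩

theorem coe_uE : (uE q M A : LaurentSeries (K0 A)) = uS q (K0 A) := rfl

/-- its Atkin–Lehner conjugate -/
def vE : LF (K0 A) (M * q) := (q : LF (K0 A) (M * q)) ^ 12 * (uE q M A)⁻¹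

theorem uS_ne_zero (K : Type*) [Field K] [CharZero K] : uS q K ≠ 0 := by
  intro h
  have h1 := Igusa.uS_mul_uV q K
  rw [h, zero_mul] at h1
  have h2 : (q : LaurentSeries K) ≠ 0 := by
    have h3 : (q : LaurentSeries K) = HahnSeries.C (q : K) := (map_natCast _ q).symm
    rw [h3]
    intro h4
    have h5 : (q : K) = 0 := HahnSeries.C_injective (h4.trans (map_zero _).symm)
    exact hq.out.ne_zero (by exact_mod_cast h5)
  exact pow_ne_zero 12 h2 h1.symm

theorem uV_ne_zero (K : Type*) [Field K] [CharZero K] : uV q K ≠ 0 := by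
  intro h
  have h1 := Igusa.uS_mul_uV q K
  rw [h, mul_zero] at h1
  have h2 : (q : LaurentSeries K) ≠ 0 := by
    have h3 : (q : LaurentSeries K) = HahnSeries.C (q : K) := (map_natCast _ q).symm
    rw [h3]
    intro h4
    have h5 : (q : K) = 0 := HahnSeries.C_injective (h4.trans (map_zero _).symm)
    exact hq.out.ne_zero (by exact_mod_cast h5)
  exact pow_ne_zero 12 h2 h1.symm

theorem coe_vE : (vE q M A : LaurentSeries (K0 A)) = uV q (K0 A) := by
  have h1 : (vE q M A : LaurentSeries (K0 A)) =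
      (q : LaurentSeries (K0 A)) ^ 12 * (uS q (K0 A))⁻¹ := by
    have h2 : ((q : LF (K0 A) (M * q)) : LaurentSeries (K0 A)) = (q : LaurentSeries (K0 A)) := rfl
    change ((q : LF (K0 A) (M * q)) : LaurentSeries (K0 A)) ^ 12 * (uS q (K0 A))⁻¹ = _
    rw [h2]
  rw [h1, ← Igusa.uS_mul_uV q (K0 A), mul_comm, ← mul_assoc,
    inv_mul_cancel₀ (uS_ne_zero q (K0 A)), one_mul]

variable {q M A}

theorem uE_mem : uE q M A ∈ intSub (A0 A) (jK (K0 A) (M * q)) := by
  obtain ⟨p, hp, h⟩ := Igusa.exists_uPoly q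
  apply mem_intSub_of_poly hp
  apply (laurentBaseChange (K0 A) (modularFunctionFieldFull (M * q))).val.toRingHom.injective
  rw [Igusa.eval₂_evZ_map, map_zero]
  change p.eval₂ (evZ ((jK (K0 A) (M * q) : LF (K0 A) (M * q)) : LaurentSeries (K0 A)))
    (uS q (K0 A)) = 0
  rw [coe_jK]
  exact h (K0 A)

theorem vE_mem : vE q M A ∈ intSub (A0 A) (jK (K0 A) (M * q)) := by
  rw [← intSub_beta]
  obtain ⟨p, hp, h⟩ := Igusa.exists_vPoly q
  apply mem_intSub_of_poly hp
  apply (laurentBaseChange (K0 A) (modularFunctionFieldFull (M * q))).val.toRingHom.injective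
  rw [Igusa.eval₂_evZ_map, map_zero]
  change p.eval₂ (evZ ((heckeBetaBar (K0 A) M q (jK (K0 A) M) : LF (K0 A) (M * q)) :
    LaurentSeries (K0 A))) ((vE q M A : LF (K0 A) (M * q)) : LaurentSeries (K0 A)) = 0
  rw [coe_heckeBetaBar, coe_jK, coe_vE]
  exact h (K0 A)

variable (hqM : Nat.Coprime q M)

theorem ie0_uE : ie hqM (K0 A) 0 (uE q M A) = uS q Qb := by
  rw [ie0, coe_uE]
  exact Igusa.coeffMap_uS q _

theorem ie1_uE : ie hqM (K0 A) 1 (uE q M A) = uV q Qb := by
  have h1 : bar (K0 A) (M * q) (uE q M A) =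
      ⟨uS q Qb, Igusa.uS_mem q (zt_prim Qb hqM) (M * q) (dvd_mul_left q M)⟩ := by
    apply Subtype.ext
    rw [coe_bar, coe_uE]
    exact Igusa.coeffMap_uS q _
  rw [ie1, h1]
  exact Igusa.coe_wQ_uS q (zt_prim Qb hqM) M hqM

theorem ie0_vE : ie hqM (K0 A) 0 (vE q M A) = uV q Qb := by
  rw [vE, map_mul, map_pow, map_inv₀, ie0_uE, map_natCast, ← Igusa.uS_mul_uV q Qb, mul_comm,
    ← mul_assoc, inv_mul_cancel₀ (uS_ne_zero q Qb), one_mul]

theorem ie1_vE : ie hqM (K0 A) 1 (vE q M A) = uS q Qb := by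
  rw [vE, map_mul, map_pow, map_inv₀, ie1_uE, map_natCast, ← Igusa.uS_mul_uV q Qb, mul_assoc,
    mul_inv_cancel₀ (uV_ne_zero q Qb), mul_one]

end LvlE

section Elts

variable {q M : ℕ} [hq : Fact q.Prime] [NeZero M] (hqM : Nat.Coprime q M)
  {A : ValuationSubring Qb} (hA : A.LiesOverPrime q)

/-- the series `T(j)` -/
abbrev TT (q : ℕ) [Fact q.Prime] (A : ValuationSubring Qb) : LaurentSeries (kk A) :=
  evZ (jqModC (kk A)) (uT q)

include hA in
theorem qExpand_int (F : LaurentSeries ℤ) :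
    qExpand (kk A) q (coeffMap (Int.castRingHom (kk A)) F) =
      coeffMap (Int.castRingHom (kk A)) F ^ q := by
  haveI := charP_kk (q := q) hA
  exact Igusa.qExpand_tq_char q F

include hA in
theorem qExpand_TT : qExpand (kk A) q (TT q A) = TT q A ^ q := by
  rw [TT, ringHom_evZ, qExpand_jqModC hA, ← coeffMap_jqModC (Int.castRingHom (kk A)), ← map_pow,
    ← ringHom_evZ, ← ringHom_evZ, ← map_pow]
  haveI := charP_kk (q := q) hA
  have h1 := qExpand_int hA (evZ (jqModC ℤ) (uT q))
  rw [ringHom_evZ, ringHom_evZ] at h1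
  have h2 : qExpand (kk A) q (coeffMap (Int.castRingHom (kk A)) (jqModC ℤ)) =
      coeffMap (Int.castRingHom (kk A)) (jqModC ℤ) ^ q := qExpand_int hA _
  rw [h2] at h1
  rw [ringHom_evZ, map_pow, h1, map_pow, ringHom_evZ]

include hA in
theorem red_ie0_uE : Red A (ie hqM (K0 A) 0 (uE q M A)) (TT q A) := by
  haveI := charP_kk (q := q) hA
  rw [ie0_uE]; exact Igusa.red_uS q

include hA in
theorem red_ie1_uE : Red A (ie hqM (K0 A) 1 (uE q M A)) 0 := by
  haveI := charP_kk (q := q) hA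
  rw [ie1_uE]; exact Igusa.red_uV q

include hA in
theorem red_ie0_vE : Red A (ie hqM (K0 A) 0 (vE q M A)) 0 := by
  haveI := charP_kk (q := q) hA
  rw [ie0_vE]; exact Igusa.red_uV q

include hA in
theorem red_ie1_vE : Red A (ie hqM (K0 A) 1 (vE q M A)) (TT q A) := by
  haveI := charP_kk (q := q) hA
  rw [ie1_vE]; exact Igusa.red_uS q

/-- the separating elements -/
def eF (q M : ℕ) [Fact q.Prime] [NeZero M] (A : ValuationSubring Qb) :
    Fin 3 → LF (K0 A) (M * q * q) :=
  ![heckeBetaBar (K0 A) (M * q) q (uE q M A),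
    heckeAlphaBar (K0 A) (M * q) q (uE q M A) * heckeBetaBar (K0 A) (M * q) q (vE q M A),
    heckeAlphaBar (K0 A) (M * q) q (vE q M A)]

theorem eF_mem (i : Fin 3) : eF q M A i ∈ intSub (A0 A) (jK (K0 A) (M * q * q)) := by
  rcases fin3_cases i with rfl | rfl | rfl
  · exact beta_mem uE_mem
  · exact mul_mem (alpha_mem uE_mem) (beta_mem vE_mem)
  · exact alpha_mem vE_mem

/-- the exponents -/
def eN (q : ℕ) : Fin 3 → ℕ := ![q, 2, q]

include hA in
theorem red_eF (i l : Fin 3) : Red A (io hqM (K0 A) l (eF q M A i))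
    (if l = i then TT q A ^ eN q i else 0) := by
  have hzt := zt_pow Qb hqM
  rcases fin3_cases i with rfl | rfl | rfl
  · change Red A (io hqM (K0 A) l (heckeBetaBar (K0 A) (M * q) q (uE q M A))) _
    rcases fin3_cases l with rfl | rfl | rfl
    · rw [if_pos rfl, io0_beta]
      change Red A _ (TT q A ^ q)
      rw [← qExpand_TT hA]
      exact (red_ie0_uE hqM hA).qExpand q
    · rw [if_neg (by decide), io1_beta]
      exact red_twist hq.out hA hzt (red_ie1_uE hqM hA)
    · rw [if_neg (by decide), io2_beta]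
      exact red_ie1_uE hqM hA
  · change Red A (io hqM (K0 A) l (heckeAlphaBar (K0 A) (M * q) q (uE q M A) *
      heckeBetaBar (K0 A) (M * q) q (vE q M A))) _
    rw [map_mul]
    rcases fin3_cases l with rfl | rfl | rfl
    · rw [if_neg (by decide), io0_alpha, io0_beta]
      have h1 := (red_ie0_uE hqM hA).mul ((red_ie0_vE hqM hA).qExpand q)
      rwa [map_zero, mul_zero] at h1
    · rw [if_pos rfl, io1_alpha, io1_beta]
      change Red A _ (TT q A ^ 2)
      rw [sq]
      exact (red_ie0_uE hqM hA).mul (red_twist hq.out hA hzt (red_ie1_vE hqM hA))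
    · rw [if_neg (by decide), io2_alpha, io2_beta]
      have h1 := ((red_ie1_uE hqM hA).qExpand q).mul (red_ie1_vE hqM hA)
      rwa [map_zero, zero_mul] at h1
  · change Red A (io hqM (K0 A) l (heckeAlphaBar (K0 A) (M * q) q (vE q M A))) _
    rcases fin3_cases l with rfl | rfl | rfl
    · rw [if_neg (by decide), io0_alpha]
      exact red_ie0_vE hqM hA
    · rw [if_neg (by decide), io1_alpha]
      exact red_ie0_vE hqM hA
    · rw [if_pos rfl, io2_alpha]
      change Red A _ (TT q A ^ q)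
      rw [← qExpand_TT hA]
      exact (red_ie1_vE hqM hA).qExpand q

end Elts

section Haupt

variable {q M : ℕ} [hq : Fact q.Prime] [NeZero M] (hqM : Nat.Coprime q M)
  {A : ValuationSubring Qb} (hA : A.LiesOverPrime q)
  {r : ℕ} [NeZero r] (D : HData r) (hrM : r ∣ M)

/-- the hauptmodul at level `M` -/
def tM (A : ValuationSubring Qb) : LF (K0 A) M := ⟨D.tq (K0 A), by
  change _ ∈ laurentBaseChange (K0 A) (modularFunctionFieldFull M)
  rw [H05.laurentBaseChange_full]
  exact full_degeneracyC_le (K0 A) hrM (D.tq_mem (K0 A) (by exact_mod_cast NeZero.ne r))⟩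

theorem coe_tM : (tM D hrM A : LaurentSeries (K0 A)) = D.tq (K0 A) := rfl

theorem eb_tM : eb (K0 A) M (tM D hrM A) = D.tq Qb := by
  rw [eb_apply, coe_tM]
  exact D.coeffMap_tq _

theorem red_eb_tM : Red A (eb (K0 A) M (tM D hrM A)) (D.tq (kk A)) := by
  rw [eb_tM]; exact Igusa.red_tq D

theorem tM_mem : tM D hrM A ∈ intSub (A0 A) (jK (K0 A) M) := by
  obtain ⟨p, hp, h⟩ := exists_tPoly D
  apply mem_intSub_of_poly hp
  apply (laurentBaseChange (K0 A) (modularFunctionFieldFull M)).val.toRingHom.injective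
  rw [Igusa.eval₂_evZ_map, map_zero]
  change p.eval₂ (evZ ((jK (K0 A) M : LF (K0 A) M) : LaurentSeries (K0 A)))
    (D.tq (K0 A)) = 0
  rw [coe_jK]
  exact h (K0 A)

include hA in
theorem qExpand_tq : qExpand (kk A) q (D.tq (kk A)) = D.tq (kk A) ^ q := qExpand_int hA D.t

end Haupt

end Fermat.Agent.H23.R.Loc1
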