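import Fermat.Agent.H23.R.Lifts
import Fermat.Agent.H27.ConstU
import Fermat.Agent.RV.Loc1Abs
import Fermat.Agent.Igusa.RTC

/-!
# Chart 1: the reductions of the chart ring
-/

set_option autoImplicit false
set_option maxSynthPendingDepth 3
set_option linter.unusedSectionVars false

noncomputable section

attribute [-instance] HahnSeries.instModule HahnSeries.instSMul HahnSeries.instDistribMulAction
  HahnSeries.instSMulZeroClass

namespace Fermat.Agent.H23.R.Loc1

open ModularCurve ModularCurve.IgusaScheme Polynomial AlgebraicCurve Fermat.Agent.H26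
  Fermat.Agent.H26.RV Fermat.Agent.H23.R
open Fermat.Agent.Q (Red)

local notation "Qb" => AlgebraicClosure ℚ
local notation "kk" => IsLocalRing.ResidueField

/-- the coordinate ring of the special fibre -/
abbrev DD (A : ValuationSubring Qb) (M : ℕ) [NeZero M] : Type :=
  H28.CR (kk A) (H27.tK (kk A) M)

section CR

variable {A : ValuationSubring Qb} {M : ℕ} [NeZero M]

theorem mem_DD_iff {u : LaurentSeries (kk A)} (hu : u ∈ LK A M) :
    (⟨u, hu⟩ : LK A M) ∈ H28.CR (kk A) (H27.tK (kk A) M) ↔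
      IntRel (kk A) (jqModC (kk A)) u := by
  rw [mem_integralClosure_iff, ← intRel_iff]
  constructor
  · rintro ⟨P, hP, hPu⟩
    refine ⟨P, hP, ?_⟩
    have h1 := congrArg (modularFunctionFieldFullC (kk A) M).val.toRingHom hPu
    rw [map_zero, hom_eval₂] at h1
    have h2 : (modularFunctionFieldFullC (kk A) M).val.toRingHom.comp
        (aeval (H27.tK (kk A) M) : (kk A)[X] →ₐ[kk A] LK A M).toRingHom =
        (aeval (jqModC (kk A)) : (kk A)[X] →ₐ[kk A] LaurentSeries (kk A)).toRingHom := by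
      apply Polynomial.ringHom_ext
      · intro c
        change (modularFunctionFieldFullC (kk A) M).val (aeval (H27.tK (kk A) M) (C c)) =
          aeval (jqModC (kk A)) (C c)
        rw [aeval_C, aeval_C]
        rfl
      · change (modularFunctionFieldFullC (kk A) M).val (aeval (H27.tK (kk A) M) X) =
          aeval (jqModC (kk A)) X
        rw [aeval_X, aeval_X]
        rfl
    rw [h2] at h1
    exact h1
  · intro h
    exact IntRel.of_hom (modularFunctionFieldFullC (kk A) M).val.toRingHom (fun c => rfl) h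

/-- elements of `DD` from series -/
def mkD (u : LaurentSeries (kk A)) (hu : u ∈ LK A M) (hi : IntRel (kk A) (jqModC (kk A)) u) :
    DD A M := ⟨⟨u, hu⟩, (mem_DD_iff hu).mpr hi⟩

/-- the underlying series -/
def serD : DD A M →+* LaurentSeries (kk A) :=
  (modularFunctionFieldFullC (kk A) M).val.toRingHom.comp
    (H28.CR (kk A) (H27.tK (kk A) M)).val.toRingHom

theorem serD_injective : Function.Injective (serD (A := A) (M := M)) := fun a b h =>
  Subtype.ext (Subtype.ext h)

theorem serD_mkD (u : LaurentSeries (kk A)) (hu : u ∈ LK A M)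
    (hi : IntRel (kk A) (jqModC (kk A)) u) : serD (mkD u hu hi) = u := rfl

theorem serD_mem (x : DD A M) : serD x ∈ LK A M := x.1.2

theorem serD_intRel (x : DD A M) : IntRel (kk A) (jqModC (kk A)) (serD x) :=
  (mem_DD_iff x.1.2).mp x.2

theorem isDedekindDomain_DD [IsAlgClosed (kk A)] (hM : (M : kk A) ≠ 0) :
    IsDedekindDomain (DD A M) := by
  haveI := H27.isSeparable_Fk (kk A) M hM
  haveI := H27.finite_Fk (kk A) M hM
  exact H27.isDedekindDomain_CR _

end CR

section Rho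

variable {q M : ℕ} [hq : Fact q.Prime] [NeZero M] (hqM : Nat.Coprime q M)
  {A : ValuationSubring Qb} (hA : A.LiesOverPrime q)

/-- the chart ring -/
abbrev R1 : Subring (LF (K0 A) (M * q * q)) :=
  intSub (K0 A) (jK (K0 A) (M * q * q)) ⊓ vert (V hqM (K0 A) hA)

theorem jK_mem_V (i : Fin 3) : jK (K0 A) (M * q * q) ∈ V hqM (K0 A) hA i := by
  obtain ⟨n, hn⟩ := exists_red_io_jK hqM hA i
  exact (redV hqM hA i).mem hn

theorem intSub_A0_le_V (i : Fin 3) {z : LF (K0 A) (M * q * q)}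
    (hz : z ∈ intSub (A0 A) (jK (K0 A) (M * q * q))) : z ∈ V hqM (K0 A) hA i :=
  intSub_le_valuationSubring (R := A0 A)
    (fun (c : A0 A) => (const_mem_V hqM hA i (c : K0 A)).2 c.2) (jK_mem_V hqM hA i) hz

theorem intSub_A0_le {z : LF (K0 A) (M * q * q)}
    (hz : z ∈ intSub (A0 A) (jK (K0 A) (M * q * q))) : z ∈ R1 hqM hA := by
  refine ⟨isIntegral_intSub_of_le (fun a => ?_) hz, fun i => intSub_A0_le_V hqM hA i hz⟩
  rw [IsScalarTower.algebraMap_apply (A0 A) (K0 A) (LF (K0 A) (M * q * q))]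
  exact algebraMap_mem_intSub _

variable (hL : ∀ (i : Fin 3) (z : LF (K0 A) (M * q * q)) (u : LaurentSeries (kk A)),
      Red A (io hqM (K0 A) i z) u → u ∈ LK A M)
  (hI : ∀ z ∈ R1 hqM hA, z ∈ intSub (A0 A) (jK (K0 A) (M * q * q)))

include hL hI in
theorem exists_rho (i : Fin 3) (z : R1 hqM hA) :
    ∃ x : DD A M, Red A (io hqM (K0 A) i z) (serD x) := by
  obtain ⟨u, hu⟩ := ((redV hqM hA i).mem_iff z).1 (z.2.2 i)
  exact ⟨mkD u (hL i z u hu) (intRel_io hqM hA i (hI z z.2) hu), hu⟩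

/-- the reductions. -/
def rho (i : Fin 3) : R1 hqM hA →+* DD A M where
  toFun z := (exists_rho hqM hA hL hI i z).choose
  map_one' := by
    apply serD_injective
    refine (exists_rho hqM hA hL hI i 1).choose_spec.unique ?_
    rw [map_one]
    exact (redV hqM hA i).one
  map_zero' := by
    apply serD_injective
    refine (exists_rho hqM hA hL hI i 0).choose_spec.unique ?_
    rw [map_zero]
    exact (redV hqM hA i).zero
  map_mul' z w := by
    apply serD_injective
    refine (exists_rho hqM hA hL hI i (z * w)).choose_spec.unique ?_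
    rw [map_mul]
    exact (redV hqM hA i).mul (exists_rho hqM hA hL hI i z).choose_spec
      (exists_rho hqM hA hL hI i w).choose_spec
  map_add' z w := by
    apply serD_injective
    refine (exists_rho hqM hA hL hI i (z + w)).choose_spec.unique ?_
    rw [map_add]
    exact (redV hqM hA i).add (exists_rho hqM hA hL hI i z).choose_spec
      (exists_rho hqM hA hL hI i w).choose_spec

theorem red_rho (i : Fin 3) (z : R1 hqM hA) :
    Red A (io hqM (K0 A) i z) (serD (rho hqM hA hL hI i z)) :=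
  (exists_rho hqM hA hL hI i z).choose_spec

theorem serD_rho {i : Fin 3} {z : R1 hqM hA} {u : LaurentSeries (kk A)}
    (h : Red A (io hqM (K0 A) i z) u) : serD (rho hqM hA hL hI i z) = u :=
  (red_rho hqM hA hL hI i z).unique h

theorem rho_eq {i : Fin 3} {z : R1 hqM hA} {x : DD A M}
    (h : Red A (io hqM (K0 A) i z) (serD x)) : rho hqM hA hL hI i z = x :=
  serD_injective (serD_rho hqM hA hL hI h)

theorem rho_eq_zero_iff (i : Fin 3) (z : R1 hqM hA) :
    rho hqM hA hL hI i z = 0 ↔ rv (V hqM (K0 A) hA i) z = 0 := by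
  rw [(redV hqM hA i).rv_eq_zero_iff (red_rho hqM hA hL hI i z)]
  constructor
  · intro h; rw [h, map_zero]
  · intro h; exact serD_injective (h.trans (map_zero _).symm)

/-! level `M` functions -/

/-- `z` -/
def lvl0 (z : LF (K0 A) M) : LF (K0 A) (M * q * q) :=
  heckeAlphaBar (K0 A) (M * q) q (heckeAlphaBar (K0 A) M q z)

/-- `z(t^q)` -/
def lvl1 (z : LF (K0 A) M) : LF (K0 A) (M * q * q) :=
  heckeBetaBar (K0 A) (M * q) q (heckeAlphaBar (K0 A) M q z)

/-- `z(t^{q²})` -/
def lvl2 (z : LF (K0 A) M) : LF (K0 A) (M * q * q) :=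
  heckeBetaBar (K0 A) (M * q) q (heckeBetaBar (K0 A) M q z)

theorem lvl0_mem {z : LF (K0 A) M} (hz : z ∈ intSub (A0 A) (jK (K0 A) M)) :
    lvl0 (q := q) z ∈ intSub (A0 A) (jK (K0 A) (M * q * q)) := alpha_mem (alpha_mem hz)

theorem lvl1_mem {z : LF (K0 A) M} (hz : z ∈ intSub (A0 A) (jK (K0 A) M)) :
    lvl1 (q := q) z ∈ intSub (A0 A) (jK (K0 A) (M * q * q)) := beta_mem (alpha_mem hz)

theorem lvl2_mem {z : LF (K0 A) M} (hz : z ∈ intSub (A0 A) (jK (K0 A) M)) :
    lvl2 (q := q) z ∈ intSub (A0 A) (jK (K0 A) (M * q * q)) := beta_mem (beta_mem hz)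

section

variable {z : LF (K0 A) M} {u : LaurentSeries (kk A)} (hz : Red A (eb (K0 A) M z) u)

include hz

theorem red0_lvl0 : Red A (io hqM (K0 A) 0 (lvl0 z)) u := by
  rw [lvl0, io0_alpha, ie0_alpha]; exact hz

theorem red1_lvl0 : Red A (io hqM (K0 A) 1 (lvl0 z)) u := by
  rw [lvl0, io1_alpha, ie0_alpha]; exact hz

theorem red2_lvl0 : Red A (io hqM (K0 A) 2 (lvl0 z)) (qExpand (kk A) q (qExpand (kk A) q u)) := by
  rw [lvl0, io2_alpha, ie1_alpha]; exact (hz.qExpand q).qExpand q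

theorem red0_lvl1 : Red A (io hqM (K0 A) 0 (lvl1 z)) (qExpand (kk A) q u) := by
  rw [lvl1, io0_beta, ie0_alpha]; exact hz.qExpand q

include hA in
theorem red1_lvl1 : Red A (io hqM (K0 A) 1 (lvl1 z)) (qExpand (kk A) q u) := by
  rw [lvl1, io1_beta, ie1_alpha]
  exact red_twist hq.out hA (zt_pow Qb hqM) (hz.qExpand q)

theorem red2_lvl1 : Red A (io hqM (K0 A) 2 (lvl1 z)) (qExpand (kk A) q u) := by
  rw [lvl1, io2_beta, ie1_alpha]; exact hz.qExpand q

theorem red0_lvl2 : Red A (io hqM (K0 A) 0 (lvl2 z)) (qExpand (kk A) q (qExpand (kk A) q u)) := by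
  rw [lvl2, io0_beta, ie0_beta]; exact (hz.qExpand q).qExpand q

include hA in
theorem red1_lvl2 : Red A (io hqM (K0 A) 1 (lvl2 z)) u := by
  rw [lvl2, io1_beta, ie1_beta]
  exact red_twist hq.out hA (zt_pow Qb hqM) hz

theorem red2_lvl2 : Red A (io hqM (K0 A) 2 (lvl2 z)) u := by
  rw [lvl2, io2_beta, ie1_beta]; exact hz

end

theorem io1_lvl0 (z : LF (K0 A) M) : io hqM (K0 A) 1 (lvl0 z) = eb (K0 A) M z := by
  rw [lvl0, io1_alpha, ie0_alpha]

theorem io1_lvl2 (z : LF (K0 A) M) :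
    io hqM (K0 A) 1 (lvl2 z) = Igusa.twist (zt Qb hqM) (eb (K0 A) M z) := by
  rw [lvl2, io1_beta, ie1_beta]

include hL hI in
theorem lift01 (hG : GoodLvl q M) (y : DD A M) : ∃ a : R1 hqM hA,
    rho hqM hA hL hI 0 a = y ∧ rho hqM hA hL hI 1 a = y := by
  obtain ⟨z, hz, hzu⟩ := exists_lift_M hA hG (serD_mem y) (serD_intRel y)
  exact ⟨⟨lvl0 z, intSub_A0_le hqM hA (lvl0_mem hz)⟩, rho_eq hqM hA hL hI (red0_lvl0 hqM hzu),
    rho_eq hqM hA hL hI (red1_lvl0 hqM hzu)⟩

include hL hI in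
theorem lift21 (hG : GoodLvl q M) (y : DD A M) : ∃ a : R1 hqM hA,
    rho hqM hA hL hI 2 a = y ∧ rho hqM hA hL hI 1 a = y := by
  obtain ⟨z, hz, hzu⟩ := exists_lift_M hA hG (serD_mem y) (serD_intRel y)
  exact ⟨⟨lvl2 z, intSub_A0_le hqM hA (lvl2_mem hz)⟩, rho_eq hqM hA hL hI (red2_lvl2 hqM hzu),
    rho_eq hqM hA hL hI (red1_lvl2 hqM hA hzu)⟩

end Rho

end Fermat.Agent.H23.R.Loc1
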