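import Mathlib

/-!
# A Newton polygon lemma
-/

set_option autoImplicit false

noncomputable section

open Polynomial

namespace Fermat.Agent.H26.RV

/-- If `Ψ = ϖ (unit) + ϖ (…) X + ⋯ + unit X ^ n + ⋯` and `Ψ(d) = 0`, `v(d) < 1`, then
`v(d) ^ n = v(ϖ)`. -/
theorem valuation_pow_eq {V S Γ₀ : Type*} [CommRing V] [CommRing S] [Algebra V S]
    [LinearOrderedCommGroupWithZero Γ₀] (v : Valuation S Γ₀) (hv : ∀ x, v x ≤ 1) {ϖ : V}
    (hϖ : v (algebraMap V S ϖ) ≠ 0) {n : ℕ} (hn : n ≠ 0) (Ψ : V[X])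
    (h0 : ∃ h : V, v (algebraMap V S h) = 1 ∧ Ψ.coeff 0 = ϖ * h)
    (hi : ∀ i < n, ϖ ∣ Ψ.coeff i) (hcn : v (algebraMap V S (Ψ.coeff n)) = 1)
    {d : S} (hd : v d < 1) (hdΨ : aeval d Ψ = 0) : v d ^ n = v (algebraMap V S ϖ) := by
  obtain ⟨h, hh, h0⟩ := h0
  have hΨn : n < Ψ.natDegree + 1 := by
    by_contra hlt
    rw [not_lt] at hlt
    rw [coeff_eq_zero_of_natDegree_lt (by omega), map_zero, map_zero] at hcn
    exact zero_ne_one hcn
  obtain ⟨k, hk⟩ := Nat.exists_eq_add_of_lt hΨn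
  rw [aeval_eq_sum_range, hk, show n + k + 1 = n + (k + 1) by ring, Finset.sum_range_add] at hdΨ
  set A := ∑ i ∈ Finset.range n, Ψ.coeff i • d ^ i with hA
  have hB : ∑ i ∈ Finset.range (k + 1), Ψ.coeff (n + i) • d ^ (n + i) =
      d ^ n * ∑ i ∈ Finset.range (k + 1), Ψ.coeff (n + i) • d ^ i := by
    rw [Finset.mul_sum]
    refine Finset.sum_congr rfl fun i _ => ?_
    rw [pow_add, mul_smul_comm]
  rw [hB] at hdΨ
  set B := ∑ i ∈ Finset.range (k + 1), Ψ.coeff (n + i) • d ^ i with hBdef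
  have hvd : ∀ i, v (d ^ (i + 1)) < 1 := fun i => by
    rw [map_pow]
    exact pow_lt_one₀ zero_le' hd (Nat.succ_ne_zero i)
  have hϖ0 : 0 < v (algebraMap V S ϖ) := zero_lt_iff.mpr hϖ
  have hvA : v A = v (algebraMap V S ϖ) := by
    obtain ⟨l, rfl⟩ := Nat.exists_eq_succ_of_ne_zero hn
    rw [hA, Finset.sum_range_succ', pow_zero, h0, Algebra.smul_def, mul_one, map_mul]
    rw [Valuation.map_add_eq_of_lt_right, map_mul, hh, mul_one]
    rw [map_mul, hh, mul_one]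
    refine Valuation.map_sum_lt v hϖ fun i hi' => ?_
    rw [Finset.mem_range] at hi'
    obtain ⟨c, hc⟩ := hi (i + 1) (Nat.succ_lt_succ hi')
    rw [hc, Algebra.smul_def, map_mul, map_mul, map_mul]
    calc v (algebraMap V S ϖ) * v (algebraMap V S c) * v (d ^ (i + 1))
        ≤ v (algebraMap V S ϖ) * 1 * v (d ^ (i + 1)) := by gcongr; exact hv _
      _ = v (algebraMap V S ϖ) * v (d ^ (i + 1)) := by rw [mul_one]
      _ < v (algebraMap V S ϖ) * 1 := by
        exact (mul_lt_mul_iff_right₀ hϖ0).mpr (hvd i)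
      _ = v (algebraMap V S ϖ) := mul_one _
  have hvB : v B = 1 := by
    rw [hBdef, Finset.sum_range_succ', pow_zero, Algebra.smul_def, mul_one, add_zero]
    rw [Valuation.map_add_eq_of_lt_right, hcn]
    rw [hcn]
    refine Valuation.map_sum_lt v one_ne_zero fun i hi' => ?_
    rw [Algebra.smul_def, map_mul]
    calc v (algebraMap V S (Ψ.coeff (n + (i + 1)))) * v (d ^ (i + 1))
        ≤ 1 * v (d ^ (i + 1)) := by gcongr; exact hv _
      _ < 1 := by rw [one_mul]; exact hvd i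
  have h2 : A = -(d ^ n * B) := by
    rw [eq_neg_iff_add_eq_zero]
    exact hdΨ
  rw [← hvA, h2, Valuation.map_neg, map_mul, map_pow, hvB, mul_one]

end Fermat.Agent.H26.RV
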