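import Fermat.Agent.RR.S36Wire
import Fermat.Agent.H05.Geom

/-!
# S36 from `TheoremRAux`
-/

set_option autoImplicit false
set_option linter.style.haveILetI false
set_option maxSynthPendingDepth 3

noncomputable section

open AlgebraicCurve ModularCurve

namespace Fermat.Agent.H26.RV

open Fermat.Agent.H05 Fermat.Agent.H22 Fermat.Agent.H26 Fermat.Agent.H01
open ModularFormClass (qCoeff)

/-- inertia acts trivially on the torsion, at every level. -/
theorem inAt_of_geom {p : ℕ} (hp : p.Prime) (N : ℕ) [NeZero N] (m q : ℕ) (hq : q.Prime)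
    (hqN : ¬ q ∣ N) (hqp : q ≠ p) (A : ValuationSubring (AlgebraicClosure ℚ))
    (hA : A.LiesOverPrime q) (τ : AlgebraicClosure ℚ ≃ₐ[ℚ] AlgebraicClosure ℚ)
    (hτ : τ ∈ A.inertiaSubgroupIn ℚ) (x : JZero N) (hx : (p ^ m) • x = 0) : τ • x = x := by
  rcases exists_aux hq hqN hp hqp with h | ⟨r, hr, hrN, hrℓ, hpr, h⟩
  · exact goodHyp p hp N m q hq h hqp A hA τ hτ x hx
  · haveI : NeZero r := ⟨hr.ne_zero⟩
    exact inertia_transfer N r hr hrN hp hpr (goodHyp p hp (N * r) m q hq h hqp A hA τ hτ) x hx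

/-- **S36 from `THEOREM R`.** -/
theorem s36_of_theoremR (HR : RR.TheoremRAux)
    {M : ℕ} [NeZero M] {g : CuspForm (CongruenceSubgroup.Gamma0 M) 2} (hg : g.IsNewform)
    (lam : ℕ) [hlam : Fact lam.Prime] (S : Finset ℕ)
    (O' : Type) [CommRing O'] [IsDomain O'] [IsDiscreteValuationRing O']
    [IsAdicComplete (IsLocalRing.maximalIdeal O') O'] [Finite (IsLocalRing.ResidueField O')]
    [CharZero O'] (hlamO' : (lam : O') ∈ IsLocalRing.maximalIdeal O')
    (chig : CuspForm.heckeAlgebra M 2 (↑S : Set ℕ) →+* ℂ)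
    (hchig : ∀ (ℓ : ℕ) (hℓ : ℓ.Prime) (hℓM : ¬ ℓ ∣ M) (hℓS : ℓ ∉ (↑S : Set ℕ)),
      chig (CuspForm.heckeAlgebra.T hℓ hℓM hℓS) = qCoeff g ℓ)
    (iota : chig.range →+* O')
    (hlamS : lam ∈ S) (hMS : ∀ q : ℕ, q.Prime → q ∣ M → q ∈ S) :
    ∃ (O'' : Type) (_ : CommRing O'') (_ : IsDomain O'') (_ : IsDiscreteValuationRing O'')
      (_ : IsAdicComplete (IsLocalRing.maximalIdeal O'') O'')
      (_ : Finite (IsLocalRing.ResidueField O''))
      (_ : CharZero O'') (_ : Algebra O' O'') (_ : Module.Finite O' O'')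
      (_ : IsLocalHom (algebraMap O' O'')),
      Function.Injective (algebraMap O' O'') ∧
      ∃ ρ : GaloisRepAdic O'',
        (∀ (ℓ : ℕ) (hℓ : ℓ.Prime) (hℓM : ¬ ℓ ∣ M) (hℓS : ℓ ∉ (↑S : Set ℕ)),
          ∀ A : ValuationSubring (AlgebraicClosure ℚ), A.LiesOverPrime ℓ →
            ∀ σ : AlgebraicClosure ℚ ≃ₐ[ℚ] AlgebraicClosure ℚ, A.IsFrobeniusAt σ ℓ →
              LinearMap.charpoly (ρ.ρ σ) =
                Polynomial.X ^ 2 - Polynomial.C (algebraMap O' O''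
                  ((iota.comp chig.rangeRestrict) (CuspForm.heckeAlgebra.T hℓ hℓM hℓS))) *
                    Polynomial.X
                  + Polynomial.C ((ℓ : O''))) ∧
        (∀ q : ℕ, q.Prime → q ≠ lam → M.factorization q = 2 → ¬ ρ.IsUnipotentOnInertiaAt q) :=
  RR.s36_of_input HR hg lam S
    (fun m q hq hqM hqlam A hA τ hτ x hx => inAt_of_geom hlam.out M m q hq hqM hqlam A hA τ hτ x hx)
    (fun m ℓ hℓ hℓM hℓlam A hA φ hφ x hx =>
      esAt_of_geom esHyp hlam.out M m ℓ hℓ hℓM hℓlam A hA φ hφ x hx)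
    O' hlamO' chig hchig iota hlamS hMS

end Fermat.Agent.H26.RV
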