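import Mathlib
import Fermat.Agent.RV.Factor
import Fermat.Agent.RV.Insep
import Fermat.Agent.RV.Newton

/-!
# The three extensions of the Gauss valuation
-/

set_option autoImplicit false

noncomputable section

open Polynomial IsDedekindDomain IsLocalRing WithZero

namespace Fermat.Agent.H26.RV

theorem sum_three {ι : Type*} [Fintype ι] (f : ι → ℕ) (hf : ∀ i, 0 < f i) {n : ℕ}
    (hsum : ∑ i, f i = n) {a b c : ι} (hab : a ≠ b) (hac : a ≠ c) (hbc : b ≠ c) {A B C : ℕ}
    (hA : A ≤ f a) (hB : B ≤ f b) (hC : C ≤ f c) (hn : n ≤ A + B + C) :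
    (∀ i, i = a ∨ i = b ∨ i = c) ∧ f a = A ∧ f b = B ∧ f c = C := by
  classical
  have h3 : ∑ i ∈ ({a, b, c} : Finset ι), f i = f a + f b + f c := by
    rw [Finset.sum_insert (by simp [hab, hac]), Finset.sum_insert (by simp [hbc]),
      Finset.sum_singleton, add_assoc]
  have h4 : ∑ i ∈ ({a, b, c} : Finset ι), f i ≤ ∑ i, f i :=
    Finset.sum_le_sum_of_subset (Finset.subset_univ _)
  rw [h3, hsum] at h4
  refine ⟨fun i => ?_, by omega, by omega, by omega⟩
  by_contra hi
  push Not at hi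
  have h5 : ∑ j ∈ ({i, a, b, c} : Finset ι), f j ≤ ∑ j, f j :=
    Finset.sum_le_sum_of_subset (Finset.subset_univ _)
  rw [Finset.sum_insert (by simp [hi.1, hi.2.1, hi.2.2]), h3, hsum] at h5
  have := hf i
  omega

section Residue

variable {V S : Type*} [CommRing V] [CommRing S] [Algebra V S] (m : Ideal V) [hm : m.IsMaximal]
  (P : Ideal S) [hPm : P.IsMaximal] [P.LiesOver m] {θ : S} {g : (V ⧸ m)[X]}

/-- the reduction of `θ` has minimal polynomial of degree `deg g`. -/
theorem natDegree_minpoly_residue [Module.Finite V S]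
    (hg : g ≠ 0) (hP : ∀ G : V[X], aeval θ G ∈ P ↔ g ∣ G.map (Ideal.Quotient.mk m)) :
    letI := Ideal.Quotient.field m
    (minpoly (V ⧸ m) (Ideal.Quotient.mk P θ)).natDegree = g.natDegree := by
  letI := Ideal.Quotient.field m
  letI := Ideal.Quotient.field P
  haveI : Module.Finite (V ⧸ m) (S ⧸ P) := Module.Finite.of_restrictScalars_finite V _ _
  have hint : IsIntegral (V ⧸ m) (Ideal.Quotient.mk P θ) := Algebra.IsIntegral.isIntegral _
  have key : ∀ G : V[X], aeval (Ideal.Quotient.mk P θ) (G.map (Ideal.Quotient.mk m)) =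
      Ideal.Quotient.mk P (aeval θ G) := by
    intro G
    have h1 : (Ideal.Quotient.mk m : V →+* V ⧸ m) = algebraMap V (V ⧸ m) := rfl
    have h2 : (Ideal.Quotient.mk P : S →+* S ⧸ P) = algebraMap S (S ⧸ P) := rfl
    rw [h1, aeval_map_algebraMap, h2, aeval_algebraMap_apply]
  have h1 : ∀ G : (V ⧸ m)[X], aeval (Ideal.Quotient.mk P θ) G = 0 ↔ g ∣ G := by
    intro G
    obtain ⟨G, rfl⟩ := Polynomial.map_surjective _ (Ideal.Quotient.mk_surjective (I := m)) G
    rw [key, Ideal.Quotient.eq_zero_iff_mem, hP]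
  have h2 : g ∣ minpoly (V ⧸ m) (Ideal.Quotient.mk P θ) := (h1 _).mp (minpoly.aeval _ _)
  have h3 : minpoly (V ⧸ m) (Ideal.Quotient.mk P θ) ∣ g := minpoly.dvd _ _ ((h1 _).mpr dvd_rfl)
  exact le_antisymm (natDegree_le_of_dvd h3 hg) (natDegree_le_of_dvd h2 (minpoly.ne_zero hint))

/-- The residue degree is at least `deg g`. -/
theorem natDegree_le_inertiaDeg [Module.Finite V S]
    (hg : g ≠ 0) (hP : ∀ G : V[X], aeval θ G ∈ P ↔ g ∣ G.map (Ideal.Quotient.mk m)) :
    g.natDegree ≤ P.inertiaDeg V := by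
  letI := Ideal.Quotient.field m
  letI := Ideal.Quotient.field P
  haveI : Module.Finite (V ⧸ m) (S ⧸ P) := Module.Finite.of_restrictScalars_finite V _ _
  rw [Ideal.inertiaDeg_eq_of_isMaximal m P, ← natDegree_minpoly_residue m P hg hP]
  exact minpoly.natDegree_le _

include m hm in
/-- Residue degree one. -/
theorem exists_sub_mem_of_inertiaDeg_eq_one (h : P.inertiaDeg V = 1) (x : S) :
    ∃ v : V, x - algebraMap V S v ∈ P := by
  letI := Ideal.Quotient.field m
  letI := Ideal.Quotient.field P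
  rw [Ideal.inertiaDeg_eq_of_isMaximal m P] at h
  obtain ⟨c, hc⟩ := (finrank_eq_one_iff_of_nonzero' (1 : S ⧸ P) one_ne_zero).mp h
    (Ideal.Quotient.mk P x)
  obtain ⟨v, rfl⟩ := Ideal.Quotient.mk_surjective c
  refine ⟨v, ?_⟩
  rw [← Ideal.Quotient.eq_zero_iff_mem, map_sub, ← hc, Algebra.smul_def, mul_one, sub_eq_zero]
  rfl

/-- Purely inseparable residue extension. -/
theorem exists_pow_sub_mem_of_inertiaDeg_eq [Module.Finite V S] (p : ℕ) [hp : Fact p.Prime]
    [CharP (V ⧸ m) p] (n : ℕ)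
    (hg : g ≠ 0) (hP : ∀ G : V[X], aeval θ G ∈ P ↔ g ∣ G.map (Ideal.Quotient.mk m))
    (h : P.inertiaDeg V = g.natDegree) {t : V} (ht : θ ^ p ^ n - algebraMap V S t ∈ P) (x : S) :
    ∃ v : V, x ^ p ^ n - algebraMap V S v ∈ P := by
  letI := Ideal.Quotient.field m
  letI := Ideal.Quotient.field P
  haveI : Module.Finite (V ⧸ m) (S ⧸ P) := Module.Finite.of_restrictScalars_finite V _ _
  rw [Ideal.inertiaDeg_eq_of_isMaximal m P, ← natDegree_minpoly_residue m P hg hP] at h
  have hint : IsIntegral (V ⧸ m) (Ideal.Quotient.mk P θ) := Algebra.IsIntegral.isIntegral _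
  have htop : Algebra.adjoin (V ⧸ m) {Ideal.Quotient.mk P θ} = ⊤ := by
    have h1 : IntermediateField.adjoin (V ⧸ m) {Ideal.Quotient.mk P θ} = ⊤ := by
      apply IntermediateField.eq_of_le_of_finrank_eq le_top
      rw [IntermediateField.adjoin.finrank hint, IntermediateField.finrank_top', h]
    rw [← IntermediateField.adjoin_simple_toSubalgebra_of_isAlgebraic hint.isAlgebraic, h1]
    rfl
  haveI : CharP (S ⧸ P) p := charP_of_injective_algebraMap (algebraMap (V ⧸ m) (S ⧸ P)).injective p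
  haveI : ExpChar (S ⧸ P) p := ExpChar.prime hp.out
  have h2 : ∀ z : S ⧸ P, z ∈ Algebra.adjoin (V ⧸ m) {Ideal.Quotient.mk P θ} →
      ∃ c : V ⧸ m, z ^ p ^ n = algebraMap (V ⧸ m) (S ⧸ P) c := by
    intro z hz
    induction hz using Algebra.adjoin_induction with
    | mem y hy =>
      rw [Set.mem_singleton_iff] at hy
      subst hy
      refine ⟨Ideal.Quotient.mk m t, ?_⟩
      rw [← map_pow]
      rw [← Ideal.Quotient.eq_zero_iff_mem, map_sub, sub_eq_zero] at ht
      exact ht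
    | algebraMap r => exact ⟨r ^ p ^ n, (map_pow _ _ _).symm⟩
    | add y z _ _ hy hz =>
      obtain ⟨c, hc⟩ := hy
      obtain ⟨c', hc'⟩ := hz
      exact ⟨c + c', by rw [add_pow_expChar_pow, hc, hc', map_add]⟩
    | mul y z _ _ hy hz =>
      obtain ⟨c, hc⟩ := hy
      obtain ⟨c', hc'⟩ := hz
      exact ⟨c * c', by rw [mul_pow, hc, hc', map_mul]⟩
  obtain ⟨c, hc⟩ := h2 (Ideal.Quotient.mk P x) (by rw [htop]; trivial)
  obtain ⟨v, rfl⟩ := Ideal.Quotient.mk_surjective c
  refine ⟨v, ?_⟩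
  rw [← Ideal.Quotient.eq_zero_iff_mem, map_sub, map_pow, hc, sub_eq_zero]
  rfl

end Residue

end Fermat.Agent.H26.RV
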